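import Fermat.Agent.S21.H58_Cocycle

set_option autoImplicit false
set_option linter.unusedSectionVars false

namespace Fermat.Agent.S21.H58

open Module

section ParDimAbs

variable {G : Type*} [Group G] (Γ : Subgroup G) (K : Type*) [Field K]

lemma smul_base (γ : Γ) : (γ : G) • (((1 : G) : G ⧸ Γ)) = ((1 : G) : G ⧸ Γ) := by
  rw [MulAction.Quotient.smul_coe, smul_eq_mul, mul_one, QuotientGroup.eq, mul_one]
  exact Γ.inv_mem γ.2

/-- The total cocycle `g ↦ c_φ(g) + (g - 1) m` attached to `(φ, m)`. -/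
noncomputable def tot (φ : Additive Γ →+ K) (m : G ⧸ Γ → K) (g : G) : G ⧸ Γ → K :=
  coc Γ φ g + (pull K g - 1 : Module.End K (G ⧸ Γ → K)) m

lemma tot_apply (φ : Additive Γ →+ K) (m : G ⧸ Γ → K) (g : G) (x : G ⧸ Γ) :
    tot Γ K φ m g x = coc Γ φ g x + (m (g • x) - m x) := rfl

lemma isCoc_tot (φ : Additive Γ →+ K) (m : G ⧸ Γ → K) : IsCoc K (tot Γ K φ m) :=
  (isCoc_coc Γ φ).add (isCoc_cob m)

/-- `(φ, m) ↦ (c(s), c(u))` with `c = tot φ m`. -/
noncomputable def PsiL (s u : G) :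
    (Additive Γ →+ K) × (G ⧸ Γ → K) →ₗ[K] (G ⧸ Γ → K) × (G ⧸ Γ → K) :=
  LinearMap.prod
    (cocL Γ K s ∘ₗ LinearMap.fst K _ _
      + (pull K s - 1 : Module.End K (G ⧸ Γ → K)) ∘ₗ LinearMap.snd K _ _)
    (cocL Γ K u ∘ₗ LinearMap.fst K _ _
      + (pull K u - 1 : Module.End K (G ⧸ Γ → K)) ∘ₗ LinearMap.snd K _ _)

lemma PsiL_apply (s u : G) (p : (Additive Γ →+ K) × (G ⧸ Γ → K)) :
    PsiL Γ K s u p = (tot Γ K p.1 p.2 s, tot Γ K p.1 p.2 u) := rfl

lemma eq_zero_of_tot_eq_zero {s u : G} (hgen : Subgroup.closure {s, u} = ⊤)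
    (φ : Additive Γ →+ K) (m : G ⧸ Γ → K)
    (hs : tot Γ K φ m s = 0) (hu : tot Γ K φ m u = 0) :
    φ = 0 ∧ ∀ (g : G) (x : G ⧸ Γ), m (g • x) = m x := by
  have h := (isCoc_tot Γ K φ m).eq_zero_of_closure hgen hs hu
  have hφ : φ = 0 := by
    ext γ
    have h1 := congrFun (h (γ : G)) ((1 : G) : G ⧸ Γ)
    rw [tot_apply, smul_base, sub_self, add_zero, coc_base] at h1
    simpa using h1
  refine ⟨hφ, fun g x => ?_⟩
  have h1 := congrFun (h g) x
  rw [tot_apply, hφ] at h1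
  simp only [coc, AddMonoidHom.zero_apply, zero_add, Pi.zero_apply] at h1
  exact sub_eq_zero.mp h1

lemma closure_pair_mul {s t : G} (hgen : Subgroup.closure {s, t} = ⊤) :
    Subgroup.closure {s, s * t} = ⊤ := by
  rw [eq_top_iff, ← hgen, Subgroup.closure_le]
  have hs : s ∈ Subgroup.closure {s, s * t} := Subgroup.subset_closure (Set.mem_insert _ _)
  have hst : s * t ∈ Subgroup.closure {s, s * t} :=
    Subgroup.subset_closure (Set.mem_insert_of_mem _ rfl)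
  have ht : t ∈ Subgroup.closure {s, s * t} := by
    have := Subgroup.mul_mem _ (Subgroup.inv_mem _ hs) hst
    simpa using this
  intro x hx
  rcases hx with hx | hx
  · rw [hx]; exact hs
  · rw [Set.mem_singleton_iff] at hx
    rw [hx]; exact ht

lemma PsiL_inl_injective {s u : G} (hgen : Subgroup.closure {s, u} = ⊤) :
    Function.Injective (PsiL Γ K s u ∘ₗ LinearMap.inl K _ _) := by
  rw [← LinearMap.ker_eq_bot, LinearMap.ker_eq_bot']
  intro φ h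
  have h' : PsiL Γ K s u (φ, 0) = 0 := h
  rw [PsiL_apply, Prod.mk_eq_zero] at h'
  exact (eq_zero_of_tot_eq_zero Γ K hgen φ 0 h'.1 h'.2).1

/-- Hom(Γ, K) is finite-dimensional when `Γ` has finite index in a 2-generated group. -/
lemma finite_hom [Γ.FiniteIndex] {s u : G} (hgen : Subgroup.closure {s, u} = ⊤) :
    Module.Finite K (Additive Γ →+ K) := by
  have : Finite (G ⧸ Γ) := Subgroup.finite_quotient_of_finiteIndex
  exact Module.Finite.of_injective _ (PsiL_inl_injective Γ K hgen)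

lemma schreier_of_fixed (g : G) (x : G ⧸ Γ) (hx : g • x = x) :
    (schreier Γ g x : G) = (Quotient.out x)⁻¹ * g * Quotient.out x := by
  simp only [schreier, hx, mul_assoc]

lemma nrm_tot_self (φ : Additive Γ →+ K) (m : G ⧸ Γ → K) (s : G) (ns : ℕ) (hs : s ^ ns = 1) :
    nrm K s ns (tot Γ K φ m s) = 0 := by
  rw [← (isCoc_tot Γ K φ m).pow s ns, hs, (isCoc_tot Γ K φ m).one]

lemma tot_pow_of_fixed (φ : Additive Γ →+ K) (m : G ⧸ Γ → K) (t : G) (n : ℕ)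
    (ht : ∀ x : G ⧸ Γ, t ^ n • x = x)
    (hφ : ∀ (γ : Γ) (g : G), (γ : G) = g⁻¹ * t ^ n * g → φ (Additive.ofMul γ) = 0) :
    tot Γ K φ m (t ^ n) = 0 := by
  ext x
  rw [tot_apply, ht x, sub_self, add_zero, Pi.zero_apply]
  exact hφ _ (Quotient.out x) (schreier_of_fixed Γ (t ^ n) x (ht x))

lemma nrm_tot_sub (φ : Additive Γ →+ K) (m : G ⧸ Γ → K) (s t : G) (n : ℕ)
    (ht : ∀ x : G ⧸ Γ, t ^ n • x = x)
    (hφ : ∀ (γ : Γ) (g : G), (γ : G) = g⁻¹ * t ^ n * g → φ (Additive.ofMul γ) = 0) :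
    nrm K t n (tot Γ K φ m (s * t) - tot Γ K φ m s) = 0 := by
  have h1 : tot Γ K φ m (s * t) - tot Γ K φ m s
      = (pull K t - 1 : Module.End K (G ⧸ Γ → K)) (tot Γ K φ m s) + tot Γ K φ m t := by
    rw [(isCoc_tot Γ K φ m) s t, LinearMap.sub_apply, Module.End.one_apply]
    abel
  rw [h1, map_add, ← Module.End.mul_apply, nrm_mul_pull_sub_one K t n ht, LinearMap.zero_apply,
    zero_add, ← (isCoc_tot Γ K φ m).pow t n, tot_pow_of_fixed Γ K φ m t n ht hφ]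

/-- The abstract dimension bound. -/
theorem pardim_abstract [Γ.FiniteIndex] (s t : G) (ns nu n : ℕ)
    (hgen : Subgroup.closure {s, t} = ⊤) (hs : s ^ ns = 1) (hu : (s * t) ^ nu = 1)
    (ht : ∀ x : G ⧸ Γ, t ^ n • x = x)
    (hns : (ns : K) ≠ 0) (hnu : (nu : K) ≠ 0) (hn : (n : K) ≠ 0)
    (V : Submodule K (Additive Γ →+ K))
    (hV : ∀ φ ∈ V, ∀ (γ : Γ) (g : G), (γ : G) = g⁻¹ * t ^ n * g → φ (Additive.ofMul γ) = 0) :
    Module.Finite K V ∧
      finrank K V + Nat.card (Orb s (G ⧸ Γ)) + Nat.card (Orb (s * t) (G ⧸ Γ))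
        + Nat.card (Orb t (G ⧸ Γ)) ≤ Nat.card (G ⧸ Γ) + 2 := by
  classical
  have : Finite (G ⧸ Γ) := Subgroup.finite_quotient_of_finiteIndex
  have : Fintype (G ⧸ Γ) := Fintype.ofFinite _
  have hgen' : Subgroup.closure {s, s * t} = ⊤ := closure_pair_mul hgen
  have : Module.Finite K (Additive Γ →+ K) := finite_hom Γ K hgen'
  have : Module.Finite K V := inferInstance
  refine ⟨inferInstance, ?_⟩
  have hs' : ∀ x : G ⧸ Γ, s ^ ns • x = x := fun x => by rw [hs, one_smul]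
  have hu' : ∀ x : G ⧸ Γ, (s * t) ^ nu • x = x := fun x => by rw [hu, one_smul]
  -- the map Ψ
  let Ψ : V × (G ⧸ Γ → K) →ₗ[K] (G ⧸ Γ → K) × (G ⧸ Γ → K) :=
    PsiL Γ K s (s * t) ∘ₗ LinearMap.prodMap V.subtype LinearMap.id
  have hΨ : ∀ p : V × (G ⧸ Γ → K), Ψ p
      = (tot Γ K (p.1 : Additive Γ →+ K) p.2 s, tot Γ K (p.1 : Additive Γ →+ K) p.2 (s * t)) :=
    fun p => rfl
  let ι : Kn K (G ⧸ Γ) s ns × Kn K (G ⧸ Γ) (s * t) nu →ₗ[K] (G ⧸ Γ → K) × (G ⧸ Γ → K) :=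
    LinearMap.prodMap (Kn K (G ⧸ Γ) s ns).subtype (Kn K (G ⧸ Γ) (s * t) nu).subtype
  have hι : Function.Injective ι := by
    intro p q h
    have h1 := congrArg Prod.fst h
    have h2 := congrArg Prod.snd h
    exact Prod.ext (Subtype.ext h1) (Subtype.ext h2)
  have hrange : LinearMap.range Ψ
      ≤ (LinearMap.ker (theta K (G ⧸ Γ) s (s * t) t ns nu n)).map ι := by
    rintro _ ⟨p, rfl⟩
    rw [hΨ]
    refine ⟨(⟨tot Γ K (p.1 : Additive Γ →+ K) p.2 s, ?_⟩,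
      ⟨tot Γ K (p.1 : Additive Γ →+ K) p.2 (s * t), ?_⟩), ?_, rfl⟩
    · exact LinearMap.mem_ker.mpr (nrm_tot_self Γ K _ _ s ns hs)
    · exact LinearMap.mem_ker.mpr (nrm_tot_self Γ K _ _ (s * t) nu hu)
    · rw [SetLike.mem_coe, LinearMap.mem_ker, theta_apply]
      exact nrm_tot_sub Γ K _ _ s t n ht (hV _ p.1.2)
  have hker : LinearMap.ker Ψ
      ≤ Submodule.span K {((0 : V), (fun _ => (1 : K) : G ⧸ Γ → K))} := by
    intro p hp
    rw [LinearMap.mem_ker, hΨ, Prod.mk_eq_zero] at hp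
    obtain ⟨h1, h2⟩ := eq_zero_of_tot_eq_zero Γ K hgen' _ _ hp.1 hp.2
    rw [Submodule.mem_span_singleton]
    refine ⟨p.2 ((1 : G) : G ⧸ Γ), ?_⟩
    apply Prod.ext
    · apply Subtype.ext
      simpa using h1.symm
    · ext x
      obtain ⟨g, rfl⟩ := MulAction.exists_smul_eq G (((1 : G) : G ⧸ Γ)) x
      show p.2 ((1 : G) : G ⧸ Γ) * 1 = p.2 (g • (((1 : G) : G ⧸ Γ)))
      rw [mul_one, h2]
  have h1 := LinearMap.finrank_range_add_finrank_ker (K := K) (V := ↥V × (G ⧸ Γ → K))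
    (V₂ := (G ⧸ Γ → K) × (G ⧸ Γ → K)) Ψ
  have h2 : finrank K (LinearMap.range Ψ)
      ≤ finrank K (LinearMap.ker (theta K (G ⧸ Γ) s (s * t) t ns nu n)) :=
    (Submodule.finrank_mono hrange).trans (Submodule.finrank_map_le _ _)
  have h3 : finrank K (LinearMap.ker Ψ) ≤ 1 :=
    (Submodule.finrank_mono hker).trans
      ((finrank_span_le_card _).trans (by simp))
  have h4 := finrank_ker_theta_add_le K s (s * t) t ns nu n hgen' hs' hu' hns hnu hn
    (X := G ⧸ Γ)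
  have : Module.Free K V := Module.Free.of_divisionRing K V
  have h5 : finrank K (↥V × (G ⧸ Γ → K)) = finrank K V + Nat.card (G ⧸ Γ) := by
    rw [Module.finrank_prod, Module.finrank_fintype_fun_eq_card, ← Nat.card_eq_fintype_card]
  omega

end ParDimAbs

end Fermat.Agent.S21.H58
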