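import Mathlib
import Fermat.Prelude.Def_ModularCurve_PeriodMap
import Fermat.Prelude.Def_ModularCurve_GenusNumerics
import Fermat.Agent.S21.H58_ParDimAbs
import Fermat.Agent.S20.H78_Adapters
import Fermat.Agent.S24.H37_OrbitCount

set_option autoImplicit false
set_option linter.unusedSectionVars false

open scoped MatrixGroups
open Matrix CongruenceSubgroup

namespace Fermat.Agent.S21.H58

open Module

section OrbCount

variable {G : Type*} [Group G] {X : Type*} [MulAction G X]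

lemma mem_orbit_zpowers_iff (g : G) (x y : X) :
    x ∈ MulAction.orbit (Subgroup.zpowers g) y ↔ ∃ k : ℤ, g ^ k • y = x := by
  rw [MulAction.mem_orbit_iff]
  constructor
  · rintro ⟨⟨_, k, rfl⟩, h⟩
    exact ⟨k, h⟩
  · rintro ⟨k, h⟩
    exact ⟨⟨g ^ k, k, rfl⟩, h⟩

/-- Orbits of `⟨g⟩` on `X` are the orbits of the permutation `toPerm g`. -/
lemma card_orb_eq_toPerm (g : G) :
    Nat.card (Orb g X) = Nat.card (MulAction.orbitRel.Quotient
      (Subgroup.zpowers (MulAction.toPerm g : Equiv.Perm X)) X) := by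
  apply Nat.card_congr
  refine Quotient.congr (Equiv.refl X) ?_
  intro x y
  rw [Equiv.refl_apply, Equiv.refl_apply, MulAction.orbitRel_apply, MulAction.orbitRel_apply,
    mem_orbit_zpowers_iff, mem_orbit_zpowers_iff]
  refine exists_congr fun k => ?_
  rw [← MulAction.toPermHom_apply, ← map_zpow]
  rfl

/-- Orbit count of an element acting with prime order, from its fixed points. -/
theorem mul_card_orb_eq [Finite X] (g : G) (p : ℕ) (hp : p.Prime) (hg : ∀ x : X, g ^ p • x = x) :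
    p * Nat.card (Orb g X) = Nat.card X + (p - 1) * Nat.card {x : X // g • x = x} := by
  classical
  have : Fintype X := Fintype.ofFinite X
  have hσ : (MulAction.toPerm g : Equiv.Perm X) ^ p = 1 := by
    ext x
    rw [← MulAction.toPermHom_apply, ← map_pow]
    exact hg x
  have h := Fermat.Agent.S24.H37.card_add_mul_numFixed_eq (MulAction.toPerm g : Equiv.Perm X) hp hσ
  rw [card_orb_eq_toPerm, ← h, Nat.card_eq_fintype_card,
    Fermat.Agent.S24.H37.numFixed_eq_natCard_fixedBy]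
  rfl

end OrbCount

section SL2Z

open ModularGroup ModularCurve ModularCurve.Period

lemma S_pow_two : (S : SL(2, ℤ)) ^ 2 = -1 := by
  rw [pow_two]
  apply Subtype.ext
  simpa using ModularGroup.S_mul_S_eq

lemma S_pow_four : (S : SL(2, ℤ)) ^ 4 = 1 := by
  have : (S : SL(2, ℤ)) ^ 4 = (S ^ 2) ^ 2 := by rw [← pow_mul]
  rw [this, S_pow_two]
  simp

lemma ST_pow_three : ((S : SL(2, ℤ)) * T) ^ 3 = -1 := by
  apply Subtype.ext
  simp only [pow_succ, pow_zero, one_mul, Matrix.SpecialLinearGroup.coe_mul, ModularGroup.coe_S,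
    ModularGroup.coe_T, Matrix.SpecialLinearGroup.coe_neg, Matrix.SpecialLinearGroup.coe_one]
  ext i j
  fin_cases i <;> fin_cases j <;> simp [Matrix.mul_apply, Fin.sum_univ_two]

lemma ST_pow_six : ((S : SL(2, ℤ)) * T) ^ 6 = 1 := by
  have : ((S : SL(2, ℤ)) * T) ^ 6 = ((S * T) ^ 3) ^ 2 := by rw [← pow_mul]
  rw [this, ST_pow_three]
  simp

/-- `g • [h] = [h]` iff `h⁻¹ g h ∈ Γ`. -/
lemma smul_mk_eq_self_iff {G : Type*} [Group G] (Γ : Subgroup G) (g h : G) :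
    g • ((h : G) : G ⧸ Γ) = (h : G ⧸ Γ) ↔ h⁻¹ * g * h ∈ Γ := by
  rw [MulAction.Quotient.smul_coe, smul_eq_mul, eq_comm, QuotientGroup.eq, mul_assoc]

lemma neg_one_smul_coset (N : ℕ) (x : SL(2, ℤ) ⧸ Gamma0 N) : (-1 : SL(2, ℤ)) • x = x := by
  induction x using QuotientGroup.induction_on with
  | H h =>
    rw [smul_mk_eq_self_iff]
    have : h⁻¹ * (-1 : SL(2, ℤ)) * h = -1 := by
      rw [mul_neg, mul_one, neg_mul, inv_mul_cancel]
    rw [this, Gamma0_mem]
    simp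

lemma T_pow_smul_coset (N : ℕ) (x : SL(2, ℤ) ⧸ Gamma0 N) : (T : SL(2, ℤ)) ^ N • x = x := by
  induction x using QuotientGroup.induction_on with
  | H h =>
    rw [smul_mk_eq_self_iff]
    have h1 : (T : SL(2, ℤ)) ^ N ∈ Gamma N := by
      have := ModularGroup_T_pow_mem_Gamma (N : ℤ) (N : ℤ) dvd_rfl
      simpa using this
    have h2 : h⁻¹ * T ^ N * h⁻¹⁻¹ ∈ Gamma N := (Gamma_normal N).conj_mem _ h1 h⁻¹
    rw [inv_inv, Gamma_mem] at h2
    rw [Gamma0_mem]
    exact h2.2.2.1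

lemma trace_conj_T_pow (g : SL(2, ℤ)) (n : ℕ) :
    ((g⁻¹ * T ^ n * g : SL(2, ℤ)) : Matrix (Fin 2) (Fin 2) ℤ).trace = 2 := by
  rw [mul_assoc, Matrix.SpecialLinearGroup.coe_mul, Matrix.trace_mul_comm,
    ← Matrix.SpecialLinearGroup.coe_mul, mul_assoc, mul_inv_cancel, mul_one,
    ← zpow_natCast, coe_T_zpow, Matrix.trace_fin_two]
  simp

/-- **PARDIM for `Γ₀(N)`**, orbit-count form. -/
theorem finrank_parabolicHoms_add_orbits_le (N : ℕ) [NeZero N] :
    Module.Finite ℂ (parabolicHoms ℂ (Gamma0 N) ℂ) ∧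
      finrank ℂ (parabolicHoms ℂ (Gamma0 N) ℂ)
        + Nat.card (Orb (S : SL(2, ℤ)) (SL(2, ℤ) ⧸ Gamma0 N))
        + Nat.card (Orb ((S : SL(2, ℤ)) * T) (SL(2, ℤ) ⧸ Gamma0 N))
        + Nat.card (Orb (T : SL(2, ℤ)) (SL(2, ℤ) ⧸ Gamma0 N))
      ≤ Nat.card (SL(2, ℤ) ⧸ Gamma0 N) + 2 := by
  refine pardim_abstract (Gamma0 N) ℂ S T 4 6 N SpecialLinearGroup.SL2Z_generators S_pow_four
    ST_pow_six (T_pow_smul_coset N) (by norm_num) (by norm_num)
    (Nat.cast_ne_zero.mpr (NeZero.ne N)) (parabolicHoms ℂ (Gamma0 N) ℂ) ?_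
  intro φ hφ γ g hγ
  apply hφ γ
  rw [hγ, trace_conj_T_pow]
  norm_num

/-- **PARDIM for `Γ₀(N)`**: `dim_ℂ parabolicHoms ≤ 2 g`. -/
theorem finrank_parabolicHoms_le (N : ℕ) [NeZero N] :
    Module.Finite ℂ (parabolicHoms ℂ (Gamma0 N) ℂ) ∧
      (finrank ℂ (parabolicHoms ℂ (Gamma0 N) ℂ) : ℚ) ≤ 2 * genusFormula N := by
  obtain ⟨hfin, h⟩ := finrank_parabolicHoms_add_orbits_le N
  refine ⟨hfin, ?_⟩
  have : Finite (SL(2, ℤ) ⧸ Gamma0 N) := Subgroup.finite_quotient_of_finiteIndex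
  have h2 := mul_card_orb_eq (X := SL(2, ℤ) ⧸ Gamma0 N) (S : SL(2, ℤ)) 2 Nat.prime_two
    (fun x => by rw [S_pow_two]; exact neg_one_smul_coset N x)
  have h3 := mul_card_orb_eq (X := SL(2, ℤ) ⧸ Gamma0 N) ((S : SL(2, ℤ)) * T) 3 Nat.prime_three
    (fun x => by rw [ST_pow_three]; exact neg_one_smul_coset N x)
  rw [Fermat.Agent.S20.H78.card_subtype_fixed_S, Fermat.Agent.S20.H78.card_quotient_Gamma0] at h2
  rw [Fermat.Agent.S20.H78.card_subtype_fixed_ST, Fermat.Agent.S20.H78.card_quotient_Gamma0] at h3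
  rw [Fermat.Agent.S20.H78.card_quotient_Gamma0, Fermat.Agent.S20.H78.card_orbits_T_inst] at h
  have h6 : 6 * finrank ℂ (parabolicHoms ℂ (Gamma0 N) ℂ) + 3 * nuTwo N + 4 * nuThree N
      + 6 * cuspCount N ≤ dedekindPsi N + 12 := by
    omega
  have h6' : (6 : ℚ) * finrank ℂ (parabolicHoms ℂ (Gamma0 N) ℂ) + 3 * nuTwo N + 4 * nuThree N
      + 6 * cuspCount N ≤ dedekindPsi N + 12 := by
    exact_mod_cast h6
  unfold genusFormula
  linarith

end SL2Z

end Fermat.Agent.S21.H58
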