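import Fermat.Agent.S21.Glue
import Fermat.Agent.S21.H58_ParDimSpec

set_option autoImplicit false

open CongruenceSubgroup ModularCurve ModularCurve.Period

namespace Fermat.Agent.S21

/-- The upper bound for the dimension of the weight two cusp forms of level `Γ₀(N)`, from the
injectivity of the period pairing and the bound for the parabolic homomorphisms. -/
theorem finrank_cuspForm_two_le_genusFormula (N : ℕ) [NeZero N] :
    (Module.finrank ℂ (CuspForm (Gamma0 N) 2) : ℚ) ≤ genusFormula N :=
  finrank_cuspForm_le_of_pardim N _ (H58.finrank_parabolicHoms_le N)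

/-- The weight two cusp forms of level `Γ₀(N)` are finite dimensional. -/
theorem finite_cuspForm_two (N : ℕ) [NeZero N] : Module.Finite ℂ (CuspForm (Gamma0 N) 2) :=
  finite_cuspForm_of_finite_parabolicHoms N (H58.finrank_parabolicHoms_le N).1

/-- Eichler–Shimura from the lower bound for the dimension of the weight two cusp forms. -/
theorem eichlerShimura_of_genusFormula_le (N : ℕ) [NeZero N]
    (h : genusFormula N ≤ (Module.finrank ℂ (CuspForm (Gamma0 N) 2) : ℚ)) :
    Function.Injective (periodHomPair N)
      ∧ LinearMap.range (periodHomPair N) = parabolicHoms ℂ (Gamma0 N) ℂ :=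
  eichlerShimura_of_genus N _ h (H58.finrank_parabolicHoms_le N)

end Fermat.Agent.S21
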