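import Fermat.Agent.S21.MaxPrinciple

set_option autoImplicit false

open UpperHalfPlane hiding I
open Filter Topology Function Complex
open scoped MatrixGroups ModularForm Real Manifold

namespace Fermat.Agent.S21

theorem mdifferentiable_of_hasDerivAt {H H' : ℍ → ℂ}
    (hH : ∀ τ : ℍ, HasDerivAt (H ∘ ofComplex) (H' τ) τ) : MDiff H := by
  rw [UpperHalfPlane.mdifferentiable_iff]
  intro z hz
  exact (hH ⟨z, hz⟩).differentiableAt.differentiableWithinAt

theorem ofComplex_add_natCast {z : ℂ} (hz : 0 < z.im) (n : ℕ) :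
    ofComplex (z + (n : ℝ)) = ModularGroup.T ^ (n : ℤ) • ofComplex z := by
  apply UpperHalfPlane.ext
  have hz' : 0 < (z + (n : ℝ)).im := by simpa using hz
  rw [ModularGroup.coe_T_zpow_smul_eq, ofComplex_apply_of_im_pos hz',
    ofComplex_apply_of_im_pos hz]
  simp

/-- If `H` is holomorphic on the upper half plane, the real part of `a * H` is invariant under a
finite index subgroup, `H ∘ δ` is invariant under `T ^ n` and has a limit at `i∞` for all `δ`,
then `H` has zero derivative. -/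
theorem deriv_eq_zero_of_exp_invariant {Γ : Subgroup SL(2,ℤ)} [Γ.FiniteIndex] {H H' : ℍ → ℂ}
    (hH : ∀ τ : ℍ, HasDerivAt (H ∘ ofComplex) (H' τ) τ) {a : ℂ} (ha : a ≠ 0)
    (hinv : ∀ γ ∈ Γ, ∀ z : ℍ, (a * H (γ • z)).re = (a * H z).re)
    {n : ℕ} (hn : 0 < n)
    (hper : ∀ (δ : SL(2,ℤ)) (w : ℍ), H (δ • (ModularGroup.T ^ (n : ℤ) • w)) = H (δ • w))
    (hlim : ∀ δ : SL(2,ℤ), ∃ L : ℂ, Tendsto (fun w : ℍ => H (δ • w)) atImInfty (𝓝 L)) :
    ∀ τ : ℍ, H' τ = 0 := by
  set E : ℍ → ℂ := fun w => cexp (a * H w) with hE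
  have hEder : ∀ τ : ℍ, HasDerivAt (E ∘ ofComplex) (cexp (a * H τ) * (a * H' τ)) τ := by
    intro τ
    have h1 := ((hH τ).const_mul a).cexp
    simpa [E, comp_def] using h1
  have hol : MDiff E := mdifferentiable_of_hasDerivAt hEder
  have hnorm : ∀ γ ∈ Γ, ∀ z : ℍ, ‖E (γ • z)‖ = ‖E z‖ := by
    intro γ hγ z
    simp only [E, Complex.norm_exp, hinv γ hγ z]
  have hn' : (0 : ℝ) < (n : ℝ) := by exact_mod_cast hn
  have hperE : ∀ δ : SL(2,ℤ), Periodic ((fun w : ℍ => E (δ • w)) ∘ ofComplex) (n : ℝ) := by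
    intro δ z
    by_cases hz : 0 < z.im
    · simp only [comp_apply]
      rw [ofComplex_add_natCast hz, hE]
      simp only
      rw [hper]
    · have hz0 : z.im ≤ 0 := not_lt.mp hz
      have hz1 : (z + (n : ℝ)).im ≤ 0 := by simpa using hz0
      simp only [comp_apply]
      rw [ofComplex_apply_of_im_nonpos hz1, ofComplex_apply_of_im_nonpos hz0]
  have hbdd : ∀ δ : SL(2,ℤ), IsBoundedAtImInfty (fun w : ℍ => E (δ • w)) := by
    intro δ
    obtain ⟨L, hL⟩ := hlim δ
    have : Tendsto (fun w : ℍ => E (δ • w)) atImInfty (𝓝 (cexp (a * L))) :=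
      ((hL.const_mul a).cexp)
    exact this.isBigO_one ℝ
  obtain ⟨c, hc⟩ := eq_const_of_norm_invariant hol hnorm hn' hperE hbdd
  intro τ
  have h1 : HasDerivAt (E ∘ ofComplex) 0 τ := by
    have : (E ∘ ofComplex) = fun _ => c := by
      funext z; simp [hc]
    rw [this]
    exact hasDerivAt_const _ _
  have h2 := (hEder τ).unique h1
  have h3 : cexp (a * H τ) ≠ 0 := Complex.exp_ne_zero _
  rcases mul_eq_zero.mp h2 with h4 | h4
  · exact absurd h4 h3
  · rcases mul_eq_zero.mp h4 with h5 | h5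
    · exact absurd h5 ha
    · exact h5

end Fermat.Agent.S21
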