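import Fermat.Agent.S21.Injective

set_option autoImplicit false

open UpperHalfPlane hiding I
open Filter Topology Function Complex
open scoped MatrixGroups ModularForm Real Manifold ComplexConjugate
open CongruenceSubgroup ModularCurve ModularCurve.Period

namespace Fermat.Agent.S21

/-- **Part C.** The period pairing is injective. -/
theorem periodHomPair_injective (N : ℕ) [NeZero N] : Function.Injective (periodHomPair N) := by
  rw [← LinearMap.ker_eq_bot, LinearMap.ker_eq_bot']
  rintro ⟨f, g⟩ hfg
  rw [periodHomPair_eq] at hfg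
  simp only [LinearMap.coprod_apply, LinearMap.comp_apply, LinearMap.add_apply,
    LinearMap.sub_apply, LinearMap.id_apply, periodMapₗ_apply] at hfg
  set ι := charInvolution N ℂ ℂ with hι
  have hfg' := congrArg ι hfg
  simp only [map_add, map_sub, map_zero, hι, charInvolution_charInvolution] at hfg'
  have hf : periodMap N f + ι (periodMap N f) = 0 := by
    have : (2 : ℂ) • (periodMap N f + ι (periodMap N f)) = 0 := by
      rw [two_smul]
      rw [← hι] at hfg'
      calc _ = (periodMap N f + ι (periodMap N f) + (periodMap N g - ι (periodMap N g)))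
            + (ι (periodMap N f) + periodMap N f + (ι (periodMap N g) - periodMap N g)) := by abel
        _ = 0 := by rw [hfg, hfg', add_zero]
    exact (smul_eq_zero.mp this).resolve_left two_ne_zero
  have hg : periodMap N g - ι (periodMap N g) = 0 := by
    rw [hf, zero_add] at hfg
    exact hfg
  have hf0 : f = 0 := by
    refine eq_zero_of_periodMap_add_involution f 1 fun γ => ?_
    have := DFunLike.congr_fun hf (Additive.ofMul γ)
    simpa [hι] using this
  have hg0 : g = 0 := by
    refine eq_zero_of_periodMap_add_involution g (-1) fun γ => ?_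
    have := DFunLike.congr_fun hg (Additive.ofMul γ)
    simp only [hι, AddMonoidHom.sub_apply, charInvolution_apply, toMul_ofMul,
      AddMonoidHom.zero_apply] at this
    push_cast
    linear_combination this
  rw [hf0, hg0]
  rfl

/-- **Part B.** The range of the period pairing consists of parabolic homomorphisms. -/
theorem range_periodHomPair_le (N : ℕ) [NeZero N] :
    LinearMap.range (periodHomPair N) ≤ parabolicHoms ℂ (Gamma0 N) ℂ := by
  rintro _ ⟨⟨f, g⟩, rfl⟩
  rw [periodHomPair_eq]
  simp only [LinearMap.coprod_apply, LinearMap.comp_apply, LinearMap.add_apply,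
    LinearMap.sub_apply, LinearMap.id_apply, periodMapₗ_apply]
  have hf := periodMap_mem_parabolicHoms N f
  have hg := periodMap_mem_parabolicHoms N g
  exact Submodule.add_mem _
    (Submodule.add_mem _ hf (charInvolution_mem_parabolicHoms N ℂ ℂ hf))
    (Submodule.sub_mem _ hg (charInvolution_mem_parabolicHoms N ℂ ℂ hg))

/-- Glue: the Eichler–Shimura statement from the dimension count. -/
theorem eichlerShimura_of_finrank (N : ℕ) [NeZero N]
    (hfin : Module.Finite ℂ (parabolicHoms ℂ (Gamma0 N) ℂ))
    (hS : Module.Finite ℂ (CuspForm (Gamma0 N) 2))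
    (hdim : Module.finrank ℂ (parabolicHoms ℂ (Gamma0 N) ℂ)
      ≤ 2 * Module.finrank ℂ (CuspForm (Gamma0 N) 2)) :
    Function.Injective (periodHomPair N)
      ∧ LinearMap.range (periodHomPair N) = parabolicHoms ℂ (Gamma0 N) ℂ := by
  refine ⟨periodHomPair_injective N, ?_⟩
  refine Submodule.eq_of_le_of_finrank_le (range_periodHomPair_le N) ?_
  rw [LinearMap.finrank_range_of_inj (periodHomPair_injective N), Module.finrank_prod]
  omega

/-- The period pairing with codomain restricted to the parabolic homomorphisms. -/
noncomputable def periodHomPairPar (N : ℕ) [NeZero N] :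
    (CuspForm (Gamma0 N) 2 × CuspForm (Gamma0 N) 2) →ₗ[ℂ] parabolicHoms ℂ (Gamma0 N) ℂ :=
  LinearMap.codRestrict _ (periodHomPair N)
    fun x => range_periodHomPair_le N (LinearMap.mem_range_self _ x)

theorem periodHomPairPar_injective (N : ℕ) [NeZero N] :
    Function.Injective (periodHomPairPar N) := fun _ _ h =>
  periodHomPair_injective N (congrArg Subtype.val h)

/-- Finite dimensionality of the weight two cusp forms from that of the parabolic
homomorphisms. -/
theorem finite_cuspForm_of_finite_parabolicHoms (N : ℕ) [NeZero N]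
    (hfin : Module.Finite ℂ (parabolicHoms ℂ (Gamma0 N) ℂ)) :
    Module.Finite ℂ (CuspForm (Gamma0 N) 2) := by
  have h1 : Module.Finite ℂ (CuspForm (Gamma0 N) 2 × CuspForm (Gamma0 N) 2) :=
    Module.Finite.of_injective (periodHomPairPar N) (periodHomPairPar_injective N)
  exact Module.Finite.of_injective
    (LinearMap.inl ℂ (CuspForm (Gamma0 N) 2) (CuspForm (Gamma0 N) 2)) LinearMap.inl_injective

/-- Twice the dimension of the weight two cusp forms is at most the dimension of the parabolic
homomorphisms. -/
theorem two_mul_finrank_cuspForm_le (N : ℕ) [NeZero N]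
    (hfin : Module.Finite ℂ (parabolicHoms ℂ (Gamma0 N) ℂ)) :
    2 * Module.finrank ℂ (CuspForm (Gamma0 N) 2)
      ≤ Module.finrank ℂ (parabolicHoms ℂ (Gamma0 N) ℂ) := by
  have hS := finite_cuspForm_of_finite_parabolicHoms N hfin
  have := LinearMap.finrank_le_finrank_of_injective (periodHomPairPar_injective N)
  rw [Module.finrank_prod] at this
  omega

/-- The upper bound for the dimension of the weight two cusp forms from an upper bound for the
parabolic homomorphisms. -/
theorem finrank_cuspForm_le_of_pardim (N : ℕ) [NeZero N] (g : ℚ)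
    (hpar : Module.Finite ℂ (parabolicHoms ℂ (Gamma0 N) ℂ)
      ∧ (Module.finrank ℂ (parabolicHoms ℂ (Gamma0 N) ℂ) : ℚ) ≤ 2 * g) :
    (Module.finrank ℂ (CuspForm (Gamma0 N) 2) : ℚ) ≤ g := by
  have h1 := two_mul_finrank_cuspForm_le N hpar.1
  have h2 : ((2 * Module.finrank ℂ (CuspForm (Gamma0 N) 2) : ℕ) : ℚ)
      ≤ (Module.finrank ℂ (parabolicHoms ℂ (Gamma0 N) ℂ) : ℚ) := by exact_mod_cast h1
  push_cast at h2
  linarith [hpar.2]

/-- Final glue: Eichler–Shimura from the dimension formula and the bound for the parabolic
homomorphisms. -/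
theorem eichlerShimura_of_genus (N : ℕ) [NeZero N] (g : ℚ)
    (hS20 : g ≤ (Module.finrank ℂ (CuspForm (Gamma0 N) 2) : ℚ))
    (hpar : Module.Finite ℂ (parabolicHoms ℂ (Gamma0 N) ℂ)
      ∧ (Module.finrank ℂ (parabolicHoms ℂ (Gamma0 N) ℂ) : ℚ) ≤ 2 * g) :
    Function.Injective (periodHomPair N)
      ∧ LinearMap.range (periodHomPair N) = parabolicHoms ℂ (Gamma0 N) ℂ := by
  refine eichlerShimura_of_finrank N hpar.1 (finite_cuspForm_of_finite_parabolicHoms N hpar.1) ?_
  have h2 : (Module.finrank ℂ (parabolicHoms ℂ (Gamma0 N) ℂ) : ℚ)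
      ≤ ((2 * Module.finrank ℂ (CuspForm (Gamma0 N) 2) : ℕ) : ℚ) := by
    push_cast
    linarith [hpar.2]
  exact_mod_cast h2

end Fermat.Agent.S21
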