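import Mathlib

/-!
# S21 helper (helper30): a maximum-modulus principle for finite-index subgroups of `SL(2,ℤ)`

`eq_const_of_norm_invariant`: a holomorphic function on the upper half plane whose NORM is invariant
under a finite-index subgroup `Γ ≤ SL(2,ℤ)`, and which is periodic and bounded at every cusp, is
constant.
-/

set_option autoImplicit false

open UpperHalfPlane Complex Filter Function Metric Set
open scoped MatrixGroups Manifold Topology Real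

namespace Fermat.Agent.S21.H30

local notation "𝕢" => Periodic.qParam

/-- Finitely many right-coset representatives of a finite-index subgroup. -/
lemma exists_finset_reps (Γ : Subgroup SL(2, ℤ)) [Γ.FiniteIndex] :
    ∃ S : Finset SL(2, ℤ), ∀ g : SL(2, ℤ), ∃ γ ∈ Γ, ∃ δ ∈ S, g = γ * δ := by
  classical
  have : Fintype (SL(2, ℤ) ⧸ Γ) := Subgroup.fintypeQuotientOfFiniteIndex
  refine ⟨Finset.univ.image (fun q : SL(2, ℤ) ⧸ Γ => (Quotient.out q)⁻¹), fun g => ?_⟩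
  obtain ⟨h, hh⟩ := QuotientGroup.mk_out_eq_mul Γ g⁻¹
  refine ⟨(h : SL(2, ℤ)), h.2, (Quotient.out (QuotientGroup.mk g⁻¹ : SL(2, ℤ) ⧸ Γ))⁻¹,
    Finset.mem_image.mpr ⟨_, Finset.mem_univ _, rfl⟩, ?_⟩
  rw [hh]
  group

lemma mdiff_comp_smul {φ : ℍ → ℂ} (hφ : MDiff φ) (δ : SL(2, ℤ)) :
    MDiff (fun w : ℍ => φ (δ • w)) := by
  have h1 : MDiff (fun τ : ℍ => (δ : GL (Fin 2) ℝ) • τ) :=
    mdifferentiable_smul (by simp)
  exact hφ.comp h1

/-- **Maximum modulus principle on `Γ \ ℍ*`.** -/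
theorem eq_const_of_norm_invariant (Γ : Subgroup SL(2, ℤ)) [Γ.FiniteIndex] (φ : ℍ → ℂ)
    (hφ : MDiff φ) (hinv : ∀ γ ∈ Γ, ∀ z : ℍ, ‖φ (γ • z)‖ = ‖φ z‖)
    {h : ℝ} (hh : 0 < h)
    (hper : ∀ δ : SL(2, ℤ), Periodic ((fun w : ℍ => φ (δ • w)) ∘ ofComplex) h)
    (hbdd : ∀ δ : SL(2, ℤ), IsBoundedAtImInfty (fun w : ℍ => φ (δ • w))) :
    ∃ c : ℂ, ∀ z, φ z = c := by
  classical
  obtain ⟨S, hS⟩ := exists_finset_reps Γ
  set r : ℝ := Real.exp (-π / h) with hr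
  have hr0 : 0 ≤ r := (Real.exp_pos _).le
  have hr1 : r < 1 := by
    rw [hr, Real.exp_lt_one_iff]
    exact div_neg_of_neg_of_pos (neg_lt_zero.mpr Real.pi_pos) hh
  let Φ : SL(2, ℤ) → ℂ → ℂ := fun δ => cuspFunction h (fun w : ℍ => φ (δ • w))
  have hΦdiff : ∀ δ, DifferentiableOn ℂ (Φ δ) (ball 0 1) := fun δ =>
    differentiableOn_cuspFunction_ball hh (hper δ) (mdiff_comp_smul hφ δ) (hbdd δ)
  have hΦeq : ∀ δ (w : ℍ), Φ δ (𝕢 h w) = φ (δ • w) := fun δ w =>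
    eq_cuspFunction w hh.ne' (hper δ)
  have hSne : S.Nonempty := by
    obtain ⟨γ, _, δ, hδ, _⟩ := hS 1
    exact ⟨δ, hδ⟩
  have hmax : ∀ δ, ∃ q ∈ closedBall (0 : ℂ) r,
      ∀ q' ∈ closedBall (0 : ℂ) r, ‖Φ δ q'‖ ≤ ‖Φ δ q‖ := by
    intro δ
    obtain ⟨x, hx, hxmax⟩ := (isCompact_closedBall (0 : ℂ) r).exists_isMaxOn
      (nonempty_closedBall.mpr hr0)
      ((hΦdiff δ).continuousOn.mono (closedBall_subset_ball hr1)).norm
    exact ⟨x, hx, fun q' hq' => hxmax hq'⟩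
  choose qmax hqmax_mem hqmax using hmax
  obtain ⟨δs, hδs, hδs_max⟩ := S.exists_max_image (fun δ => ‖Φ δ (qmax δ)‖) hSne
  have hle : ∀ z : ℍ, ‖φ z‖ ≤ ‖Φ δs (qmax δs)‖ := by
    intro z
    obtain ⟨g, hg⟩ := ModularGroup.exists_one_half_le_im_smul z
    obtain ⟨γ, hγ, δ, hδ, hgd⟩ := hS g⁻¹
    have hz : z = γ • (δ • (g • z)) := by
      rw [← mul_smul, ← hgd, ← mul_smul, inv_mul_cancel, one_smul]
    have hq : (𝕢 h (g • z : ℍ)) ∈ closedBall (0 : ℂ) r := by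
      rw [mem_closedBall_zero_iff, Periodic.norm_qParam, hr, Real.exp_le_exp]
      rw [div_le_div_iff_of_pos_right hh]
      have : (1 : ℝ) / 2 ≤ ((g • z : ℍ) : ℂ).im := hg
      nlinarith [Real.pi_pos]
    calc ‖φ z‖ = ‖φ (γ • (δ • (g • z)))‖ := by rw [← hz]
      _ = ‖φ (δ • (g • z))‖ := hinv γ hγ _
      _ = ‖Φ δ (𝕢 h (g • z : ℍ))‖ := by rw [hΦeq]
      _ ≤ ‖Φ δ (qmax δ)‖ := hqmax δ _ hq
      _ ≤ ‖Φ δs (qmax δs)‖ := hδs_max δ hδ
  have hconst : EqOn (Φ δs) (Function.const ℂ (Φ δs 0)) (ball 0 1) := by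
    refine Complex.eq_const_of_exists_le (hΦdiff δs) hr0 hr1 (fun q hq => ?_)
    rcases eq_or_ne q 0 with rfl | hq0
    · exact ⟨0, mem_closedBall_self hr0, le_rfl⟩
    · refine ⟨qmax δs, hqmax_mem δs, ?_⟩
      have him := Periodic.im_invQParam_pos_of_norm_lt_one hh (mem_ball_zero_iff.mp hq) hq0
      have h1 := hΦeq δs ⟨_, him⟩
      rw [UpperHalfPlane.coe_mk, Periodic.qParam_right_inv hh.ne' hq0] at h1
      rw [h1]
      exact hle _
  refine ⟨Φ δs 0, fun z => ?_⟩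
  have hz : z = δs • (δs⁻¹ • z) := by rw [← mul_smul, mul_inv_cancel, one_smul]
  rw [hz, ← hΦeq δs]
  refine hconst (mem_ball_zero_iff.mpr ?_)
  exact Periodic.norm_qParam_lt_one hh (UpperHalfPlane.im_pos _)

/-- If `exp ∘ H` is constant for a holomorphic `H` on `ℍ`, then `H` is constant. -/
lemma exists_const_of_exp_comp_const {H : ℍ → ℂ} (hH : MDiff H) {c : ℂ}
    (hc : ∀ z : ℍ, Complex.exp (H z) = c) : ∃ a : ℂ, ∀ z, H z = a := by
  set U : Set ℂ := {z | 0 < z.im} with hUdef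
  have hU : IsOpen U := isOpen_lt continuous_const Complex.continuous_im
  have hUc : IsPreconnected U := (convex_halfSpace_im_gt 0).isPreconnected
  have hg : DifferentiableOn ℂ (H ∘ ofComplex) U := fun z hz =>
    (UpperHalfPlane.mdifferentiableAt_iff.mp (hH ⟨z, hz⟩)).differentiableWithinAt
  have hd : U.EqOn (deriv (H ∘ ofComplex)) 0 := by
    intro x hx
    have hgx : DifferentiableAt ℂ (H ∘ ofComplex) x :=
      (hg x hx).differentiableAt (hU.mem_nhds hx)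
    have h1 : HasDerivAt (fun y => Complex.exp ((H ∘ ofComplex) y))
        (Complex.exp ((H ∘ ofComplex) x) * deriv (H ∘ ofComplex) x) x := hgx.hasDerivAt.cexp
    have h3 : HasDerivAt (fun y => Complex.exp ((H ∘ ofComplex) y)) 0 x := by
      have : (fun y => Complex.exp ((H ∘ ofComplex) y)) = fun _ => c := funext fun y => hc _
      rw [this]
      exact hasDerivAt_const x c
    have h4 := h1.unique h3
    simpa [Complex.exp_ne_zero] using h4
  obtain ⟨a, ha⟩ := hU.exists_is_const_of_deriv_eq_zero hUc hg hd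
  refine ⟨a, fun z => ?_⟩
  have := ha (z : ℂ) z.im_pos
  simpa [ofComplex_apply] using this

lemma tendsto_T_pow_smul_atImInfty (n : ℕ) :
    Tendsto (fun w : ℍ => ModularGroup.T ^ n • w) atImInfty atImInfty := by
  rw [atImInfty, tendsto_comap_iff]
  have : (UpperHalfPlane.im ∘ fun w : ℍ => ModularGroup.T ^ n • w) = UpperHalfPlane.im := by
    funext w
    have := ModularGroup.im_T_zpow_smul w (n : ℤ)
    rw [zpow_natCast] at this
    exact this
  rw [this]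
  exact tendsto_comap

lemma ofComplex_add_natCast {z : ℂ} (hz : 0 < z.im) (n : ℕ) :
    ofComplex (z + ((n : ℝ) : ℂ)) = ModularGroup.T ^ n • ofComplex z := by
  have hz' : 0 < (z + ((n : ℝ) : ℂ)).im := by simpa using hz
  apply UpperHalfPlane.ext
  rw [ofComplex_apply_of_im_pos hz']
  have := ModularGroup.coe_T_zpow_smul_eq (z := ofComplex z) (n := (n : ℤ))
  rw [zpow_natCast] at this
  rw [this, ofComplex_apply_of_im_pos hz]
  simp

/-- **Real-part version.** A holomorphic function on `ℍ` whose real part is invariant under a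
finite-index subgroup `Γ` (more precisely: `H ∘ γ - H` is a purely imaginary constant for `γ ∈ Γ`),
and which has a limit at every cusp, is constant. -/
theorem eq_const_of_re_invariant (Γ : Subgroup SL(2, ℤ)) [Γ.FiniteIndex] (H : ℍ → ℂ)
    (hH : MDiff H)
    (hinv : ∀ γ ∈ Γ, ∃ c : ℂ, c.re = 0 ∧ ∀ z : ℍ, H (γ • z) = H z + c)
    {h : ℕ} (hh : 0 < h) (hT : ∀ δ : SL(2, ℤ), δ * ModularGroup.T ^ h * δ⁻¹ ∈ Γ)
    (hlim : ∀ δ : SL(2, ℤ), ∃ L : ℂ, Tendsto (fun w : ℍ => H (δ • w)) atImInfty (𝓝 L)) :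
    ∃ c : ℂ, ∀ z, H z = c := by
  -- the periods along the cusps vanish
  have hperH : ∀ (δ : SL(2, ℤ)) (w : ℍ), H (δ • (ModularGroup.T ^ h • w)) = H (δ • w) := by
    intro δ w
    obtain ⟨c, -, hc⟩ := hinv _ (hT δ)
    obtain ⟨L, hL⟩ := hlim δ
    have key : ∀ w : ℍ, H (δ • (ModularGroup.T ^ h • w)) = H (δ • w) + c := by
      intro w
      have := hc (δ • w)
      rwa [← mul_smul, inv_mul_cancel_right, mul_smul] at this
    have h1 : Tendsto (fun w : ℍ => H (δ • (ModularGroup.T ^ h • w))) atImInfty (𝓝 L) :=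
      hL.comp (tendsto_T_pow_smul_atImInfty h)
    have h2 : Tendsto (fun w : ℍ => H (δ • w) + c) atImInfty (𝓝 (L + c)) := hL.add_const c
    have h3 : L = L + c := tendsto_nhds_unique (h1.congr key) h2
    have hc' : c = 0 := by simpa using h3.symm
    rw [key, hc', add_zero]
  set φ : ℍ → ℂ := fun z => Complex.exp (H z) with hφdef
  have hφ : MDiff φ := Complex.differentiable_exp.mdifferentiable.comp hH
  have hφinv : ∀ γ ∈ Γ, ∀ z : ℍ, ‖φ (γ • z)‖ = ‖φ z‖ := by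
    intro γ hγ z
    obtain ⟨c, hc0, hc⟩ := hinv γ hγ
    simp only [hφdef, Complex.norm_exp, hc z, Complex.add_re, hc0, add_zero]
  have hhr : (0 : ℝ) < (h : ℝ) := by exact_mod_cast hh
  have hper : ∀ δ : SL(2, ℤ), Periodic ((fun w : ℍ => φ (δ • w)) ∘ ofComplex) (h : ℝ) := by
    intro δ z
    by_cases hz : 0 < z.im
    · simp only [comp_apply, hφdef]
      rw [ofComplex_add_natCast hz h, hperH]
    · have hz1 : z.im ≤ 0 := not_lt.mp hz
      have hz2 : (z + ((h : ℝ) : ℂ)).im ≤ 0 := by simpa using hz1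
      simp only [comp_apply, ofComplex_apply_of_im_nonpos hz1, ofComplex_apply_of_im_nonpos hz2]
  have hbdd : ∀ δ : SL(2, ℤ), IsBoundedAtImInfty (fun w : ℍ => φ (δ • w)) := by
    intro δ
    obtain ⟨L, hL⟩ := hlim δ
    have : Tendsto (fun w : ℍ => φ (δ • w)) atImInfty (𝓝 (Complex.exp L)) :=
      (Complex.continuous_exp.tendsto L).comp hL
    exact this.isBigO_one ℝ
  obtain ⟨c, hc⟩ := eq_const_of_norm_invariant Γ φ hφ hφinv hhr hper hbdd
  exact exists_const_of_exp_comp_const hH hc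

lemma conj_T_pow_mem_Gamma0 (N : ℕ) (δ : SL(2, ℤ)) :
    δ * ModularGroup.T ^ N * δ⁻¹ ∈ CongruenceSubgroup.Gamma0 N := by
  have h1 : ModularGroup.T ^ N ∈ CongruenceSubgroup.Gamma N := by
    have := CongruenceSubgroup.ModularGroup_T_pow_mem_Gamma (N : ℤ) (N : ℤ) dvd_rfl
    simpa using this
  have h2 : δ * ModularGroup.T ^ N * δ⁻¹ ∈ CongruenceSubgroup.Gamma N :=
    (CongruenceSubgroup.Gamma_normal N).conj_mem _ h1 δ
  rw [CongruenceSubgroup.Gamma_mem] at h2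
  rw [CongruenceSubgroup.Gamma0_mem]
  exact h2.2.2.1

/-- The `Γ₀(N)` instance of `eq_const_of_re_invariant`. -/
theorem eq_const_of_re_invariant_Gamma0 (N : ℕ) [NeZero N] (H : ℍ → ℂ) (hH : MDiff H)
    (hinv : ∀ γ ∈ CongruenceSubgroup.Gamma0 N,
      ∃ c : ℂ, c.re = 0 ∧ ∀ z : ℍ, H (γ • z) = H z + c)
    (hlim : ∀ δ : SL(2, ℤ), ∃ L : ℂ, Tendsto (fun w : ℍ => H (δ • w)) atImInfty (𝓝 L)) :
    ∃ c : ℂ, ∀ z, H z = c :=
  eq_const_of_re_invariant (CongruenceSubgroup.Gamma0 N) H hH hinv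
    (Nat.pos_of_ne_zero (NeZero.ne N)) (conj_T_pow_mem_Gamma0 N) hlim

/-- The `Γ₀(N)` instance of `eq_const_of_norm_invariant`. -/
theorem eq_const_of_norm_invariant_Gamma0 (N : ℕ) [NeZero N] (φ : ℍ → ℂ)
    (hφ : MDiff φ)
    (hinv : ∀ γ ∈ CongruenceSubgroup.Gamma0 N, ∀ z : ℍ, ‖φ (γ • z)‖ = ‖φ z‖)
    {h : ℝ} (hh : 0 < h)
    (hper : ∀ δ : SL(2, ℤ), Periodic ((fun w : ℍ => φ (δ • w)) ∘ ofComplex) h)
    (hbdd : ∀ δ : SL(2, ℤ), IsBoundedAtImInfty (fun w : ℍ => φ (δ • w))) :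
    ∃ c : ℂ, ∀ z, φ z = c :=
  eq_const_of_norm_invariant (CongruenceSubgroup.Gamma0 N) φ hφ hinv hh hper hbdd

end Fermat.Agent.S21.H30
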