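import Mathlib
import Fermat.Prelude.Def_ModularCurve_PeriodHomPair

/-!
# S21 helper (helper30): the reflection `F ↦ conj ∘ F ∘ (τ ↦ -conj τ)` on the upper half plane

For a holomorphic `F` on `ℍ`, `refl F z = conj (F (J • z))` (`J • z = -conj z`) is holomorphic again,
with derivative `-conj (F' (J • z))`; `J` intertwines `γ` and `jConjSL γ`.
-/

set_option autoImplicit false

open UpperHalfPlane Complex Filter Function
open scoped MatrixGroups Manifold Topology ComplexConjugate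

namespace Fermat.Agent.S21.H30

open ModularCurve.Period

/-- The reflection of a function on the upper half plane. -/
noncomputable def refl (F : ℍ → ℂ) : ℍ → ℂ := fun z => conj (F (J • z))

lemma refl_apply (F : ℍ → ℂ) (z : ℍ) : refl F z = conj (F (J • z)) := rfl

lemma J_smul_J_smul (z : ℍ) : J • (J • z) = z := by
  rw [← mul_smul, ← sq, J_sq, one_smul]

lemma im_J_smul (z : ℍ) : (J • z).im = z.im := by
  have h := coe_J_smul z
  have : ((J • z : ℍ) : ℂ).im = (z : ℂ).im := by rw [h]; simp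
  exact this

lemma refl_refl (F : ℍ → ℂ) : refl (refl F) = F := by
  funext z
  simp [refl, J_smul_J_smul]

/-- `J` intertwines `γ` and `jConjSL γ`. -/
lemma mapGL_jConjSL_mul_J (γ : SL(2, ℤ)) :
    (Matrix.SpecialLinearGroup.mapGL ℝ (jConjSL γ)) * J
      = J * (Matrix.SpecialLinearGroup.mapGL ℝ γ) := by
  apply Matrix.GeneralLinearGroup.ext
  intro i j
  fin_cases i <;> fin_cases j <;>
    simp [Matrix.SpecialLinearGroup.mapGL, Matrix.mul_apply, Fin.sum_univ_two, jConjMat]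

lemma jConjSL_smul_J_smul (γ : SL(2, ℤ)) (z : ℍ) :
    (jConjSL γ) • (J • z) = J • (γ • z) := by
  show (Matrix.SpecialLinearGroup.mapGL ℝ (jConjSL γ)) • (J • z)
    = J • ((Matrix.SpecialLinearGroup.mapGL ℝ γ) • z)
  rw [← mul_smul, ← mul_smul, mapGL_jConjSL_mul_J]

lemma J_smul_smul (γ : SL(2, ℤ)) (z : ℍ) :
    J • (γ • z) = (jConjSL γ) • (J • z) := (jConjSL_smul_J_smul γ z).symm

lemma tendsto_J_smul_atImInfty : Tendsto (fun w : ℍ => J • w) atImInfty atImInfty := by
  rw [atImInfty, tendsto_comap_iff]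
  have : (UpperHalfPlane.im ∘ fun w : ℍ => J • w) = UpperHalfPlane.im := by
    funext w
    exact im_J_smul w
  rw [this]
  exact tendsto_comap

/-- `refl F ∘ ofComplex` agrees with `conj ∘ (F ∘ ofComplex) ∘ conj ∘ neg` on the upper half
plane. -/
lemma refl_comp_ofComplex_eq {F : ℍ → ℂ} {w : ℂ} (hw : 0 < w.im) :
    (refl F ∘ ofComplex) w = conj ((F ∘ ofComplex) (conj (-w))) := by
  have hw' : 0 < (conj (-w)).im := by simpa using hw
  simp only [comp_apply, refl]
  congr 2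
  apply UpperHalfPlane.ext
  rw [coe_J_smul, ofComplex_apply_of_im_pos hw, ofComplex_apply_of_im_pos hw']
  simp

/-- Derivative of the reflection. -/
lemma hasDerivAt_refl {F : ℍ → ℂ} {f : ℍ → ℂ}
    (hF : ∀ τ : ℍ, HasDerivAt (F ∘ ofComplex) (f τ) ↑τ) (τ : ℍ) :
    HasDerivAt (refl F ∘ ofComplex) (-conj (f (J • τ))) ↑τ := by
  have h1 : HasDerivAt (F ∘ ofComplex) (f (J • τ)) (conj (-(τ : ℂ))) := by
    have := hF (J • τ)
    rwa [coe_J_smul, ← map_neg] at this
  -- `conj ∘ (F ∘ ofComplex) ∘ conj` has derivative `conj (f (J τ))` at `-τ`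
  have h2 : HasDerivAt (fun w : ℂ => conj ((F ∘ ofComplex) (conj w))) (conj (f (J • τ)))
      (-(τ : ℂ)) := by
    have := h1.conj_conj
    rw [Complex.conj_conj] at this
    exact this
  have h3 : HasDerivAt (fun w : ℂ => conj ((F ∘ ofComplex) (conj (-w))))
      (-conj (f (J • τ))) (τ : ℂ) := by
    have hneg : HasDerivAt (fun w : ℂ => -w) (-1) (τ : ℂ) := (hasDerivAt_id _).neg
    have := h2.comp (τ : ℂ) hneg
    have h5 : conj (f (J • τ)) * (-1) = -conj (f (J • τ)) := by ring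
    rw [h5] at this
    exact this
  refine h3.congr_of_eventuallyEq ?_
  have hopen : IsOpen {w : ℂ | 0 < w.im} := isOpen_lt continuous_const Complex.continuous_im
  filter_upwards [hopen.mem_nhds τ.im_pos] with w hw
  rw [refl_comp_ofComplex_eq hw]

lemma mdiff_of_hasDerivAt {F : ℍ → ℂ} {f : ℍ → ℂ}
    (hF : ∀ τ : ℍ, HasDerivAt (F ∘ ofComplex) (f τ) ↑τ) : MDiff F := fun τ =>
  UpperHalfPlane.mdifferentiableAt_iff.mpr (hF τ).differentiableAt

lemma mdiff_refl {F : ℍ → ℂ} {f : ℍ → ℂ}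
    (hF : ∀ τ : ℍ, HasDerivAt (F ∘ ofComplex) (f τ) ↑τ) : MDiff (refl F) :=
  mdiff_of_hasDerivAt (hasDerivAt_refl hF)

/-- Periods of the reflection. -/
lemma refl_smul_sub {F : ℍ → ℂ} {γ : SL(2, ℤ)} {c : ℂ}
    (hc : ∀ z : ℍ, F ((jConjSL γ) • z) - F z = c) (z : ℍ) :
    refl F (γ • z) - refl F z = conj c := by
  simp only [refl, J_smul_smul, ← map_sub, hc]

/-- Limits at the cusps of the reflection. -/
lemma refl_tendsto {F : ℍ → ℂ}
    (hlim : ∀ δ : SL(2, ℤ), ∃ L : ℂ, Tendsto (fun w : ℍ => F (δ • w)) atImInfty (𝓝 L))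
    (δ : SL(2, ℤ)) : ∃ L : ℂ, Tendsto (fun w : ℍ => refl F (δ • w)) atImInfty (𝓝 L) := by
  obtain ⟨L, hL⟩ := hlim (jConjSL δ)
  refine ⟨conj L, ?_⟩
  have h1 : Tendsto (fun w : ℍ => F ((jConjSL δ) • (J • w))) atImInfty (𝓝 L) :=
    hL.comp tendsto_J_smul_atImInfty
  have h2 := (Complex.continuous_conj.tendsto L).comp h1
  refine h2.congr (fun w => ?_)
  simp only [comp_apply, refl]
  rw [J_smul_smul]

/-- If a function with a complex derivative everywhere on `ℍ` is constant, its derivative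
vanishes. -/
lemma deriv_eq_zero_of_const {F : ℍ → ℂ} {f : ℍ → ℂ}
    (hF : ∀ τ : ℍ, HasDerivAt (F ∘ ofComplex) (f τ) ↑τ) {c : ℂ} (hc : ∀ z, F z = c) (τ : ℍ) :
    f τ = 0 := by
  have h1 : (F ∘ ofComplex) = fun _ => c := funext fun w => hc _
  have h2 := hF τ
  rw [h1] at h2
  exact h2.unique (hasDerivAt_const _ _)

end Fermat.Agent.S21.H30
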