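import Mathlib

/-!
# A maximum principle on `Γ \ ℍ` with cusps (helper for S21, injectivity of the period map)

If `u : ℍ → ℝ` is invariant under a finite index subgroup `Γ` of `SL(2, ℤ)` and, for every
`s : SL(2, ℤ)`, the translate `z ↦ u (s • z)` is the real part of a holomorphic function which is
`h`-periodic and bounded at `i∞`, then `u` is constant.
-/

set_option autoImplicit false

open UpperHalfPlane ModularForm Function Complex Filter Topology
open scoped MatrixGroups Manifold Real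

noncomputable section

namespace Fermat.Agent.S21.H39

local notation "𝕢" => Periodic.qParam

/-! ### Exponentials of holomorphic periodic bounded functions -/

theorem mdiff_cexp {Φ : ℍ → ℂ} (hΦ : MDiff Φ) : MDiff (fun z => cexp (Φ z)) := by
  rw [UpperHalfPlane.mdifferentiable_iff] at hΦ ⊢
  exact hΦ.cexp

theorem periodic_cexp {Φ : ℍ → ℂ} {h : ℝ} (hper : Periodic (Φ ∘ ofComplex) h) :
    Periodic ((fun z => cexp (Φ z)) ∘ ofComplex) h := by
  intro w
  have := hper w
  simp only [comp_apply] at this ⊢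
  rw [this]

theorem bdd_cexp {Φ : ℍ → ℂ} (hb : IsBoundedAtImInfty Φ) :
    IsBoundedAtImInfty (fun z => cexp (Φ z)) := by
  rw [UpperHalfPlane.isBoundedAtImInfty_iff] at hb ⊢
  obtain ⟨M, A, hMA⟩ := hb
  refine ⟨Real.exp M, A, fun z hz => ?_⟩
  rw [Complex.norm_exp]
  exact Real.exp_le_exp.mpr ((Complex.re_le_norm _).trans (hMA z hz))

/-! ### The `q`-parameter on the region `Im ≥ 1/2` -/

theorem norm_qParam_le_of_half_le_im {h : ℝ} (hh : 0 < h) {z : ℍ} (hz : 1 / 2 ≤ z.im) :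
    ‖𝕢 h z‖ ≤ Real.exp (-π / h) := by
  rw [Periodic.norm_qParam]
  apply Real.exp_le_exp.mpr
  have h1 : (-2 * π * (z : ℂ).im / h) = -(π / h) * (2 * z.im) := by
    rw [UpperHalfPlane.coe_im]; ring
  have h2 : -π / h = -(π / h) * 1 := by ring
  rw [h1, h2]
  have h3 : 0 < π / h := by positivity
  nlinarith

theorem exp_neg_pi_div_lt_one {h : ℝ} (hh : 0 < h) : Real.exp (-π / h) < 1 := by
  apply Real.exp_lt_one_iff.mpr
  have : 0 < π / h := by positivity
  have h2 : -π / h = -(π / h) := by ring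
  rw [h2]; linarith

/-! ### Coset representatives -/

theorem exists_mem_mul_rep (Γ : Subgroup SL(2, ℤ)) (g : SL(2, ℤ)) :
    ∃ c : SL(2, ℤ) ⧸ Γ, ∃ γ ∈ Γ, g = γ * (Quotient.out c)⁻¹ := by
  obtain ⟨γ, hγ⟩ := QuotientGroup.mk_out_eq_mul Γ g⁻¹
  refine ⟨(QuotientGroup.mk g⁻¹ : SL(2, ℤ) ⧸ Γ), γ, γ.2, ?_⟩
  rw [hγ]
  group

/-! ### The maximum principle -/

/-- **Maximum principle on `Γ \ ℍ` with cusps.** -/
theorem exists_const_of_invariant_re (Γ : Subgroup SL(2, ℤ)) [Γ.FiniteIndex]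
    {u : ℍ → ℝ} (hinv : ∀ γ ∈ Γ, ∀ z : ℍ, u (γ • z) = u z)
    {h : ℝ} (hh : 0 < h) (Φ : SL(2, ℤ) → ℍ → ℂ)
    (hhol : ∀ s, MDiff (Φ s))
    (hper : ∀ s, Periodic (Φ s ∘ ofComplex) h)
    (hbdd : ∀ s, IsBoundedAtImInfty (Φ s))
    (hre : ∀ s (z : ℍ), u (s • z) = (Φ s z).re) :
    ∃ c : ℝ, ∀ z, u z = c := by
  -- the exponentials and their cusp functions
  set E : SL(2, ℤ) → ℍ → ℂ := fun s z => cexp (Φ s z) with hE
  have hEhol : ∀ s, MDiff (E s) := fun s => mdiff_cexp (hhol s)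
  have hEper : ∀ s, Periodic (E s ∘ ofComplex) h := fun s => periodic_cexp (hper s)
  have hEbdd : ∀ s, IsBoundedAtImInfty (E s) := fun s => bdd_cexp (hbdd s)
  have hEnorm : ∀ s (z : ℍ), ‖E s z‖ = Real.exp (u (s • z)) := by
    intro s z
    simp only [hE, Complex.norm_exp, hre]
  set e : SL(2, ℤ) → ℂ → ℂ := fun s => cuspFunction h (E s) with he
  have hediff : ∀ s, DifferentiableOn ℂ (e s) (Metric.ball 0 1) := fun s =>
    differentiableOn_cuspFunction_ball hh (hEper s) (hEhol s) (hEbdd s)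
  have heq : ∀ s (z : ℍ), e s (𝕢 h z) = E s z := fun s z =>
    eq_cuspFunction z hh.ne' (hEper s)
  -- the compact disc
  set r : ℝ := Real.exp (-π / h) with hr
  have hr1 : r < 1 := exp_neg_pi_div_lt_one hh
  have hr0 : 0 < r := Real.exp_pos _
  have hsub : Metric.closedBall (0 : ℂ) r ⊆ Metric.ball 0 1 :=
    Metric.closedBall_subset_ball hr1
  -- maximum on the disc for each `s`
  have hmax : ∀ s, ∃ q ∈ Metric.closedBall (0 : ℂ) r,
      ∀ q' ∈ Metric.closedBall (0 : ℂ) r, ‖e s q'‖ ≤ ‖e s q‖ := by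
    intro s
    have hc : ContinuousOn (fun q => ‖e s q‖) (Metric.closedBall (0 : ℂ) r) :=
      ((hediff s).continuousOn.mono hsub).norm
    obtain ⟨q, hq, hqmax⟩ :=
      (isCompact_closedBall (0 : ℂ) r).exists_isMaxOn ⟨0, by simp [hr0.le]⟩ hc
    exact ⟨q, hq, fun q' hq' => hqmax hq'⟩
  choose qm hqm hqmax using hmax
  -- maximum over the finitely many cosets
  obtain ⟨c0, hc0⟩ := Finite.exists_max
    (fun c : SL(2, ℤ) ⧸ Γ => ‖e (Quotient.out c)⁻¹ (qm (Quotient.out c)⁻¹)‖)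
  set s0 : SL(2, ℤ) := (Quotient.out c0)⁻¹ with hs0
  set q0 : ℂ := qm s0 with hq0
  set M : ℝ := ‖e s0 q0‖ with hM
  -- global bound
  have hglobal : ∀ z : ℍ, Real.exp (u z) ≤ M := by
    intro z
    obtain ⟨g, hg⟩ := ModularGroup.exists_one_half_le_im_smul z
    obtain ⟨c, γ, hγ, hgc⟩ := exists_mem_mul_rep Γ g⁻¹
    have hz : z = γ • ((Quotient.out c)⁻¹ • (g • z)) := by
      rw [← mul_smul, ← hgc, ← mul_smul, inv_mul_cancel, one_smul]
    have h1 : u z = u ((Quotient.out c)⁻¹ • (g • z)) := by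
      conv_lhs => rw [hz]
      exact hinv γ hγ _
    have h2 : Real.exp (u ((Quotient.out c)⁻¹ • (g • z))) =
        ‖e (Quotient.out c)⁻¹ (𝕢 h ((g • z : ℍ) : ℂ))‖ := by rw [heq, hEnorm]
    rw [h1, h2]
    have h3 : 𝕢 h ((g • z : ℍ) : ℂ) ∈ Metric.closedBall (0 : ℂ) r := by
      rw [mem_closedBall_zero_iff]; exact norm_qParam_le_of_half_le_im hh hg
    exact (hqmax _ _ h3).trans (hc0 c)
  -- bound on the punctured disc
  have hball' : ∀ q ∈ Metric.ball (0 : ℂ) 1, q ≠ 0 → ‖e s0 q‖ ≤ M := by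
    intro q hq hq0'
    have him := Periodic.im_invQParam_pos_of_norm_lt_one hh (mem_ball_zero_iff.mp hq) hq0'
    have hqq : 𝕢 h ((⟨Periodic.invQParam h q, him⟩ : ℍ) : ℂ) = q :=
      Periodic.qParam_right_inv hh.ne' hq0'
    have := heq s0 ⟨Periodic.invQParam h q, him⟩
    rw [hqq] at this
    rw [this, hEnorm]
    exact hglobal _
  -- bound at the centre by continuity
  have hzero : ‖e s0 0‖ ≤ M := by
    have hcont : ContinuousAt (e s0) 0 :=
      ((hediff s0).differentiableAt (Metric.ball_mem_nhds 0 one_pos)).continuousAt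
    have ht : Tendsto (fun q => ‖e s0 q‖) (𝓝[≠] (0 : ℂ)) (𝓝 ‖e s0 0‖) :=
      (hcont.norm.tendsto).mono_left nhdsWithin_le_nhds
    refine le_of_tendsto ht ?_
    have hmem : Metric.ball (0 : ℂ) 1 ∈ 𝓝[≠] (0 : ℂ) :=
      mem_nhdsWithin_of_mem_nhds (Metric.ball_mem_nhds 0 one_pos)
    filter_upwards [hmem, self_mem_nhdsWithin] with q hq hq'
    exact hball' q hq hq'
  have hball : ∀ q ∈ Metric.ball (0 : ℂ) 1, ‖e s0 q‖ ≤ M := by
    intro q hq
    rcases eq_or_ne q 0 with rfl | hq'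
    · exact hzero
    · exact hball' q hq hq'
  -- the maximum modulus principle
  have hq0ball : q0 ∈ Metric.ball (0 : ℂ) 1 := hsub (hqm s0)
  have hismax : IsMaxOn (norm ∘ e s0) (Metric.ball 0 1) q0 := fun q hq => hball q hq
  have hconst := Complex.eqOn_of_isPreconnected_of_isMaxOn_norm
    (convex_ball (0 : ℂ) 1).isPreconnected Metric.isOpen_ball (hediff s0) hq0ball hismax
  have hEconst : ∀ z : ℍ, E s0 z = e s0 q0 := by
    intro z
    rw [← heq]
    refine hconst ?_
    rw [mem_ball_zero_iff]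
    exact Periodic.norm_qParam_lt_one hh z.im_pos
  refine ⟨Real.log M, fun w => ?_⟩
  have h1 := hEnorm s0 (s0⁻¹ • w)
  rw [hEconst, ← mul_smul, mul_inv_cancel, one_smul] at h1
  rw [hM, h1, Real.log_exp]

/-! ### Holomorphic functions with constant real part -/

/-- A holomorphic function on the upper half plane whose real part is constant is constant. -/
theorem exists_const_of_re_const {G : ℍ → ℂ} (hG : MDiff G) {c : ℝ} (hc : ∀ z, (G z).re = c) :
    ∃ a : ℂ, G = Function.const ℍ a := by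
  set U : Set ℂ := {z : ℂ | 0 < z.im} with hU
  have hUo : IsOpen U := isOpen_lt continuous_const Complex.continuous_im
  have hUc : IsPreconnected U := (convex_halfSpace_im_gt 0).isPreconnected
  have hφ : DifferentiableOn ℂ (G ∘ ofComplex) U := UpperHalfPlane.mdifferentiable_iff.mp hG
  have hψ : DifferentiableOn ℂ (fun w => cexp ((G ∘ ofComplex) w)) U := hφ.cexp
  have hIU : Complex.I ∈ U := by simp [hU]
  have hnorm : ∀ w ∈ U, ‖cexp ((G ∘ ofComplex) w)‖ = Real.exp c := by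
    intro w hw
    rw [Complex.norm_exp, comp_apply, hc]
  have hismax : IsMaxOn (norm ∘ fun w => cexp ((G ∘ ofComplex) w)) U Complex.I := by
    intro w hw
    show ‖cexp ((G ∘ ofComplex) w)‖ ≤ ‖cexp ((G ∘ ofComplex) Complex.I)‖
    rw [hnorm w hw, hnorm Complex.I hIU]
  have hconst := Complex.eqOn_of_isPreconnected_of_isMaxOn_norm hUc hUo hψ hIU hismax
  -- the derivative of `G ∘ ofComplex` vanishes on `U`
  have hderiv : U.EqOn (deriv (G ∘ ofComplex)) 0 := by
    intro w hw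
    have hd : DifferentiableAt ℂ (G ∘ ofComplex) w := hφ.differentiableAt (hUo.mem_nhds hw)
    have h1 : HasDerivAt (fun w => cexp ((G ∘ ofComplex) w))
        (cexp ((G ∘ ofComplex) w) * deriv (G ∘ ofComplex) w) w := hd.hasDerivAt.cexp
    have h2 : HasDerivAt (fun w => cexp ((G ∘ ofComplex) w)) 0 w := by
      have h3 : (fun w => cexp ((G ∘ ofComplex) w)) =ᶠ[𝓝 w]
          fun _ => cexp ((G ∘ ofComplex) Complex.I) := by
        filter_upwards [hUo.mem_nhds hw] with x hx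
        exact hconst hx
      exact (hasDerivAt_const w _).congr_of_eventuallyEq h3
    have h4 := h1.unique h2
    simpa [Complex.exp_ne_zero] using h4
  refine ⟨(G ∘ ofComplex) Complex.I, ?_⟩
  funext z
  have hz : (z : ℂ) ∈ U := z.im_pos
  have := hUo.is_const_of_deriv_eq_zero hUc hφ hderiv hz hIU
  simp only [comp_apply, ofComplex_apply] at this
  rw [this, Function.const_apply, comp_apply]

/-- Corollary of the maximum principle: the holomorphic function itself is constant. -/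
theorem exists_const_of_invariant_re' (Γ : Subgroup SL(2, ℤ)) [Γ.FiniteIndex]
    {u : ℍ → ℝ} (hinv : ∀ γ ∈ Γ, ∀ z : ℍ, u (γ • z) = u z)
    {h : ℝ} (hh : 0 < h) (Φ : SL(2, ℤ) → ℍ → ℂ)
    (hhol : ∀ s, MDiff (Φ s))
    (hper : ∀ s, Periodic (Φ s ∘ ofComplex) h)
    (hbdd : ∀ s, IsBoundedAtImInfty (Φ s))
    (hre : ∀ s (z : ℍ), u (s • z) = (Φ s z).re) :
    ∃ a : ℂ, Φ 1 = Function.const ℍ a := by
  obtain ⟨c, hc⟩ := exists_const_of_invariant_re Γ hinv hh Φ hhol hper hbdd hre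
  refine exists_const_of_re_const (hhol 1) (c := c) (fun z => ?_)
  rw [← hre 1 z, one_smul, hc]

end Fermat.Agent.S21.H39
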