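import Fermat.Agent.S21.H58_PermLinAlg

set_option autoImplicit false
set_option linter.unusedSectionVars false

namespace Fermat.Agent.S21.H58

open Module

section Schreier

variable {G : Type*} [Group G] (Γ : Subgroup G) {A : Type*} [AddCommGroup A]

/-- Schreier element `r(g x)⁻¹ g r(x)` of `Γ` attached to `g : G` and a coset `x`. -/
noncomputable def schreier (g : G) (x : G ⧸ Γ) : Γ :=
  ⟨(Quotient.out (g • x))⁻¹ * (g * Quotient.out x), by
    rw [← QuotientGroup.eq, QuotientGroup.out_eq']
    exact (MulAction.Quotient.mk_smul_out Γ g x).symm⟩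

theorem schreier_mul (g h : G) (x : G ⧸ Γ) :
    schreier Γ (g * h) x = schreier Γ g (h • x) * schreier Γ h x := by
  apply Subtype.ext
  simp only [schreier, Subgroup.coe_mul, mul_smul]
  group

/-- The cocycle attached to an additive character of `Γ`. -/
noncomputable def coc (φ : Additive Γ →+ A) (g : G) (x : G ⧸ Γ) : A :=
  φ (Additive.ofMul (schreier Γ g x))

theorem coc_mul_apply (φ : Additive Γ →+ A) (g h : G) (x : G ⧸ Γ) :
    coc Γ φ (g * h) x = coc Γ φ g (h • x) + coc Γ φ h x := by
  unfold coc
  rw [schreier_mul, ofMul_mul, map_add]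

/-- On `Γ` itself the cocycle recovers the character at the base coset. -/
theorem coc_base (φ : Additive Γ →+ A) (γ : Γ) :
    coc Γ φ (γ : G) ((1 : G) : G ⧸ Γ) = φ (Additive.ofMul γ) := by
  have hx : (γ : G) • (((1 : G) : G ⧸ Γ)) = ((1 : G) : G ⧸ Γ) := by
    rw [MulAction.Quotient.smul_coe, smul_eq_mul, mul_one, QuotientGroup.eq, mul_one]
    exact Γ.inv_mem γ.2
  have hr : Quotient.out (((1 : G) : G ⧸ Γ)) ∈ Γ := by
    have h := QuotientGroup.out_eq' (((1 : G) : G ⧸ Γ))
    rw [QuotientGroup.eq, mul_one] at h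
    simpa using Γ.inv_mem h
  have hs : schreier Γ (γ : G) ((1 : G) : G ⧸ Γ)
      = (⟨_, hr⟩ : Γ)⁻¹ * (γ * ⟨_, hr⟩) := by
    apply Subtype.ext
    simp only [schreier, hx, Subgroup.coe_mul, Subgroup.coe_inv]
  unfold coc
  rw [hs, ofMul_mul, ofMul_mul, ofMul_inv, map_add, map_add, map_neg]
  abel

end Schreier

section CocLinear

variable {G : Type*} [Group G] (Γ : Subgroup G) (K : Type*) [Field K]

/-- `φ ↦ coc φ g` as a linear map. -/
noncomputable def cocL (g : G) : (Additive Γ →+ K) →ₗ[K] (G ⧸ Γ → K) where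
  toFun φ := coc Γ φ g
  map_add' φ ψ := by ext x; rfl
  map_smul' k φ := by ext x; rfl

lemma cocL_apply (g : G) (φ : Additive Γ →+ K) (x : G ⧸ Γ) :
    cocL Γ K g φ x = coc Γ φ g x := rfl

/-- A function `c : G → (X → K)` is a cocycle (for the right action by pullback). -/
def IsCoc {X : Type*} [MulAction G X] (c : G → (X → K)) : Prop :=
  ∀ g h : G, c (g * h) = pull K h (c g) + c h

variable {K}

lemma isCoc_coc (φ : Additive Γ →+ K) : IsCoc K (fun g => coc Γ φ g) := by
  intro g h
  ext x
  simp only [Pi.add_apply, pull_apply]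
  exact coc_mul_apply Γ φ g h x

lemma isCoc_cob {X : Type*} [MulAction G X] (m : X → K) :
    IsCoc K (fun g : G => (pull K g - 1 : Module.End K (X → K)) m) := by
  intro g h
  simp only [LinearMap.sub_apply, Module.End.one_apply, pull_mul, Module.End.mul_apply, map_sub]
  abel

lemma IsCoc.add {X : Type*} [MulAction G X] {c c' : G → (X → K)} (hc : IsCoc K c)
    (hc' : IsCoc K c') : IsCoc K (fun g => c g + c' g) := by
  intro g h
  simp only [hc g h, hc' g h, map_add]
  abel

lemma IsCoc.one {X : Type*} [MulAction G X] {c : G → (X → K)} (hc : IsCoc K c) : c 1 = 0 := by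
  have h := hc 1 1
  rw [mul_one, pull_one, Module.End.one_apply] at h
  exact left_eq_add.mp h

lemma IsCoc.pow {X : Type*} [MulAction G X] {c : G → (X → K)} (hc : IsCoc K c) (g : G) (n : ℕ) :
    c (g ^ n) = nrm K g n (c g) := by
  induction n with
  | zero => rw [pow_zero, hc.one, nrm, Finset.range_zero, Finset.sum_empty, LinearMap.zero_apply]
  | succ n ih =>
    rw [pow_succ', hc, ih, nrm, nrm, Finset.sum_range_succ, LinearMap.add_apply, pull_pow]
    abel

lemma pull_injective {X : Type*} [MulAction G X] (g : G) :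
    Function.Injective (pull K g : Module.End K (X → K)) := by
  intro m m' h
  have := congrArg (pull K g⁻¹ : Module.End K (X → K)) h
  simpa only [← Module.End.mul_apply, ← pull_mul, mul_inv_cancel, pull_one,
    Module.End.one_apply] using this

lemma IsCoc.eq_zero_of_closure {X : Type*} [MulAction G X] {c : G → (X → K)} (hc : IsCoc K c)
    {s u : G} (hgen : Subgroup.closure {s, u} = ⊤) (hs : c s = 0) (hu : c u = 0) (g : G) :
    c g = 0 := by
  have hg : g ∈ Subgroup.closure {s, u} := by rw [hgen]; trivial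
  induction hg using Subgroup.closure_induction with
  | mem y hy =>
    rcases hy with rfl | hy
    · exact hs
    · rw [Set.mem_singleton_iff] at hy
      subst hy
      exact hu
  | one => exact hc.one
  | mul a b _ _ ha hb => rw [hc, ha, hb, map_zero, add_zero]
  | inv a _ ha =>
    have h := hc a⁻¹ a
    rw [inv_mul_cancel, hc.one, ha, add_zero] at h
    exact pull_injective a (by rw [← h, map_zero])

end CocLinear

end Fermat.Agent.S21.H58
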