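import Mathlib

set_option autoImplicit false
set_option linter.unusedSectionVars false

namespace Fermat.Agent.S21.H58

open Module

section PermLinAlg

variable {G : Type*} [Group G] {X : Type*} [MulAction G X]
variable (K : Type*) [Field K]

/-- Pullback operator `m ↦ m ∘ (g • ·)` on functions `X → K`. -/
def pull (g : G) : Module.End K (X → K) := LinearMap.funLeft K K (fun x : X => g • x)

@[simp] lemma pull_apply (g : G) (m : X → K) (x : X) : pull K g m x = m (g • x) := rfl

lemma pull_one : pull K (1 : G) = (1 : Module.End K (X → K)) := by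
  ext m x
  simp [pull_apply]

lemma pull_mul (g h : G) : (pull K (g * h) : Module.End K (X → K)) = pull K h * pull K g := by
  ext m x
  simp [pull_apply, mul_smul]

lemma pull_pow (g : G) (n : ℕ) : (pull K (g ^ n) : Module.End K (X → K)) = pull K g ^ n := by
  induction n with
  | zero => rw [pow_zero, pow_zero, pull_one]
  | succ n ih => rw [pow_succ, pull_mul, ih, pow_succ']

/-- The norm operator `1 + g + ... + g^(n-1)` on `X → K`. -/
def nrm (g : G) (n : ℕ) : Module.End K (X → K) := ∑ i ∈ Finset.range n, pull K g ^ i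

lemma nrm_apply (g : G) (n : ℕ) (m : X → K) (x : X) :
    nrm K g n m x = ∑ i ∈ Finset.range n, m (g ^ i • x) := by
  simp only [nrm, LinearMap.sum_apply, Finset.sum_apply, ← pull_pow, pull_apply]

lemma nrm_mul_pull_sub_one (g : G) (n : ℕ) (hg : ∀ x : X, g ^ n • x = x) :
    (nrm K g n : Module.End K (X → K)) * (pull K g - 1) = 0 := by
  rw [nrm, geom_sum_mul, ← pull_pow]
  ext m x
  simp [pull_apply, hg]

/-- Invariant functions. -/
def invts (g : G) : Submodule K (X → K) := LinearMap.ker (pull K g - 1 : Module.End K (X → K))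

lemma mem_invts {g : G} {m : X → K} : m ∈ invts K g ↔ ∀ x, m (g • x) = m x := by
  rw [invts, LinearMap.mem_ker, LinearMap.sub_apply, sub_eq_zero]
  constructor
  · intro h x
    have := congrFun h x
    simpa using this
  · intro h
    ext x
    simpa using h x

lemma invts_pow {g : G} {m : X → K} (hm : m ∈ invts K g) (i : ℕ) (x : X) :
    m (g ^ i • x) = m x := by
  induction i with
  | zero => simp
  | succ i ih => rw [pow_succ', mul_smul, (mem_invts K).mp hm, ih]

lemma nrm_of_mem_invts {g : G} {m : X → K} (hm : m ∈ invts K g) (n : ℕ) :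
    nrm K g n m = (n : K) • m := by
  ext x
  rw [nrm_apply]
  simp only [invts_pow K hm, Finset.sum_const, Finset.card_range, Pi.smul_apply, nsmul_eq_mul,
    smul_eq_mul]

lemma disjoint_ker_nrm_invts (g : G) (n : ℕ) (hn : (n : K) ≠ 0) :
    Disjoint (LinearMap.ker (nrm K g n : Module.End K (X → K))) (invts K g) := by
  rw [Submodule.disjoint_def]
  intro m hm1 hm2
  rw [LinearMap.mem_ker, nrm_of_mem_invts K hm2] at hm1
  exact (smul_eq_zero.mp hm1).resolve_left hn

end PermLinAlg

section Orbits

variable {G : Type*} [Group G] {X : Type*} [MulAction G X] [Finite X]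
variable (K : Type*) [Field K]

/-- Orbit space of the cyclic group generated by `g`. -/
abbrev Orb (g : G) (X : Type*) [MulAction G X] : Type _ :=
  MulAction.orbitRel.Quotient (Subgroup.zpowers g) X

lemma card_orb_le_finrank_invts (g : G) :
    Nat.card (Orb g X) ≤ finrank K (invts K g : Submodule K (X → K)) := by
  classical
  have : Fintype X := Fintype.ofFinite X
  have : Fintype (Orb g X) := Fintype.ofFinite _
  let π : X → Orb g X := Quotient.mk''
  have hπ : Function.Surjective π := Quotient.mk''_surjective
  let f : (Orb g X → K) →ₗ[K] (X → K) := LinearMap.funLeft K K π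
  have hf : Function.Injective f := LinearMap.funLeft_injective_of_surjective K K π hπ
  have hrange : LinearMap.range f ≤ invts K g := by
    rintro _ ⟨m, rfl⟩
    rw [mem_invts]
    intro x
    show m (π (g • x)) = m (π x)
    congr 1
    apply Quotient.sound'
    exact ⟨⟨g, Subgroup.mem_zpowers g⟩, rfl⟩
  calc Nat.card (Orb g X) = finrank K (Orb g X → K) := by
        rw [Module.finrank_fintype_fun_eq_card, Nat.card_eq_fintype_card]
    _ = finrank K (LinearMap.range f) := (LinearMap.finrank_range_of_inj hf).symm
    _ ≤ finrank K (invts K g : Submodule K (X → K)) := Submodule.finrank_mono hrange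

lemma finrank_ker_nrm_add_card_orb_le (g : G) (n : ℕ) (hn : (n : K) ≠ 0) :
    finrank K (LinearMap.ker (nrm K g n : Module.End K (X → K))) + Nat.card (Orb g X)
      ≤ Nat.card X := by
  classical
  have : Fintype X := Fintype.ofFinite X
  calc finrank K (LinearMap.ker (nrm K g n : Module.End K (X → K))) + Nat.card (Orb g X)
      ≤ finrank K (LinearMap.ker (nrm K g n : Module.End K (X → K)))
          + finrank K (invts K g : Submodule K (X → K)) :=
        Nat.add_le_add_left (card_orb_le_finrank_invts K g) _
    _ ≤ finrank K (X → K) :=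
        Submodule.finrank_add_finrank_le_of_disjoint (disjoint_ker_nrm_invts K g n hn)
    _ = Nat.card X := by rw [Module.finrank_fintype_fun_eq_card, Nat.card_eq_fintype_card]

end Orbits

section Delta

variable {G : Type*} [Group G] {X : Type*} [MulAction G X] [Fintype X] [DecidableEq X]
variable (K : Type*) [Field K]

/-- indicator function of a point -/
def delta (x : X) : X → K := Pi.single x 1

omit [Fintype X] in
lemma pull_delta (g : G) (y : X) : pull K g (delta K y) = delta K (g⁻¹ • y) := by
  ext x
  simp only [pull_apply, delta, Pi.single_apply]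
  by_cases h : g • x = y
  · rw [if_pos h, if_pos]
    rw [← h, inv_smul_smul]
  · rw [if_neg h, if_neg]
    intro h'
    apply h
    rw [h', smul_inv_smul]

/-- the span of coboundary-type vectors for two elements -/
def Rsub (s u : G) : Submodule K (X → K) :=
  LinearMap.range (pull K s - 1 : Module.End K (X → K)) ⊔
    LinearMap.range (pull K u - 1 : Module.End K (X → K))

lemma delta_smul_sub_mem_of_left (s u : G) (x : X) :
    delta K (s • x) - delta K x ∈ Rsub K s u := by
  apply Submodule.mem_sup_left
  refine ⟨- delta K (s • x), ?_⟩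
  rw [map_neg, LinearMap.sub_apply, pull_delta, inv_smul_smul, Module.End.one_apply]
  abel

lemma delta_smul_sub_mem_of_right (s u : G) (x : X) :
    delta K (u • x) - delta K x ∈ Rsub K s u := by
  apply Submodule.mem_sup_right
  refine ⟨- delta K (u • x), ?_⟩
  rw [map_neg, LinearMap.sub_apply, pull_delta, inv_smul_smul, Module.End.one_apply]
  abel

lemma delta_smul_sub_mem (s u : G) (hgen : Subgroup.closure {s, u} = ⊤) (g : G) :
    ∀ x : X, delta K (g • x) - delta K x ∈ Rsub K s u := by
  have hg : g ∈ Subgroup.closure {s, u} := by rw [hgen]; trivial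
  induction hg using Subgroup.closure_induction with
  | mem y hy =>
    intro x
    rcases hy with rfl | hy
    · exact delta_smul_sub_mem_of_left K _ u x
    · rw [Set.mem_singleton_iff] at hy
      subst hy
      exact delta_smul_sub_mem_of_right K s _ x
  | one =>
    intro x
    rw [one_smul, sub_self]
    exact Submodule.zero_mem _
  | mul a b _ _ ha hb =>
    intro x
    have h1 := ha (b • x)
    have h2 := hb x
    rw [mul_smul]
    have : delta K (a • b • x) - delta K x
        = (delta K (a • b • x) - delta K (b • x)) + (delta K (b • x) - delta K x) := by abel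
    rw [this]
    exact Submodule.add_mem _ h1 h2
  | inv a _ ha =>
    intro x
    have h1 := ha (a⁻¹ • x)
    rw [smul_inv_smul] at h1
    have : delta K (a⁻¹ • x) - delta K x = - (delta K x - delta K (a⁻¹ • x)) := by abel
    rw [this]
    exact Submodule.neg_mem _ h1

/-- total sum functional -/
def sumL : (X → K) →ₗ[K] K where
  toFun m := ∑ x, m x
  map_add' m m' := by simp [Finset.sum_add_distrib]
  map_smul' c m := by simp [Finset.mul_sum]

lemma eq_sum_delta (m : X → K) : m = ∑ x, m x • delta K x := by
  ext y
  simp [delta, Pi.single_apply, Finset.sum_apply]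

lemma ker_sumL_le_Rsub [MulAction.IsPretransitive G X] (s u : G)
    (hgen : Subgroup.closure {s, u} = ⊤) :
    LinearMap.ker (sumL K : (X → K) →ₗ[K] K) ≤ Rsub K s u := by
  intro m hm
  rw [LinearMap.mem_ker] at hm
  by_cases hX : Nonempty X
  · obtain ⟨x₀⟩ := hX
    have key : m = ∑ x, m x • (delta K x - delta K x₀) := by
      have h1 : ∑ x, m x • (delta K x - delta K x₀)
          = ∑ x, m x • delta K x - (∑ x, m x) • delta K x₀ := by
        simp only [smul_sub, Finset.sum_sub_distrib, Finset.sum_smul]
      have h2 : (∑ x, m x) = 0 := hm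
      rw [h1, h2, zero_smul, sub_zero]
      exact eq_sum_delta K m
    rw [key]
    refine Submodule.sum_mem _ fun x _ => Submodule.smul_mem _ _ ?_
    obtain ⟨g, rfl⟩ := MulAction.exists_smul_eq G x₀ x
    exact delta_smul_sub_mem K s u hgen g x₀
  · have : m = 0 := by
      ext x
      exact (hX ⟨x⟩).elim
    rw [this]
    exact Submodule.zero_mem _

end Delta

section Theta

variable {G : Type*} [Group G] {X : Type*} [MulAction G X] [Fintype X] [DecidableEq X]
variable (K : Type*) [Field K]

lemma invts_le_range_nrm (t : G) (n : ℕ) (hn : (n : K) ≠ 0) :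
    invts K t ≤ LinearMap.range (nrm K t n : Module.End K (X → K)) := by
  intro m hm
  refine ⟨(n : K)⁻¹ • m, ?_⟩
  rw [map_smul, nrm_of_mem_invts K hm, smul_smul, inv_mul_cancel₀ hn, one_smul]

lemma ker_sumL_sup_span_delta (x₀ : X) :
    LinearMap.ker (sumL K : (X → K) →ₗ[K] K) ⊔ Submodule.span K {delta K x₀} = ⊤ := by
  rw [eq_top_iff]
  intro m _
  have h : m = (m - (sumL K m) • delta K x₀) + (sumL K m) • delta K x₀ := by abel
  rw [h]
  refine Submodule.add_mem _ (Submodule.mem_sup_left ?_) (Submodule.mem_sup_right ?_)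
  · rw [LinearMap.mem_ker, map_sub, map_smul]
    have : sumL K (delta K x₀) = 1 := by
      simp [sumL, delta]
    rw [this, smul_eq_mul, mul_one, sub_self]
  · exact Submodule.smul_mem _ _ (Submodule.subset_span rfl)

lemma finrank_range_le_finrank_map_ker_sumL_add_one [Nonempty X] (f : Module.End K (X → K)) :
    finrank K (LinearMap.range f) ≤
      finrank K ((LinearMap.ker (sumL K : (X → K) →ₗ[K] K)).map f) + 1 := by
  obtain ⟨x₀⟩ := ‹Nonempty X›
  have h1 : LinearMap.range f =
      (LinearMap.ker (sumL K : (X → K) →ₗ[K] K)).map f ⊔ Submodule.span K {f (delta K x₀)} := by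
    rw [LinearMap.range_eq_map, ← ker_sumL_sup_span_delta K x₀, Submodule.map_sup,
      Submodule.map_span, Set.image_singleton]
  rw [h1]
  refine (Submodule.finrank_add_le_finrank_add_finrank _ _).trans ?_
  gcongr
  exact (finrank_span_le_card (R := K) ({f (delta K x₀)} : Set (X → K))).trans (by simp)

end Theta

section Theta2

variable {G : Type*} [Group G] {X : Type*} [MulAction G X] [Fintype X] [DecidableEq X]
variable (K : Type*) [Field K]

/-- kernel of the norm of `s` -/
abbrev Kn (X : Type*) [MulAction G X] (s : G) (ns : ℕ) : Submodule K (X → K) :=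
  LinearMap.ker (nrm K s ns : Module.End K (X → K))

/-- The map `(a, b) ↦ N_t (b - a)` on `ker N_s × ker N_u`. -/
def theta (X : Type*) [MulAction G X] (s u t : G) (ns nu n : ℕ) : (Kn K X s ns × Kn K X u nu) →ₗ[K] (X → K) :=
  (nrm K t n : Module.End K (X → K)) ∘ₗ
    ((Kn K X u nu).subtype ∘ₗ LinearMap.snd K _ _ - (Kn K X s ns).subtype ∘ₗ LinearMap.fst K _ _)

lemma theta_apply (s u t : G) (ns nu n : ℕ) (p : Kn K X s ns × Kn K X u nu) :
    theta K X s u t ns nu n p = nrm K t n ((p.2 : X → K) - (p.1 : X → K)) := rfl

lemma pull_sub_one_mem_Kn (s : G) (ns : ℕ) (hs : ∀ x : X, s ^ ns • x = x) (m : X → K) :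
    (pull K s - 1 : Module.End K (X → K)) m ∈ Kn K X s ns := by
  rw [LinearMap.mem_ker, ← Module.End.mul_apply, nrm_mul_pull_sub_one K s ns hs,
    LinearMap.zero_apply]

lemma map_nrm_Rsub_le_range_theta (s u t : G) (ns nu n : ℕ)
    (hs : ∀ x : X, s ^ ns • x = x) (hu : ∀ x : X, u ^ nu • x = x) :
    (Rsub K s u).map (nrm K t n : Module.End K (X → K))
      ≤ LinearMap.range (theta K X s u t ns nu n) := by
  rintro _ ⟨r, hr, rfl⟩
  obtain ⟨r1, ⟨m1, rfl⟩, r2, ⟨m2, rfl⟩, rfl⟩ := Submodule.mem_sup.mp hr
  refine ⟨(⟨-((pull K s - 1 : Module.End K (X → K)) m1),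
    Submodule.neg_mem _ (pull_sub_one_mem_Kn K s ns hs m1)⟩,
    ⟨(pull K u - 1 : Module.End K (X → K)) m2, pull_sub_one_mem_Kn K u nu hu m2⟩), ?_⟩
  rw [theta_apply]
  congr 1
  simp only [sub_neg_eq_add]
  abel

theorem card_orb_le_finrank_range_theta_add_one [MulAction.IsPretransitive G X] [Nonempty X]
    (s u t : G) (ns nu n : ℕ) (hgen : Subgroup.closure {s, u} = ⊤)
    (hs : ∀ x : X, s ^ ns • x = x) (hu : ∀ x : X, u ^ nu • x = x) (hn : (n : K) ≠ 0) :
    Nat.card (Orb t X) ≤ finrank K (LinearMap.range (theta K X s u t ns nu n)) + 1 := by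
  calc Nat.card (Orb t X) ≤ finrank K (invts K t : Submodule K (X → K)) :=
        card_orb_le_finrank_invts K t
    _ ≤ finrank K (LinearMap.range (nrm K t n : Module.End K (X → K))) :=
        Submodule.finrank_mono (invts_le_range_nrm K t n hn)
    _ ≤ finrank K ((LinearMap.ker (sumL K : (X → K) →ₗ[K] K)).map
          (nrm K t n : Module.End K (X → K))) + 1 :=
        finrank_range_le_finrank_map_ker_sumL_add_one K _
    _ ≤ finrank K (LinearMap.range (theta K X s u t ns nu n)) + 1 := by
        gcongr
        exact Submodule.finrank_mono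
          ((Submodule.map_mono (ker_sumL_le_Rsub K s u hgen)).trans
            (map_nrm_Rsub_le_range_theta K s u t ns nu n hs hu))

/-- The key dimension bound for the space `W = ker θ`. -/
theorem finrank_ker_theta_add_le [MulAction.IsPretransitive G X] [Nonempty X]
    (s u t : G) (ns nu n : ℕ) (hgen : Subgroup.closure {s, u} = ⊤)
    (hs : ∀ x : X, s ^ ns • x = x) (hu : ∀ x : X, u ^ nu • x = x)
    (hns : (ns : K) ≠ 0) (hnu : (nu : K) ≠ 0) (hn : (n : K) ≠ 0) :
    finrank K (LinearMap.ker (theta K X s u t ns nu n))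
      + Nat.card (Orb s X) + Nat.card (Orb u X) + Nat.card (Orb t X)
      ≤ 2 * Nat.card X + 1 := by
  have h1 := LinearMap.finrank_range_add_finrank_ker (theta K X s u t ns nu n)
  rw [Module.finrank_prod] at h1
  have h2 : finrank K (Kn K X s ns) + Nat.card (Orb s X) ≤ Nat.card X :=
    finrank_ker_nrm_add_card_orb_le K s ns hns (X := X)
  have h3 : finrank K (Kn K X u nu) + Nat.card (Orb u X) ≤ Nat.card X :=
    finrank_ker_nrm_add_card_orb_le K u nu hnu (X := X)
  have h4 := card_orb_le_finrank_range_theta_add_one K s u t ns nu n hgen hs hu hn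
  omega

end Theta2

end Fermat.Agent.S21.H58
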