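import Fermat.Agent.S21.H65_LinAlg

/-!
# The Shapiro cocycle of a homomorphism `Γ → ℂ` (S21 / PARDIM-ABS)

`Γ` is the stabiliser of a base point `x₀` of a transitive `G`-set `X`.  A homomorphism
`φ : Γ → ℂ` gives a cocycle `G → (X → ℂ)`.
-/

set_option autoImplicit false

namespace Fermat.Agent.S21.H65

open Module

variable {G X : Type*} [Group G] [MulAction G X]

/-! ### Abstract cocycles -/

/-- `c : G → V` is a cocycle: `c (g h) = c g + g • c h`. -/
def IsCoc (c : G → X → ℂ) : Prop := ∀ g h : G, c (g * h) = c g + actL g (c h)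

namespace IsCoc

variable {c : G → X → ℂ}

lemma one (hc : IsCoc c) : c 1 = 0 := by
  have h := hc 1 1
  rw [mul_one, actL_one_apply] at h
  simpa using h

lemma inv (hc : IsCoc c) {g : G} (hg : c g = 0) : c g⁻¹ = 0 := by
  have h := hc g⁻¹ g
  rw [inv_mul_cancel, hc.one, hg, map_zero, add_zero] at h
  exact h.symm

/-- Subtracting a coboundary. -/
lemma sub_cobdry (hc : IsCoc c) (v : X → ℂ) : IsCoc (fun g => c g - v + actL g v) := by
  intro g h
  simp only [hc g h, actL_mul_apply, map_add, map_sub]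
  abel

/-- A cocycle vanishing on two generators vanishes. -/
lemma eq_zero_of_closure (hc : IsCoc c) {s t : G} (hgen : Subgroup.closure {s, t} = ⊤)
    (hs : c s = 0) (ht : c t = 0) (g : G) : c g = 0 := by
  have hg : g ∈ Subgroup.closure ({s, t} : Set G) := by rw [hgen]; exact Subgroup.mem_top g
  induction hg using Subgroup.closure_induction with
  | mem x hx =>
    rcases hx with rfl | hx
    · exact hs
    · rw [Set.mem_singleton_iff] at hx; subst hx; exact ht
  | one => exact hc.one
  | mul x y _ _ hx hy => rw [hc x y, hx, hy, map_zero, add_zero]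
  | inv x _ hx => exact hc.inv hx

/-- If `c z = 0`, `s² = z`, `(s t)³ = z`, `z` acts trivially and `c t = v - t v`, then
`a = c s - v + s v` lies in `W`. -/
lemma mem_spaceW (hc : IsCoc c) {s t z : G} (hs : s ^ 2 = z) (hst : (s * t) ^ 3 = z)
    (hz : ∀ x : X, z • x = x) (hcz : c z = 0) {v : X → ℂ} (hv : v - actL t v = c t) :
    c s - v + actL s v ∈ spaceW X s (s * t) := by
  have hc' := hc.sub_cobdry v
  set c' : G → X → ℂ := fun g => c g - v + actL g v with hc'def
  have hzV := actL_apply_of_smul_eq (X := X) hz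
  have ht' : c' t = 0 := by
    simp only [hc'def, ← hv]; abel
  have hz' : c' z = 0 := by
    simp only [hc'def, hcz, hzV]; abel
  have hu' : c' (s * t) = c' s := by
    rw [hc' s t, ht', map_zero, add_zero]
  have h2 : c' s + actL s (c' s) = 0 := by
    rw [← hc' s s, ← pow_two, hs, hz']
  have h3 : c' s + actL (s * t) (c' s) + actL (s * t) (actL (s * t) (c' s)) = 0 := by
    have := hc' (s * t) ((s * t) * (s * t))
    rw [hc' (s * t) (s * t), ← pow_three, hst, hz', hu', map_add] at this
    rw [this]; abel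
  rw [Fermat.Agent.S21.H65.mem_spaceW]
  exact ⟨h2, h3⟩

/-- If moreover `a = s w - w` with `t w = w`, then `c` is the coboundary of `v - w`. -/
lemma eq_cobdry (hc : IsCoc c) {s t : G} (hgen : Subgroup.closure {s, t} = ⊤)
    {v w : X → ℂ} (hv : v - actL t v = c t) (hw : actL t w = w)
    (ha : c s - v + actL s v = actL s w - w) (g : G) :
    c g = (v - w) - actL g (v - w) := by
  have hc' := hc.sub_cobdry (v - w)
  have hs' : c s - (v - w) + actL s (v - w) = 0 := by
    rw [map_sub]
    have : c s - (v - w) + (actL s v - actL s w) = (c s - v + actL s v) - (actL s w - w) := by abel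
    rw [this, ha, sub_self]
  have ht' : c t - (v - w) + actL t (v - w) = 0 := by
    rw [map_sub, hw, ← hv]; abel
  have := hc'.eq_zero_of_closure hgen hs' ht' g
  rw [← sub_eq_zero, ← this]; abel

/-- The averaged primitive: if `t ^ m` acts trivially, `m > 0` and `c (t ^ m) = 0`, then
`v = (1/m) ∑_{k<m} c (t^(k+1))` satisfies `v - t v = c t`. -/
lemma avg_spec (hc : IsCoc c) {t : G} {m : ℕ} (hm : 0 < m) (htm : ∀ x : X, t ^ m • x = x)
    (hctm : c (t ^ m) = 0) :
    ((m : ℂ)⁻¹ • ∑ k ∈ Finset.range m, c (t ^ (k + 1)))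
      - actL t ((m : ℂ)⁻¹ • ∑ k ∈ Finset.range m, c (t ^ (k + 1))) = c t := by
  have hm0 : (m : ℂ) ≠ 0 := Nat.cast_ne_zero.2 hm.ne'
  have hstep : ∀ k : ℕ, actL t (c (t ^ (k + 1))) = c (t ^ (k + 2)) - c t := by
    intro k
    have := hc t (t ^ (k + 1))
    rw [← pow_succ'] at this
    rw [this]; abel
  have hlast : c (t ^ (m + 1)) = c (t ^ 1) := by
    rw [pow_succ, hc, hctm, zero_add, actL_apply_of_smul_eq htm, pow_one]
  have htel : ∑ k ∈ Finset.range m, c (t ^ (k + 2)) = ∑ k ∈ Finset.range m, c (t ^ (k + 1)) := by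
    have := Finset.sum_range_sub (fun k => c (t ^ (k + 1))) m
    simp only [zero_add] at this
    rw [Finset.sum_sub_distrib, hlast, sub_self, sub_eq_zero] at this
    exact this
  have hS : actL t (∑ k ∈ Finset.range m, c (t ^ (k + 1)))
      = (∑ k ∈ Finset.range m, c (t ^ (k + 1))) - (m : ℂ) • c t := by
    rw [map_sum]
    simp only [hstep]
    rw [Finset.sum_sub_distrib, htel, Finset.sum_const, Finset.card_range, Nat.cast_smul_eq_nsmul]
  rw [map_smul, hS, smul_sub, smul_smul, inv_mul_cancel₀ hm0, one_smul]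
  abel

end IsCoc

end Fermat.Agent.S21.H65
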