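import Fermat.Agent.S21.H65_LinAlg
import Fermat.Agent.S24.H37_OrbitCount
import Fermat.Agent.S20.H78_Adapters

/-!
# Orbit counts of `S` and `S * T` on `SL(2, ℤ) ⧸ Γ₀(N)` (S21 / PARDIM-SPEC, c₂ and c₃)

`2 c(S) = ψ(N) + ν₂(N)` and `3 c(S T) = ψ(N) + 2 ν₃(N)`, where
`c(g) = numCycles X g = Nat.card (MulAction.orbitRel.Quotient (Subgroup.zpowers g) X)` is the
number of orbits of the cyclic group `⟨g⟩ ≤ SL(2, ℤ)` on the coset space `X`.
-/

set_option autoImplicit false

open scoped MatrixGroups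
open CongruenceSubgroup ModularGroup

namespace Fermat.Agent.S21.H65

section Generic

variable {G X : Type*} [Group G] [MulAction G X]

lemma numCycles_def (g : G) :
    numCycles X g = Nat.card (MulAction.orbitRel.Quotient (Subgroup.zpowers g) X) := rfl

/-- The orbits of `⟨g⟩ ≤ G` on `X` are the orbits of the cyclic group generated by the
permutation `toPerm g`. -/
theorem card_orbits_zpowers_toPerm (g : G) :
    Nat.card (MulAction.orbitRel.Quotient
        (Subgroup.zpowers (MulAction.toPerm g : Equiv.Perm X)) X) = numCycles X g := by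
  have hpow : ∀ k : ℤ, (MulAction.toPerm g : Equiv.Perm X) ^ k = MulAction.toPerm (g ^ k) :=
    fun k => (map_zpow (MulAction.toPermHom G X) g k).symm
  refine Nat.card_congr (Quotient.congrRight fun x y => ?_)
  show x ∈ MulAction.orbit _ y ↔ x ∈ MulAction.orbit _ y
  constructor
  · rintro ⟨⟨σ, hσ⟩, rfl⟩
    obtain ⟨k, rfl⟩ := Subgroup.mem_zpowers_iff.1 hσ
    refine ⟨⟨g ^ k, Subgroup.zpow_mem_zpowers g k⟩, ?_⟩
    show g ^ k • y = ((MulAction.toPerm g : Equiv.Perm X) ^ k) y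
    rw [hpow]; rfl
  · rintro ⟨⟨h, hh⟩, rfl⟩
    obtain ⟨k, rfl⟩ := Subgroup.mem_zpowers_iff.1 hh
    refine ⟨⟨(MulAction.toPerm g : Equiv.Perm X) ^ k, Subgroup.zpow_mem_zpowers _ k⟩, ?_⟩
    show ((MulAction.toPerm g : Equiv.Perm X) ^ k) y = g ^ k • y
    rw [hpow]; rfl

theorem card_fixedBy_toPerm (g : G) :
    Nat.card (MulAction.fixedBy X (MulAction.toPerm g : Equiv.Perm X))
      = Nat.card (MulAction.fixedBy X g) := by
  have : MulAction.fixedBy X (MulAction.toPerm g : Equiv.Perm X) = MulAction.fixedBy X g := by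
    ext x; simp [MulAction.mem_fixedBy]
  rw [this]

/-- If `g ^ 2` acts trivially on the finite set `X`, then `2 c(g) = |X| + #Fix(g)`. -/
theorem two_mul_numCycles [Finite X] (g : G) (hg : ∀ x : X, g ^ 2 • x = x) :
    2 * numCycles X g = Nat.card X + Nat.card (MulAction.fixedBy X g) := by
  classical
  have : Fintype X := Fintype.ofFinite X
  have h := Fermat.Agent.S24.H37.two_mul_natCard_orbits (MulAction.toPerm g : Equiv.Perm X)
    (Fermat.Agent.S24.H37.toPerm_pow_eq_one g 2 hg)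
  rw [card_orbits_zpowers_toPerm, Fermat.Agent.S24.H37.numFixed_eq_natCard_fixedBy,
    card_fixedBy_toPerm, ← Nat.card_eq_fintype_card (α := X)] at h
  exact h

/-- If `g ^ 3` acts trivially on the finite set `X`, then `3 c(g) = |X| + 2 #Fix(g)`. -/
theorem three_mul_numCycles [Finite X] (g : G) (hg : ∀ x : X, g ^ 3 • x = x) :
    3 * numCycles X g = Nat.card X + 2 * Nat.card (MulAction.fixedBy X g) := by
  classical
  have : Fintype X := Fintype.ofFinite X
  have h := Fermat.Agent.S24.H37.three_mul_natCard_orbits (MulAction.toPerm g : Equiv.Perm X)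
    (Fermat.Agent.S24.H37.toPerm_pow_eq_one g 3 hg)
  rw [card_orbits_zpowers_toPerm, Fermat.Agent.S24.H37.numFixed_eq_natCard_fixedBy,
    card_fixedBy_toPerm, ← Nat.card_eq_fintype_card (α := X)] at h
  exact h

end Generic

section Gamma0

variable (N : ℕ)

theorem S_pow_two : (S : SL(2, ℤ)) ^ 2 = -1 := by decide

theorem ST_pow_three : ((S : SL(2, ℤ)) * T) ^ 3 = -1 := by decide

theorem neg_one_pow_two : (-1 : SL(2, ℤ)) ^ 2 = 1 := by decide

theorem neg_one_mem_Gamma0 : (-1 : SL(2, ℤ)) ∈ Gamma0 N := by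
  rw [Gamma0_mem]
  simp

theorem neg_one_central (g : SL(2, ℤ)) : g * (-1) = (-1) * g := by
  simp

/-- `-1` acts trivially on `SL(2, ℤ) ⧸ Γ₀(N)`. -/
theorem neg_one_smul_quotient (x : SL(2, ℤ) ⧸ Gamma0 N) : (-1 : SL(2, ℤ)) • x = x := by
  induction x using QuotientGroup.induction_on with
  | H g =>
    rw [MulAction.Quotient.smul_coe, smul_eq_mul, QuotientGroup.eq]
    have : ((-1 : SL(2, ℤ)) * g)⁻¹ * g = -1 := by
      rw [← neg_one_central, mul_inv_rev, mul_assoc, inv_mul_cancel, mul_one]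
      decide
    rw [this]
    exact neg_one_mem_Gamma0 N

variable [NeZero N]

/-- `2 c(S) = ψ(N) + ν₂(N)`. -/
theorem two_mul_numCycles_S :
    2 * numCycles (SL(2, ℤ) ⧸ Gamma0 N) (S : SL(2, ℤ))
      = ModularCurve.dedekindPsi N + ModularCurve.nuTwo N := by
  rw [two_mul_numCycles (S : SL(2, ℤ)) (fun x => by rw [S_pow_two, neg_one_smul_quotient]),
    Fermat.Agent.S20.H78.card_quotient_Gamma0, Fermat.Agent.S20.H78.card_fixedBy_S]

/-- `3 c(S T) = ψ(N) + 2 ν₃(N)`. -/
theorem three_mul_numCycles_ST :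
    3 * numCycles (SL(2, ℤ) ⧸ Gamma0 N) ((S : SL(2, ℤ)) * T)
      = ModularCurve.dedekindPsi N + 2 * ModularCurve.nuThree N := by
  rw [three_mul_numCycles ((S : SL(2, ℤ)) * T)
      (fun x => by rw [ST_pow_three, neg_one_smul_quotient]),
    Fermat.Agent.S20.H78.card_quotient_Gamma0, Fermat.Agent.S20.H78.card_fixedBy_ST]

/-- `c(T) = cuspCount N`. -/
theorem numCycles_T :
    numCycles (SL(2, ℤ) ⧸ Gamma0 N) (T : SL(2, ℤ)) = ModularCurve.cuspCount N :=
  Fermat.Agent.S20.H78.card_orbits_T_inst N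

end Gamma0

end Fermat.Agent.S21.H65
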