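import Mathlib

/-!
# Permutation-representation linear algebra for the parabolic dimension bound (S21 / PARDIM-ABS)

`G` a group acting on a finite set `X`, `V := X → ℂ` with `(g • v) x = v (g⁻¹ • x)`.
Dimension estimates for fixed spaces, the space `W = ker (1+s) ⊓ ker (1+u+u²)` and
`B = (s - 1) V^t`.
-/

set_option autoImplicit false

namespace Fermat.Agent.S21.H65

open Module

variable {G X : Type*} [Group G] [MulAction G X]

/-- The action of `g` on functions: `(actL g v) x = v (g⁻¹ • x)`. -/
def actL (g : G) : (X → ℂ) →ₗ[ℂ] (X → ℂ) := LinearMap.funLeft ℂ ℂ (fun x => g⁻¹ • x)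

@[simp] lemma actL_apply (g : G) (v : X → ℂ) (x : X) : actL g v x = v (g⁻¹ • x) := rfl

lemma actL_one_apply (v : X → ℂ) : actL (1 : G) v = v := by
  funext x; simp

lemma actL_mul_apply (g h : G) (v : X → ℂ) : actL (g * h) v = actL g (actL h v) := by
  funext x; simp [mul_smul]

lemma actL_inv_apply_of_fixed {g : G} {v : X → ℂ} (h : actL g v = v) : actL g⁻¹ v = v := by
  have := congrArg (actL g⁻¹) h
  rw [← actL_mul_apply, inv_mul_cancel, actL_one_apply] at this
  exact this.symm

/-- The subspace of `g`-invariant functions. -/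
def fixedV (g : G) : Submodule ℂ (X → ℂ) := LinearMap.ker (actL g - LinearMap.id)

lemma mem_fixedV {g : G} {v : X → ℂ} : v ∈ fixedV g ↔ actL g v = v := by
  simp [fixedV, sub_eq_zero]

/-- The number of orbits of the cyclic group generated by `g` on `X`. -/
noncomputable def numCycles (X : Type*) [MulAction G X] (g : G) : ℕ :=
  Nat.card (MulAction.orbitRel.Quotient (Subgroup.zpowers g) X)

section Finite

variable [Finite X]

/-- There are at least as many independent `g`-invariant functions as `⟨g⟩`-orbits. -/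
lemma numCycles_le_finrank_fixedV (g : G) : numCycles X g ≤ finrank ℂ (fixedV (X := X) g) := by
  classical
  set Ω := MulAction.orbitRel.Quotient (Subgroup.zpowers g) X with hΩ
  have : Finite Ω := Quotient.finite _
  have : Fintype Ω := Fintype.ofFinite Ω
  let π : X → Ω := Quotient.mk''
  have hπ : Function.Surjective π := Quotient.mk''_surjective
  let f : (Ω → ℂ) →ₗ[ℂ] (X → ℂ) := LinearMap.funLeft ℂ ℂ π
  have hf : Function.Injective f := LinearMap.funLeft_injective_of_surjective ℂ ℂ π hπ
  have hmem : ∀ w, f w ∈ fixedV (X := X) g := by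
    intro w
    rw [mem_fixedV]
    funext x
    show w (π (g⁻¹ • x)) = w (π x)
    congr 1
    apply Quotient.sound
    show g⁻¹ • x ∈ MulAction.orbit (Subgroup.zpowers g) x
    refine ⟨⟨g⁻¹, ?_⟩, rfl⟩
    exact (Subgroup.zpowers g).inv_mem (Subgroup.mem_zpowers g)
  let f' : (Ω → ℂ) →ₗ[ℂ] fixedV (X := X) g := f.codRestrict _ hmem
  have hf' : Function.Injective f' := fun a b hab => hf (by
    have := congrArg Subtype.val hab
    simpa [f'] using this)
  have := LinearMap.finrank_le_finrank_of_injective hf'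
  rw [Module.finrank_fintype_fun_eq_card] at this
  rw [numCycles, Nat.card_eq_fintype_card]
  exact this

omit [Finite X] in
/-- If `s` and `t` generate `G`, a function fixed by both is fixed by everything. -/
lemma actL_eq_of_closure {s t : G} (hgen : Subgroup.closure {s, t} = ⊤) {v : X → ℂ}
    (hs : actL s v = v) (ht : actL t v = v) (g : G) : actL g v = v := by
  have hg : g ∈ Subgroup.closure ({s, t} : Set G) := by rw [hgen]; exact Subgroup.mem_top g
  induction hg using Subgroup.closure_induction with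
  | mem x hx =>
    rcases hx with rfl | hx
    · exact hs
    · rw [Set.mem_singleton_iff] at hx; subst hx; exact ht
  | one => exact actL_one_apply v
  | mul x y _ _ hx hy => rw [actL_mul_apply, hy, hx]
  | inv x _ hx => exact actL_inv_apply_of_fixed hx

omit [Finite X] in
/-- A function fixed by all of a transitive group is constant. -/
lemma const_of_forall_actL [MulAction.IsPretransitive G X] {v : X → ℂ}
    (h : ∀ g : G, actL g v = v) (x y : X) : v x = v y := by
  obtain ⟨g, rfl⟩ := MulAction.exists_smul_eq G x y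
  have := congrFun (h g) (g • x)
  simpa using this

omit [Finite X] in
/-- A subspace all of whose members are constant functions has dimension at most one. -/
lemma finrank_le_one_of_const (A : Submodule ℂ (X → ℂ))
    (h : ∀ v ∈ A, ∀ x y : X, v x = v y) : finrank ℂ A ≤ 1 := by
  rcases isEmpty_or_nonempty X with hX | ⟨⟨x₀⟩⟩
  · have : Subsingleton (X → ℂ) := inferInstance
    have : Subsingleton A := inferInstance
    rw [finrank_zero_of_subsingleton]
    exact Nat.zero_le 1
  · have hle : A ≤ Submodule.span ℂ {fun _ : X => (1 : ℂ)} := by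
      intro v hv
      rw [Submodule.mem_span_singleton]
      refine ⟨v x₀, ?_⟩
      funext x
      simp [h v hv x x₀]
    have h1 : finrank ℂ (Submodule.span ℂ {fun _ : X => (1 : ℂ)}) ≤ 1 := by
      rw [finrank_span_singleton]
      intro h0
      have := congrFun h0 x₀
      simp at this
    exact (Submodule.finrank_mono hle).trans h1

omit [Finite X] in
lemma finrank_fixedV_inf_le_one [MulAction.IsPretransitive G X] {s t : G}
    (hgen : Subgroup.closure {s, t} = ⊤) :
    finrank ℂ ↥(fixedV (X := X) s ⊓ fixedV t) ≤ 1 := by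
  apply finrank_le_one_of_const
  intro v hv x y
  rw [Submodule.mem_inf, mem_fixedV, mem_fixedV] at hv
  exact const_of_forall_actL (actL_eq_of_closure hgen hv.1 hv.2) x y

omit [Finite X] in
lemma fixedV_inf_mul_le (s t : G) : fixedV (X := X) s ⊓ fixedV (s * t) ≤ fixedV s ⊓ fixedV t := by
  intro v hv
  rw [Submodule.mem_inf, mem_fixedV, mem_fixedV] at hv ⊢
  refine ⟨hv.1, ?_⟩
  have h1 : actL s⁻¹ v = v := actL_inv_apply_of_fixed hv.1
  have h2 : t = s⁻¹ * (s * t) := by group
  rw [h2, actL_mul_apply, hv.2, h1]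

/-- `dim (V^s + V^u) ≥ c(s) + c(u) - 1` for `u = s * t`. -/
lemma numCycles_add_le_finrank_sup [MulAction.IsPretransitive G X] {s t : G}
    (hgen : Subgroup.closure {s, t} = ⊤) :
    numCycles X s + numCycles X (s * t) ≤ finrank ℂ ↥(fixedV (X := X) s ⊔ fixedV (s * t)) + 1 := by
  have h1 := Submodule.finrank_sup_add_finrank_inf_eq (fixedV (X := X) s) (fixedV (s * t))
  have h2 : finrank ℂ ↥(fixedV (X := X) s ⊓ fixedV (s * t)) ≤ 1 :=
    (Submodule.finrank_mono (fixedV_inf_mul_le s t)).trans (finrank_fixedV_inf_le_one hgen)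
  have h3 := numCycles_le_finrank_fixedV (X := X) s
  have h4 := numCycles_le_finrank_fixedV (X := X) (s * t)
  omega

/-- `dim (s - 1) V^t ≥ c(t) - 1`. -/
lemma numCycles_le_finrank_map [MulAction.IsPretransitive G X] {s t : G}
    (hgen : Subgroup.closure {s, t} = ⊤) :
    numCycles X t ≤ finrank ℂ ↥((fixedV (X := X) t).map (actL s - LinearMap.id)) + 1 := by
  set f : ↥(fixedV (X := X) t) →ₗ[ℂ] (X → ℂ) :=
    (actL s - LinearMap.id) ∘ₗ (fixedV (X := X) t).subtype with hf
  have hrange : LinearMap.range f = (fixedV (X := X) t).map (actL s - LinearMap.id) := by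
    rw [hf, LinearMap.range_comp, Submodule.range_subtype]
  have hker : finrank ℂ ↥(LinearMap.ker f) ≤ 1 := by
    rw [← Submodule.finrank_map_subtype_eq]
    apply finrank_le_one_of_const
    rintro _ ⟨⟨v, hv⟩, hvk, rfl⟩ x y
    have hvs : actL s v = v := by
      have : f ⟨v, hv⟩ = 0 := hvk
      simpa [hf, sub_eq_zero] using this
    exact const_of_forall_actL (actL_eq_of_closure hgen hvs (mem_fixedV.1 hv)) x y
  have hrn := LinearMap.finrank_range_add_finrank_ker f
  rw [hrange] at hrn
  have h3 := numCycles_le_finrank_fixedV (X := X) t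
  omega

end Finite

/-- The space `W = ker (1 + s) ⊓ ker (1 + u + u²)`. -/
def spaceW (X : Type*) [MulAction G X] (s u : G) : Submodule ℂ (X → ℂ) :=
  LinearMap.ker (LinearMap.id + actL s) ⊓
    LinearMap.ker (LinearMap.id + actL u + actL u ∘ₗ actL u)

lemma mem_spaceW {s u : G} {a : X → ℂ} :
    a ∈ spaceW X s u ↔ a + actL s a = 0 ∧ a + actL u a + actL u (actL u a) = 0 := by
  simp [spaceW]

lemma actL_apply_of_smul_eq {z : G} (hz : ∀ x : X, z • x = x) (v : X → ℂ) : actL z v = v := by
  funext x
  rw [actL_apply, inv_smul_eq_iff.2 (hz x).symm]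

/-- `(s - 1) V^t ⊆ W` when `s² = z`, `(s t)³ = z` and `z` acts trivially on `X`. -/
lemma map_fixedV_le_spaceW {s t z : G} (hs : s ^ 2 = z) (hst : (s * t) ^ 3 = z)
    (hz : ∀ x : X, z • x = x) :
    (fixedV (X := X) t).map (actL s - LinearMap.id) ≤ spaceW X s (s * t) := by
  rintro _ ⟨w, hw, rfl⟩
  replace hw : actL t w = w := mem_fixedV.1 hw
  have hzV := actL_apply_of_smul_eq (X := X) hz
  have hss : actL s (actL s w) = w := by
    rw [← actL_mul_apply, ← pow_two, hs, hzV]
  have hu : actL (s * t) w = actL s w := by rw [actL_mul_apply, hw]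
  have huuu : actL (s * t) (actL (s * t) (actL (s * t) w)) = w := by
    rw [← actL_mul_apply, ← actL_mul_apply, ← pow_three', hst, hzV]
  have hb : (actL s - LinearMap.id : (X → ℂ) →ₗ[ℂ] (X → ℂ)) w = actL (s * t) w - w := by
    rw [LinearMap.sub_apply, LinearMap.id_apply, hu]
  rw [mem_spaceW]
  constructor
  · simp only [LinearMap.sub_apply, LinearMap.id_apply, map_sub, hss]
    abel
  · rw [hb]
    simp only [map_sub, huuu]
    abel

section Fintype

variable [Fintype X]

lemma dot_actL (g : G) (a p : X → ℂ) : actL g a ⬝ᵥ p = a ⬝ᵥ actL g⁻¹ p := by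
  simp only [dotProduct, actL_apply, inv_inv]
  refine Fintype.sum_equiv (MulAction.toPerm g⁻¹) _ _ (fun x => ?_)
  simp

lemma dot_actL_of_fixed {g : G} {a p : X → ℂ} (hp : actL g p = p) : actL g a ⬝ᵥ p = a ⬝ᵥ p := by
  rw [dot_actL, actL_inv_apply_of_fixed hp]

lemma dot_eq_zero_of_fixed_left {s u : G} {a p : X → ℂ} (ha : a ∈ spaceW X s u)
    (hp : actL s p = p) : a ⬝ᵥ p = 0 := by
  rw [mem_spaceW] at ha
  have h1 : (a + actL s a) ⬝ᵥ p = 0 := by rw [ha.1, zero_dotProduct]
  rw [add_dotProduct, dot_actL_of_fixed hp] at h1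
  have h2 : (2 : ℂ) * (a ⬝ᵥ p) = 0 := by linear_combination h1
  simpa using h2

lemma dot_eq_zero_of_fixed_right {s u : G} {a q : X → ℂ} (ha : a ∈ spaceW X s u)
    (hq : actL u q = q) : a ⬝ᵥ q = 0 := by
  rw [mem_spaceW] at ha
  have h1 : (a + actL u a + actL u (actL u a)) ⬝ᵥ q = 0 := by rw [ha.2, zero_dotProduct]
  rw [add_dotProduct, add_dotProduct, dot_actL_of_fixed hq, dot_actL_of_fixed hq,
    dot_actL_of_fixed hq] at h1
  have h2 : (3 : ℂ) * (a ⬝ᵥ q) = 0 := by linear_combination h1
  simpa using h2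

/-- `dim W + dim (V^s + V^u) ≤ |X|`. -/
lemma finrank_spaceW_add_le (s u : G) :
    finrank ℂ ↥(spaceW X s u) + finrank ℂ ↥(fixedV (X := X) s ⊔ fixedV u) ≤ Fintype.card X := by
  classical
  set e := dotProductEquiv ℂ X with he
  have hle : (spaceW X s u).map (e : (X → ℂ) →ₗ[ℂ] Module.Dual ℂ (X → ℂ)) ≤
      (fixedV (X := X) s ⊔ fixedV u).dualAnnihilator := by
    rw [Submodule.dualAnnihilator_sup_eq]
    rintro _ ⟨a, ha, rfl⟩
    rw [Submodule.mem_inf, Submodule.mem_dualAnnihilator, Submodule.mem_dualAnnihilator]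
    refine ⟨fun p hp => ?_, fun q hq => ?_⟩
    · exact dot_eq_zero_of_fixed_left ha (mem_fixedV.1 hp)
    · exact dot_eq_zero_of_fixed_right ha (mem_fixedV.1 hq)
  have h1 := Submodule.finrank_mono hle
  rw [LinearEquiv.finrank_map_eq] at h1
  have h2 := Subspace.finrank_add_finrank_dualAnnihilator_eq (fixedV (X := X) s ⊔ fixedV u)
  rw [Module.finrank_fintype_fun_eq_card] at h2
  omega

end Fintype

end Fermat.Agent.S21.H65
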