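import Fermat.Agent.S21.H65_Cocycle

/-!
# The abstract parabolic dimension bound (S21 / PARDIM-ABS)

`G` a group generated by `s, t` with `s² = (s t)³ = z` central, `z² = 1`; `X` a finite transitive
`G`-set, `Γ` the stabiliser of a base point `x₀`, `z ∈ Γ`.  Then the space `P` of homomorphisms
`Γ → ℂ` killing every conjugate of a power of `t` lying in `Γ` satisfies
`dim P + c(s) + c(s t) + c(t) ≤ |X| + 2`, with `c(g)` the number of `⟨g⟩`-orbits on `X`.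
-/

set_option autoImplicit false

namespace Fermat.Agent.S21.H65

open Module

variable {G X : Type*} [Group G] [MulAction G X]

/-- Homomorphisms `Γ → ℂ` vanishing on every conjugate of a power of `t` that lies in `Γ`. -/
def tParabolicHoms (Γ : Subgroup G) (t : G) : Submodule ℂ (Additive Γ →+ ℂ) where
  carrier := {φ | ∀ (g : G) (k : ℕ) (h : g * t ^ k * g⁻¹ ∈ Γ),
    φ (Additive.ofMul ⟨g * t ^ k * g⁻¹, h⟩) = 0}
  zero_mem' := fun _ _ _ => rfl
  add_mem' := by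
    intro φ ψ hφ hψ g k h
    show φ _ + ψ _ = 0
    rw [hφ g k h, hψ g k h, add_zero]
  smul_mem' := by
    intro c φ hφ g k h
    show c • φ _ = 0
    rw [hφ g k h, smul_zero]

lemma mem_tParabolicHoms {Γ : Subgroup G} {t : G} {φ : Additive Γ →+ ℂ} :
    φ ∈ tParabolicHoms Γ t ↔ ∀ (g : G) (k : ℕ) (h : g * t ^ k * g⁻¹ ∈ Γ),
      φ (Additive.ofMul ⟨g * t ^ k * g⁻¹, h⟩) = 0 := Iff.rfl

/-! ### Extension by zero -/

section Ext

variable (Γ : Subgroup G)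

open Classical in
/-- Extension by zero of `φ : Γ → ℂ` to all of `G`. -/
noncomputable def extZ (φ : Additive Γ →+ ℂ) (g : G) : ℂ :=
  if h : g ∈ Γ then φ (Additive.ofMul ⟨g, h⟩) else 0

variable {Γ}

lemma extZ_of_mem (φ : Additive Γ →+ ℂ) {g : G} (h : g ∈ Γ) :
    extZ Γ φ g = φ (Additive.ofMul ⟨g, h⟩) := dif_pos h

lemma extZ_mul (φ : Additive Γ →+ ℂ) {g h : G} (hg : g ∈ Γ) (hh : h ∈ Γ) :
    extZ Γ φ (g * h) = extZ Γ φ g + extZ Γ φ h := by
  rw [extZ_of_mem φ hg, extZ_of_mem φ hh, extZ_of_mem φ (Γ.mul_mem hg hh), ← map_add]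
  rfl

lemma extZ_add (φ ψ : Additive Γ →+ ℂ) (g : G) :
    extZ Γ (φ + ψ) g = extZ Γ φ g + extZ Γ ψ g := by
  unfold extZ
  split_ifs <;> simp

lemma extZ_smul (a : ℂ) (φ : Additive Γ →+ ℂ) (g : G) :
    extZ Γ (a • φ) g = a • extZ Γ φ g := by
  unfold extZ
  split_ifs <;> simp

end Ext

/-! ### The Shapiro cocycle -/

section Shapiro

variable (G) in
/-- A section `X → G` of the orbit map `g ↦ g • x₀`. -/
noncomputable def rep [MulAction.IsPretransitive G X] (x₀ x : X) : G :=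
  Classical.choose (MulAction.exists_smul_eq G x₀ x)

variable [MulAction.IsPretransitive G X] (Γ : Subgroup G) (x₀ : X)

lemma rep_smul (x : X) : rep G x₀ x • x₀ = x :=
  Classical.choose_spec (MulAction.exists_smul_eq G x₀ x)

/-- The element of `Γ` attached to `(g, x)`. -/
noncomputable def cocElt (g : G) (x : X) : G := (rep G x₀ x)⁻¹ * g * rep G x₀ (g⁻¹ • x)

variable {Γ x₀}

lemma cocElt_mem (hΓ : ∀ g : G, g ∈ Γ ↔ g • x₀ = x₀) (g : G) (x : X) : cocElt x₀ g x ∈ Γ := by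
  rw [hΓ, cocElt, mul_smul, mul_smul, rep_smul, smul_inv_smul, inv_smul_eq_iff, rep_smul]

variable (x₀) in
lemma cocElt_mul (g h : G) (x : X) :
    cocElt x₀ (g * h) x = cocElt x₀ g x * cocElt x₀ h (g⁻¹ • x) := by
  simp only [cocElt, mul_inv_rev, mul_smul]
  group

variable (Γ x₀) in
/-- The Shapiro cocycle of `φ`. -/
noncomputable def coc (φ : Additive Γ →+ ℂ) (g : G) : X → ℂ :=
  fun x => extZ Γ φ (cocElt x₀ g x)

lemma isCoc_coc (hΓ : ∀ g : G, g ∈ Γ ↔ g • x₀ = x₀) (φ : Additive Γ →+ ℂ) :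
    IsCoc (coc Γ x₀ φ) := by
  intro g h
  funext x
  simp only [coc, Pi.add_apply, actL_apply]
  rw [cocElt_mul, extZ_mul φ (cocElt_mem hΓ g x) (cocElt_mem hΓ h _)]

variable (Γ x₀) in
/-- `φ ↦ coc φ g` as a linear map. -/
noncomputable def cocL (g : G) : (Additive Γ →+ ℂ) →ₗ[ℂ] (X → ℂ) where
  toFun φ := coc Γ x₀ φ g
  map_add' φ ψ := by funext x; simp [coc, extZ_add]
  map_smul' a φ := by funext x; simp [coc, extZ_smul]

@[simp] lemma cocL_apply (g : G) (φ : Additive Γ →+ ℂ) : cocL Γ x₀ g φ = coc Γ x₀ φ g := rfl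

/-- Evaluating the cocycle of `φ` at `γ ∈ Γ` and the base point recovers `φ γ`. -/
lemma coc_apply_base (hΓ : ∀ g : G, g ∈ Γ ↔ g • x₀ = x₀) (φ : Additive Γ →+ ℂ) {γ : G}
    (hγ : γ ∈ Γ) : coc Γ x₀ φ γ x₀ = φ (Additive.ofMul ⟨γ, hγ⟩) := by
  have hγ' : γ⁻¹ • x₀ = x₀ := by rw [inv_smul_eq_iff, (hΓ γ).1 hγ]
  have hr : rep G x₀ x₀ ∈ Γ := (hΓ _).2 (rep_smul x₀ x₀)
  simp only [coc, cocElt, hγ']
  rw [extZ_mul φ (Γ.mul_mem (Γ.inv_mem hr) hγ) hr, extZ_mul φ (Γ.inv_mem hr) hγ,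
    extZ_of_mem φ hr, extZ_of_mem φ (Γ.inv_mem hr), extZ_of_mem φ hγ]
  have : (Additive.ofMul (⟨(rep G x₀ x₀)⁻¹, Γ.inv_mem hr⟩ : Γ))
      = - Additive.ofMul (⟨rep G x₀ x₀, hr⟩ : Γ) := rfl
  rw [this, map_neg]
  ring

/-- If `z ∈ Γ` is central with `z² = 1` then the cocycle vanishes at `z`. -/
lemma coc_central (hΓ : ∀ g : G, g ∈ Γ ↔ g • x₀ = x₀) (φ : Additive Γ →+ ℂ) {z : G}
    (hzc : ∀ g : G, g * z = z * g) (hzΓ : z ∈ Γ) (hz2 : z ^ 2 = 1) :
    coc Γ x₀ φ z = 0 := by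
  have hφz : φ (Additive.ofMul ⟨z, hzΓ⟩) = 0 := by
    have h1 : (2 : ℕ) • Additive.ofMul (⟨z, hzΓ⟩ : Γ) = 0 := by
      rw [← ofMul_pow]
      have : (⟨z, hzΓ⟩ : Γ) ^ 2 = 1 := Subtype.ext (by simpa using hz2)
      rw [this]; rfl
    have h2 := congrArg φ h1
    rw [map_nsmul, map_zero] at h2
    simpa using h2
  funext x
  have hzx : z⁻¹ • x = x := by
    obtain ⟨g, rfl⟩ := MulAction.exists_smul_eq G x₀ x
    rw [inv_smul_eq_iff, ← mul_smul, ← hzc g, mul_smul, (hΓ z).1 hzΓ]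
  have helt : cocElt x₀ z x = z := by
    rw [cocElt, hzx, mul_assoc, ← hzc, inv_mul_cancel_left]
  simp only [coc, helt, Pi.zero_apply]
  rw [extZ_of_mem φ hzΓ, hφz]

/-- The central element acts trivially on `X`. -/
lemma central_smul (hΓ : ∀ g : G, g ∈ Γ ↔ g • x₀ = x₀) {z : G}
    (hzc : ∀ g : G, g * z = z * g) (hzΓ : z ∈ Γ) (x : X) : z • x = x := by
  obtain ⟨g, rfl⟩ := MulAction.exists_smul_eq G x₀ x
  rw [← mul_smul, ← hzc g, mul_smul, (hΓ z).1 hzΓ]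

/-- For `φ` parabolic with respect to `t`, the cocycle vanishes at `t ^ m` as soon as `t ^ m`
acts trivially. -/
lemma coc_pow_of_mem (φ : Additive Γ →+ ℂ) {t : G} (hφ : φ ∈ tParabolicHoms Γ t) {m : ℕ}
    (htm : ∀ x : X, t ^ m • x = x) : coc Γ x₀ φ (t ^ m) = 0 := by
  funext x
  have hx : (t ^ m)⁻¹ • x = x := by rw [inv_smul_eq_iff, htm]
  simp only [coc, cocElt, hx, Pi.zero_apply]
  unfold extZ
  split_ifs with h
  · have := hφ (rep G x₀ x)⁻¹ m (by simpa using h)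
    simpa using this
  · rfl

end Shapiro

/-! ### The main theorem -/

section Main

variable [MulAction.IsPretransitive G X] (Γ : Subgroup G) (x₀ : X)

/-- The averaged primitive of `coc φ t`, as a linear map in `φ`. -/
noncomputable def vL (t : G) (m : ℕ) : (Additive Γ →+ ℂ) →ₗ[ℂ] (X → ℂ) :=
  (m : ℂ)⁻¹ • ∑ k ∈ Finset.range m, cocL Γ x₀ (t ^ (k + 1))

lemma vL_apply (t : G) (m : ℕ) (φ : Additive Γ →+ ℂ) :
    vL Γ x₀ t m φ = (m : ℂ)⁻¹ • ∑ k ∈ Finset.range m, coc Γ x₀ φ (t ^ (k + 1)) := by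
  simp [vL, LinearMap.sum_apply]

/-- The class map `φ ↦ a_φ = c_φ(s) - v_φ + s v_φ`. -/
noncomputable def aL (s t : G) (m : ℕ) : (Additive Γ →+ ℂ) →ₗ[ℂ] (X → ℂ) :=
  cocL Γ x₀ s - vL Γ x₀ t m + actL s ∘ₗ vL Γ x₀ t m

lemma aL_apply (s t : G) (m : ℕ) (φ : Additive Γ →+ ℂ) :
    aL Γ x₀ s t m φ = coc Γ x₀ φ s - vL Γ x₀ t m φ + actL s (vL Γ x₀ t m φ) := rfl

omit [MulAction.IsPretransitive G X] in
lemma exists_pow_smul_eq [Finite X] (t : G) : ∃ m : ℕ, 0 < m ∧ ∀ x : X, t ^ m • x = x := by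
  have h : IsOfFinOrder (MulAction.toPermHom G X t) := isOfFinOrder_of_finite _
  refine ⟨orderOf (MulAction.toPermHom G X t), h.orderOf_pos, fun x => ?_⟩
  have := pow_orderOf_eq_one (MulAction.toPermHom G X t)
  rw [← map_pow] at this
  have h2 := congrArg (fun e : Equiv.Perm X => e x) this
  simpa using h2

variable {Γ x₀}

/-- **Abstract parabolic dimension bound.** -/
theorem finrank_tParabolicHoms_le [Finite X] (Γ : Subgroup G) (x₀ : X)
    (hΓ : ∀ g : G, g ∈ Γ ↔ g • x₀ = x₀) (s t z : G)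
    (hgen : Subgroup.closure {s, t} = ⊤) (hs : s ^ 2 = z) (hst : (s * t) ^ 3 = z)
    (hzc : ∀ g : G, g * z = z * g) (hzΓ : z ∈ Γ) (hz2 : z ^ 2 = 1) :
    Module.Finite ℂ (tParabolicHoms Γ t) ∧
      finrank ℂ (tParabolicHoms Γ t) + numCycles X s + numCycles X (s * t) + numCycles X t
        ≤ Nat.card X + 2 := by
  classical
  have : Fintype X := Fintype.ofFinite X
  obtain ⟨m, hm, htm⟩ := exists_pow_smul_eq (X := X) t
  have hz : ∀ x : X, z • x = x := central_smul hΓ hzc hzΓ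
  set P := tParabolicHoms Γ t with hP
  set Λ : P →ₗ[ℂ] (X → ℂ) := aL Γ x₀ s t m ∘ₗ P.subtype with hΛ
  have hv : ∀ φ ∈ P, vL Γ x₀ t m φ - actL t (vL Γ x₀ t m φ) = coc Γ x₀ φ t := by
    intro φ hφ
    rw [vL_apply]
    exact (isCoc_coc hΓ φ).avg_spec hm htm (coc_pow_of_mem φ hφ htm)
  have hΛapp : ∀ φ : P, Λ φ = coc Γ x₀ φ.1 s - vL Γ x₀ t m φ.1 + actL s (vL Γ x₀ t m φ.1) :=
    fun φ => rfl
  have hΛW : ∀ φ : P, Λ φ ∈ spaceW X s (s * t) := by
    intro φ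
    rw [hΛapp]
    exact (isCoc_coc hΓ φ.1).mem_spaceW hs hst hz (coc_central hΓ φ.1 hzc hzΓ hz2) (hv φ.1 φ.2)
  have hΛB : ∀ φ : P, Λ φ ∈ (fixedV (X := X) t).map (actL s - LinearMap.id) → φ = 0 := by
    rintro φ ⟨w, hw, hwa⟩
    have hwa' : coc Γ x₀ φ.1 s - vL Γ x₀ t m φ.1 + actL s (vL Γ x₀ t m φ.1) = actL s w - w := by
      rw [← hΛapp, ← hwa]; rfl
    have hcob := (isCoc_coc hΓ φ.1).eq_cobdry hgen (hv φ.1 φ.2) (mem_fixedV.1 hw) hwa'
    refine Subtype.ext (AddMonoidHom.ext fun x => ?_)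
    have hγ : ((Additive.toMul x : Γ) : G) ∈ Γ := (Additive.toMul x).2
    have h1 := coc_apply_base hΓ φ.1 hγ
    have h2 := congrFun (hcob ((Additive.toMul x : Γ) : G)) x₀
    have hγ' : ((Additive.toMul x : Γ) : G)⁻¹ • x₀ = x₀ := by rw [inv_smul_eq_iff, (hΓ _).1 hγ]
    rw [Pi.sub_apply, actL_apply, hγ', sub_self] at h2
    rw [h2] at h1
    exact h1.symm
  have hinj : Function.Injective Λ := by
    rw [injective_iff_map_eq_zero]
    intro φ h0
    exact hΛB φ (by rw [h0]; exact zero_mem _)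
  have hfin : Module.Finite ℂ P := Module.Finite.of_injective Λ hinj
  refine ⟨hfin, ?_⟩
  have hdisj : Disjoint (LinearMap.range Λ) ((fixedV (X := X) t).map (actL s - LinearMap.id)) := by
    rw [Submodule.disjoint_def]
    rintro _ ⟨φ, rfl⟩ hB
    rw [hΛB φ hB, map_zero]
  have hsup : LinearMap.range Λ ⊔ (fixedV (X := X) t).map (actL s - LinearMap.id)
      ≤ spaceW X s (s * t) := by
    refine sup_le ?_ (map_fixedV_le_spaceW hs hst hz)
    rintro _ ⟨φ, rfl⟩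
    exact hΛW φ
  have h1 : finrank ℂ (LinearMap.range Λ) = finrank ℂ P := LinearMap.finrank_range_of_inj hinj
  have h2 := Submodule.finrank_sup_add_finrank_inf_eq (LinearMap.range Λ)
    ((fixedV (X := X) t).map (actL s - LinearMap.id))
  rw [hdisj.eq_bot, finrank_bot, add_zero] at h2
  have h3 := Submodule.finrank_mono hsup
  have h4 := finrank_spaceW_add_le (X := X) s (s * t)
  have h5 := numCycles_add_le_finrank_sup (X := X) hgen
  have h6 := numCycles_le_finrank_map (X := X) hgen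
  rw [Nat.card_eq_fintype_card]
  omega

end Main

end Fermat.Agent.S21.H65
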