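import Mathlib
import Fermat.Prelude.Def_ModularCurve_PeriodHomPair
import Fermat.Agent.S21.H30_MaxModulus

set_option autoImplicit false

open UpperHalfPlane CongruenceSubgroup Filter Topology Function
open ModularCurve ModularCurve.Period
open scoped MatrixGroups Manifold ComplexConjugate ModularForm

namespace Fermat.Agent.S21.H83

/-- The reflected function `z ↦ conj (V (-conj z))`. -/
noncomputable def reflFun (V : ℍ → ℂ) : ℍ → ℂ := fun z => conj (V (J • z))

theorem reflFun_eq_slash (V : ℍ → ℂ) : reflFun V = V ∣[(1 : ℤ)] J := by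
  funext τ
  simp [reflFun, ModularForm.slash_def]

theorem mdiff_reflFun {V : ℍ → ℂ} (hV : MDiff V) : MDiff (reflFun V) := by
  rw [reflFun_eq_slash]
  exact hV.slash 1 J

theorem J_smul_J_smul (z : ℍ) : J • J • z = z := by
  rw [← mul_smul, ← sq, J_sq, one_smul]

theorem reflFun_reflFun (V : ℍ → ℂ) : reflFun (reflFun V) = V := by
  funext z
  simp [reflFun, J_smul_J_smul]

/-- Conjugation by `J` on `SL(2, ℤ)` inside `GL(2, ℝ)` is the prelude's `jConjSL`. -/
theorem jConjSL_mul_J (γ : SL(2, ℤ)) :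
    ((jConjSL γ : SL(2, ℤ)) : GL (Fin 2) ℝ) * J = J * (γ : GL (Fin 2) ℝ) := by
  ext i j
  fin_cases i <;> fin_cases j <;> simp [jConjMat, Matrix.mul_apply, Fin.sum_univ_two]

theorem J_smul_smul (γ : SL(2, ℤ)) (z : ℍ) : J • (γ • z) = (jConjSL γ) • (J • z) := by
  rw [ModularGroup.sl_moeb, ModularGroup.sl_moeb, ← mul_smul, ← mul_smul, jConjSL_mul_J]

theorem im_J_smul (z : ℍ) : (J • z).im = z.im := by
  have := coe_J_smul z
  have h2 : ((J • z : ℍ) : ℂ).im = (-conj (z : ℂ)).im := by rw [this]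
  simpa using h2

theorem tendsto_J_smul_atImInfty : Tendsto (fun z : ℍ => J • z) atImInfty atImInfty := by
  rw [atImInfty, tendsto_comap_iff]
  have : (im ∘ fun z : ℍ => J • z) = im := by
    funext z
    exact im_J_smul z
  rw [this]
  exact tendsto_comap

section Prim

variable {N : ℕ} {v : CuspForm (Gamma0 N) 2} {V : ℍ → ℂ}

theorem mdiff_of_hasEquivariantPrimitive (hV : HasEquivariantPrimitive N v V) : MDiff V := by
  rw [UpperHalfPlane.mdifferentiable_iff]
  intro z hz
  exact (hV.1 ⟨z, hz⟩).differentiableAt.differentiableWithinAt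

theorem eq_zero_of_const (hV : HasEquivariantPrimitive N v V) {c : ℂ} (hc : ∀ z, V z = c) :
    v = 0 := by
  ext τ
  have h1 := hV.1 τ
  have h2 : (V ∘ ofComplex) = fun _ => c := by
    funext z
    simp [hc]
  rw [h2] at h1
  exact h1.unique (hasDerivAt_const _ _)

theorem smul_eq_add_period (hV : HasEquivariantPrimitive N v V) (γ : Gamma0 N) (z : ℍ) :
    V ((γ : SL(2, ℤ)) • z) = V z + hV.2.2.1.period γ := by
  have := hV.2.2.1.sub_eq_period γ z
  linear_combination this

theorem reflFun_smul (hV : HasEquivariantPrimitive N v V) (γ : Gamma0 N) (z : ℍ) :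
    reflFun V ((γ : SL(2, ℤ)) • z)
      = reflFun V z + conj (hV.2.2.1.period (jConjGamma0 N γ)) := by
  simp only [reflFun]
  rw [J_smul_smul]
  have := smul_eq_add_period hV (jConjGamma0 N γ) (J • z)
  rw [jConjGamma0_coe] at this
  rw [this, map_add]

theorem tendsto_reflFun (hV : HasEquivariantPrimitive N v V) (δ : SL(2, ℤ)) :
    ∃ L, Tendsto (fun w : ℍ => reflFun V (δ • w)) atImInfty (𝓝 L) := by
  obtain ⟨L, hL⟩ := hV.2.2.2 (jConjSL δ)
  refine ⟨conj L, ?_⟩
  have h1 : (fun w : ℍ => reflFun V (δ • w)) = fun w => conj (V (jConjSL δ • (J • w))) := by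
    funext w
    simp only [reflFun, J_smul_smul]
  rw [h1]
  exact (Complex.continuous_conj.tendsto L).comp (hL.comp tendsto_J_smul_atImInfty)

end Prim

/-- **Part C of Eichler–Shimura (S21).**  Given the existence of equivariant primitives and the
linearity of the period map (part A), the pair period map is injective. -/
theorem periodHomPair_injective (N : ℕ) [NeZero N]
    (hex : ∀ f : CuspForm (Gamma0 N) 2, ∃ F, HasEquivariantPrimitive N f F)
    (hlin : ExistsPeriodMapLinear N) : Function.Injective (periodHomPair N) := by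
  obtain ⟨pml, hpml, hpair⟩ := periodHomPair_def N hlin
  rw [injective_iff_map_eq_zero]
  rintro ⟨f, g⟩ h0
  rw [hpair] at h0
  simp only [LinearMap.coprod_apply, LinearMap.comp_apply, LinearMap.add_apply,
    LinearMap.sub_apply, LinearMap.id_apply] at h0
  have hu : pml (f + g) + charInvolution N ℂ ℂ (pml (f - g)) = 0 := by
    simp only [map_add, map_sub]
    rw [← h0]
    abel
  rw [hpml (f + g), hpml (f - g)] at hu
  obtain ⟨U₁, hU₁⟩ := hex (f + g)
  obtain ⟨U, hU, hpU⟩ := periodMap_def N (f + g) hU₁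
  obtain ⟨V₁, hV₁⟩ := hex (f - g)
  obtain ⟨V, hV, hpV⟩ := periodMap_def N (f - g) hV₁
  have hper : ∀ γ : Gamma0 N,
      hU.2.2.1.period γ + hV.2.2.1.period (jConjGamma0 N γ) = 0 := by
    intro γ
    have := DFunLike.congr_fun hu (Additive.ofMul γ)
    simpa [hpU, hpV] using this
  have hUd : MDiff U := mdiff_of_hasEquivariantPrimitive hU
  have hWd : MDiff (reflFun V) := mdiff_reflFun (mdiff_of_hasEquivariantPrimitive hV)
  -- the two auxiliary holomorphic functions
  have hA₁ : ∃ c, ∀ z, U z + reflFun V z = c := by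
    refine Fermat.Agent.S21.H30.eq_const_of_re_invariant_Gamma0 N
      (fun z => U z + reflFun V z) (hUd.add hWd) ?_ ?_
    · intro γ hγ
      refine ⟨hU.2.2.1.period ⟨γ, hγ⟩ + conj (hV.2.2.1.period (jConjGamma0 N ⟨γ, hγ⟩)), ?_, ?_⟩
      · have := hper ⟨γ, hγ⟩
        rw [eq_neg_of_add_eq_zero_left this]
        simp
      · intro z
        have h1 := smul_eq_add_period hU ⟨γ, hγ⟩ z
        have h2 := reflFun_smul hV ⟨γ, hγ⟩ z
        simp only at h1 h2
        rw [h1, h2]
        ring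
    · intro δ
      obtain ⟨L₁, hL₁⟩ := hU.2.2.2 δ
      obtain ⟨L₂, hL₂⟩ := tendsto_reflFun hV δ
      exact ⟨L₁ + L₂, hL₁.add hL₂⟩
  have hA₂ : ∃ c, ∀ z, -Complex.I * (U z - reflFun V z) = c := by
    refine Fermat.Agent.S21.H30.eq_const_of_re_invariant_Gamma0 N
      (fun z => -Complex.I * (U z - reflFun V z)) ?_ ?_ ?_
    · exact (mdifferentiable_const (c := -Complex.I)).mul (hUd.sub hWd)
    · intro γ hγ
      refine ⟨-Complex.I * (hU.2.2.1.period ⟨γ, hγ⟩
        - conj (hV.2.2.1.period (jConjGamma0 N ⟨γ, hγ⟩))), ?_, ?_⟩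
      · have := hper ⟨γ, hγ⟩
        rw [eq_neg_of_add_eq_zero_left this]
        simp
      · intro z
        have h1 := smul_eq_add_period hU ⟨γ, hγ⟩ z
        have h2 := reflFun_smul hV ⟨γ, hγ⟩ z
        simp only at h1 h2
        rw [h1, h2]
        ring
    · intro δ
      obtain ⟨L₁, hL₁⟩ := hU.2.2.2 δ
      obtain ⟨L₂, hL₂⟩ := tendsto_reflFun hV δ
      exact ⟨-Complex.I * (L₁ - L₂), (hL₁.sub hL₂).const_mul _⟩
  obtain ⟨c₁, hc₁⟩ := hA₁
  obtain ⟨c₂, hc₂⟩ := hA₂
  have hUc : ∀ z, U z = (c₁ + Complex.I * c₂) / 2 := by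
    intro z
    rw [← hc₁ z, ← hc₂ z]
    linear_combination ((1 : ℂ) / 2 * (U z - reflFun V z)) * Complex.I_mul_I
  have hWc : ∀ z, reflFun V z = (c₁ - Complex.I * c₂) / 2 := by
    intro z
    rw [← hc₁ z, ← hc₂ z]
    linear_combination (-(1 : ℂ) / 2 * (U z - reflFun V z)) * Complex.I_mul_I
  have hVc : ∀ z, V z = conj ((c₁ - Complex.I * c₂) / 2) := by
    intro z
    have := congr_fun (reflFun_reflFun V) z
    rw [← this]
    simp only [reflFun] at hWc ⊢
    rw [hWc]
  have hfg : f + g = 0 := eq_zero_of_const hU hUc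
  have hfg' : f - g = 0 := eq_zero_of_const hV hVc
  have hfeq : f = g := sub_eq_zero.mp hfg'
  have h2f : (2 : ℂ) • f = 0 := by
    rw [two_smul]
    nth_rewrite 2 [hfeq]
    exact hfg
  have hf0 : f = 0 := by
    rcases smul_eq_zero.mp h2f with h | h
    · norm_num at h
    · exact h
  have hg0 : g = 0 := by rw [← hfeq, hf0]
  rw [hf0, hg0]
  rfl

end Fermat.Agent.S21.H83
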