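import Mathlib

set_option autoImplicit false

open UpperHalfPlane Filter Topology Function Complex
open scoped MatrixGroups Modular Manifold

namespace Fermat.Agent.S21.H85

/-- Maximum principle for the real part of a holomorphic function (via the open mapping theorem). -/
theorem eqOn_of_re_le {U : Set ℂ} (hU : IsOpen U) (hc : IsPreconnected U) {g : ℂ → ℂ}
    (hg : DifferentiableOn ℂ g U) {z₀ : ℂ} (hz₀ : z₀ ∈ U)
    (hmax : ∀ z ∈ U, (g z).re ≤ (g z₀).re) : ∀ z ∈ U, g z = g z₀ := by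
  have han : AnalyticOnNhd ℂ g U := hg.analyticOnNhd hU
  rcases han.is_constant_or_isOpen hc with ⟨w, hw⟩ | hopen
  · intro z hz
    rw [hw z hz, hw z₀ hz₀]
  · exfalso
    have hO : IsOpen (g '' U) := hopen U subset_rfl hU
    have hmem : g z₀ ∈ g '' U := ⟨z₀, hz₀, rfl⟩
    obtain ⟨ε, hε, hball⟩ := Metric.isOpen_iff.mp hO (g z₀) hmem
    have h1 : g z₀ + ((ε / 2 : ℝ) : ℂ) ∈ Metric.ball (g z₀) ε := by
      rw [Metric.mem_ball, dist_eq_norm, add_sub_cancel_left, Complex.norm_real,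
        Real.norm_of_nonneg (by positivity)]
      linarith
    obtain ⟨z, hz, hgz⟩ := hball h1
    have := hmax z hz
    rw [hgz] at this
    simp at this
    linarith

/-- A continuous real function on `ℍ` with a limit at `i∞` either attains its supremum over the
standard fundamental domain, or is bounded there by its limit. -/
theorem fd_dichotomy {v : ℍ → ℝ} (hv : Continuous v) {ℓ : ℝ}
    (hℓ : Tendsto v atImInfty (𝓝 ℓ)) :
    (∃ w₀ ∈ 𝒟, ∀ w ∈ 𝒟, v w ≤ v w₀) ∨ (∀ w ∈ 𝒟, v w ≤ ℓ) := by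
  by_cases h : ∀ w ∈ 𝒟, v w ≤ ℓ
  · exact Or.inr h
  · left
    push Not at h
    obtain ⟨w₁, hw₁, hlt⟩ := h
    have hev : ∀ᶠ w in atImInfty, v w < v w₁ := hℓ.eventually_lt_const hlt
    obtain ⟨y, hy⟩ := (atImInfty_mem _).mp hev
    have hK := ModularGroup.isCompact_truncatedFundamentalDomain (max y w₁.im)
    have hne : (ModularGroup.truncatedFundamentalDomain (max y w₁.im)).Nonempty :=
      ⟨w₁, hw₁, le_max_right _ _⟩
    obtain ⟨w₀, hw₀, hmax⟩ := hK.exists_isMaxOn hne hv.continuousOn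
    refine ⟨w₀, hw₀.1, fun w hw => ?_⟩
    by_cases hw' : w.im ≤ max y w₁.im
    · exact hmax ⟨hw, hw'⟩
    · push Not at hw'
      have h1 : v w < v w₁ := hy w ((le_max_left _ _).trans hw'.le)
      have h2 : v w₁ ≤ v w₀ := hmax ⟨hw₁, le_max_right _ _⟩
      exact (h1.trans_le h2).le

/-- If `F : ℍ → ℂ` is holomorphic, `h`-periodic, tends to `L` at `i∞` and `Re F ≤ Re L`
everywhere, then `F` is constant equal to `L` (maximum principle at the cusp, in the variable
`q = exp (2 π i z / h)`). -/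
theorem eq_const_of_re_le_limit {F : ℍ → ℂ}
    (hF : DifferentiableOn ℂ (F ∘ ofComplex) {z | 0 < z.im})
    {h : ℕ} (hh : 0 < h) (hper : ∀ z : ℍ, F ((h : ℝ) +ᵥ z) = F z) {L : ℂ}
    (hL : Tendsto F atImInfty (𝓝 L)) (hle : ∀ z : ℍ, (F z).re ≤ L.re) : ∀ z, F z = L := by
  set f : ℂ → ℂ := F ∘ ofComplex with hf
  have hh' : (0 : ℝ) < (h : ℝ) := by exact_mod_cast hh
  have hfper : Function.Periodic f (h : ℝ) := by
    intro z
    by_cases hz : 0 < z.im
    · have hz' : 0 < (z + ((h : ℝ) : ℂ)).im := by simpa using hz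
      simp only [hf, comp_apply, ofComplex_apply_of_im_pos hz, ofComplex_apply_of_im_pos hz']
      rw [← hper ⟨z, hz⟩]
      congr 1
      ext
      simp [add_comm]
    · push Not at hz
      have hz' : (z + ((h : ℝ) : ℂ)).im ≤ 0 := by simpa using hz
      simp only [hf, comp_apply, ofComplex_apply_eq_of_im_nonpos hz' hz]
  have hhol : ∀ z : ℂ, 0 < z.im → DifferentiableAt ℂ f z := fun z hz =>
    (hF z hz).differentiableAt (isOpen_upperHalfPlaneSet.mem_nhds hz)
  have hhol' : ∀ᶠ z in comap Complex.im atTop, DifferentiableAt ℂ f z := by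
    filter_upwards [preimage_mem_comap (Ioi_mem_atTop 0)] with z hz using hhol z hz
  have hlim : Tendsto f (comap Complex.im atTop) (𝓝 L) := hL.comp tendsto_comap_im_ofComplex
  have hbd : BoundedAtFilter (comap Complex.im atTop) f := hlim.isBigO_one ℝ
  set c := Function.Periodic.cuspFunction (h : ℝ) f with hc
  have hFf : ∀ z : ℍ, f z = F z := fun z => by simp [hf]
  have hc0 : c 0 = L := by
    have h1 : Tendsto (fun z : ℍ => f z) atImInfty (𝓝 (c 0)) :=
      (Function.Periodic.tendsto_at_I_inf hh' hfper hhol' hbd).comp tendsto_coe_atImInfty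
    simp only [hFf] at h1
    exact tendsto_nhds_unique h1 hL
  have hcdiff : DifferentiableOn ℂ c (Metric.ball 0 1) := by
    intro q hq
    apply DifferentiableAt.differentiableWithinAt
    by_cases hq0 : q = 0
    · subst hq0
      exact Function.Periodic.differentiableAt_cuspFunction_zero hh' hfper hhol' hbd
    · have hq1 : ‖q‖ < 1 := by simpa using hq
      have hq2 : 0 < ‖q‖ := norm_pos_iff.mpr hq0
      have him : 0 < (Function.Periodic.invQParam (h : ℝ) q).im := by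
        rw [Function.Periodic.im_invQParam]
        have hlog : Real.log ‖q‖ < 0 := Real.log_neg hq2 hq1
        have : -(h : ℝ) / (2 * Real.pi) < 0 := by
          apply div_neg_of_neg_of_pos (by linarith) (by positivity)
        exact mul_pos_of_neg_of_neg this hlog
      have := Function.Periodic.differentiableAt_cuspFunction hh'.ne' hfper (hhol _ him)
      rwa [Function.Periodic.qParam_right_inv hh'.ne' hq0] at this
  have hcle : ∀ q ∈ Metric.ball (0 : ℂ) 1, (c q).re ≤ (c 0).re := by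
    intro q hq
    by_cases hq0 : q = 0
    · rw [hq0]
    · rw [hc0, hc, Function.Periodic.cuspFunction_eq_of_nonzero _ _ hq0]
      exact hle _
  have hconst := eqOn_of_re_le Metric.isOpen_ball (convex_ball (0 : ℂ) 1).isPreconnected hcdiff
    (Metric.mem_ball_self one_pos) hcle
  intro z
  have h1 : c (Function.Periodic.qParam (h : ℝ) z) = f z :=
    Function.Periodic.eq_cuspFunction hh'.ne' hfper z
  have h2 : Function.Periodic.qParam (h : ℝ) z ∈ Metric.ball (0 : ℂ) 1 := by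
    simpa using Function.Periodic.norm_qParam_lt_one hh' (z := (z : ℂ)) z.im_pos
  rw [← hFf z, ← h1, hconst _ h2, hc0]

theorem mdiff_comp_smul {G : ℍ → ℂ} (hG : MDiff G) (δ : SL(2, ℤ)) :
    MDiff (fun w : ℍ => G (δ • w)) := by
  have h : MDiff (fun τ : ℍ => (Matrix.SpecialLinearGroup.mapGL ℝ δ) • τ) :=
    mdifferentiable_smul (by simp)
  exact hG.comp h

theorem continuous_of_mdiff {G : ℍ → ℂ} (hG : MDiff G) : Continuous G := hG.continuous

/-- **Core of the injectivity of the period map.** A holomorphic function on `ℍ` whose real part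
is invariant under a finite index subgroup `Γ` of `SL(2, ℤ)`, and which is periodic and has a limit
at every cusp, is constant. -/
theorem const_of_re_invariant (Γ : Subgroup SL(2, ℤ)) [Γ.FiniteIndex] (G : ℍ → ℂ)
    (hG : MDiff G)
    (hinv : ∀ γ ∈ Γ, ∀ z : ℍ, (G (γ • z)).re = (G z).re)
    (hper : ∀ δ : SL(2, ℤ), ∃ h : ℕ, 0 < h ∧ ∀ z : ℍ, G (δ • ((h : ℝ) +ᵥ z)) = G (δ • z))
    (hlim : ∀ δ : SL(2, ℤ), ∃ L : ℂ, Tendsto (fun w : ℍ => G (δ • w)) atImInfty (𝓝 L)) :
    ∃ c : ℂ, ∀ z, G z = c := by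
  classical
  have hcont : Continuous G := hG.continuous
  have : Finite (SL(2, ℤ) ⧸ Γ) := Subgroup.finite_quotient_of_finiteIndex
  -- the finitely many conjugate functions
  have key : ∀ q : SL(2, ℤ) ⧸ Γ, ∃ s : ℝ, (∀ w ∈ 𝒟, (G (q.out⁻¹ • w)).re ≤ s) ∧
      ((∃ w₀ : ℍ, s = (G (q.out⁻¹ • w₀)).re) ∨
        (∃ L : ℂ, Tendsto (fun w : ℍ => G (q.out⁻¹ • w)) atImInfty (𝓝 L) ∧ s = L.re)) := by
    intro q
    obtain ⟨L, hL⟩ := hlim q.out⁻¹
    have hv : Continuous (fun w : ℍ => (G (q.out⁻¹ • w)).re) :=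
      Complex.continuous_re.comp (mdiff_comp_smul hG q.out⁻¹).continuous
    have hℓ : Tendsto (fun w : ℍ => (G (q.out⁻¹ • w)).re) atImInfty (𝓝 L.re) :=
      (Complex.continuous_re.tendsto L).comp hL
    rcases fd_dichotomy hv hℓ with ⟨w₀, _, hw₀⟩ | h
    · exact ⟨_, hw₀, Or.inl ⟨w₀, rfl⟩⟩
    · exact ⟨_, h, Or.inr ⟨L, hL, rfl⟩⟩
  choose s hs1 hs2 using key
  obtain ⟨q₀, hq₀⟩ := Finite.exists_max s
  -- global bound
  have hglob : ∀ z : ℍ, (G z).re ≤ s q₀ := by
    intro z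
    obtain ⟨g, hg⟩ := ModularGroup.exists_smul_mem_fd z
    set q : SL(2, ℤ) ⧸ Γ := QuotientGroup.mk g with hq
    obtain ⟨γ, hγ⟩ := QuotientGroup.mk_out_eq_mul Γ g
    have h1 : q.out⁻¹ • (g • z) = (γ : SL(2, ℤ))⁻¹ • z := by
      rw [hq, hγ, mul_inv_rev, mul_smul, inv_smul_smul]
    have h2 := hs1 q (g • z) hg
    rw [h1, hinv _ (Γ.inv_mem γ.2)] at h2
    exact h2.trans (hq₀ q)
  have hGdiff : DifferentiableOn ℂ (G ∘ ofComplex) {z : ℂ | 0 < z.im} :=
    mdifferentiable_iff.mp hG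
  rcases hs2 q₀ with ⟨w₀, hw₀⟩ | ⟨L, hL, hsL⟩
  · -- the maximum is attained at an interior point
    set z₀ : ℍ := q₀.out⁻¹ • w₀ with hz₀
    have hmax : ∀ z ∈ {z : ℂ | 0 < z.im}, ((G ∘ ofComplex) z).re ≤ ((G ∘ ofComplex) z₀).re := by
      intro z _
      simp only [comp_apply, ofComplex_apply]
      rw [← hw₀]
      exact hglob _
    have hconst := eqOn_of_re_le isOpen_upperHalfPlaneSet
      (convex_halfSpace_im_gt 0).isPreconnected hGdiff z₀.im_pos hmax
    refine ⟨G z₀, fun z => ?_⟩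
    have := hconst z z.im_pos
    simpa using this
  · -- the supremum is the limit at a cusp
    set δ : SL(2, ℤ) := q₀.out⁻¹ with hδ
    obtain ⟨h, hh, hperh⟩ := hper δ
    have hFd : DifferentiableOn ℂ ((fun w : ℍ => G (δ • w)) ∘ ofComplex) {z : ℂ | 0 < z.im} :=
      mdifferentiable_iff.mp (mdiff_comp_smul hG δ)
    have hle : ∀ z : ℍ, ((fun w : ℍ => G (δ • w)) z).re ≤ L.re := by
      intro z
      rw [← hsL]
      exact hglob _
    have hconst := eq_const_of_re_le_limit hFd hh hperh hL hle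
    refine ⟨L, fun z => ?_⟩
    have := hconst (δ⁻¹ • z)
    simpa using this

theorem tendsto_vadd_atImInfty (x : ℝ) :
    Tendsto (fun w : ℍ => x +ᵥ w) atImInfty atImInfty := by
  simp only [atImInfty, tendsto_comap_iff, Function.comp_def, vadd_im]
  exact tendsto_comap

/-- Variant of `const_of_re_invariant` where only *quasi*-periodicity at the cusps is assumed
(`G (δ • (h +ᵥ z)) = G (δ • z) + c`): the limit clause forces `c = 0`. -/
theorem const_of_re_invariant' (Γ : Subgroup SL(2, ℤ)) [Γ.FiniteIndex] (G : ℍ → ℂ)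
    (hG : MDiff G)
    (hinv : ∀ γ ∈ Γ, ∀ z : ℍ, (G (γ • z)).re = (G z).re)
    (hqper : ∀ δ : SL(2, ℤ), ∃ h : ℕ, 0 < h ∧ ∃ c : ℂ,
      ∀ z : ℍ, G (δ • ((h : ℝ) +ᵥ z)) = G (δ • z) + c)
    (hlim : ∀ δ : SL(2, ℤ), ∃ L : ℂ, Tendsto (fun w : ℍ => G (δ • w)) atImInfty (𝓝 L)) :
    ∃ c : ℂ, ∀ z, G z = c := by
  refine const_of_re_invariant Γ G hG hinv (fun δ => ?_) hlim
  obtain ⟨h, hh, c, hc⟩ := hqper δ
  obtain ⟨L, hL⟩ := hlim δ
  refine ⟨h, hh, ?_⟩
  have h1 : Tendsto (fun w : ℍ => G (δ • ((h : ℝ) +ᵥ w))) atImInfty (𝓝 L) :=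
    hL.comp (tendsto_vadd_atImInfty (h : ℝ))
  have h2 : Tendsto (fun w : ℍ => G (δ • ((h : ℝ) +ᵥ w))) atImInfty (𝓝 (L + c)) := by
    simp only [hc]
    exact hL.add_const c
  have h3 : L = L + c := tendsto_nhds_unique h1 h2
  have hc0 : c = 0 := by
    have := h3.symm
    simpa using this
  intro z
  rw [hc z, hc0, add_zero]

end Fermat.Agent.S21.H85
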