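import Mathlib
import Fermat.Prelude.Def_ModularCurve_PeriodHomPair
import Fermat.Agent.S21.H85_MaxPrinciple

set_option autoImplicit false

open UpperHalfPlane CongruenceSubgroup Filter Topology Function Complex
open ModularCurve ModularCurve.Period
open scoped MatrixGroups Modular Manifold ComplexConjugate

namespace Fermat.Agent.S21.H85

/-- The reflection `z ↦ -conj z` of the upper half plane. -/
noncomputable def cc (z : ℍ) : ℍ := ⟨-conj (z : ℂ), by simpa using z.im_pos⟩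

@[simp] theorem coe_cc (z : ℍ) : ((cc z : ℍ) : ℂ) = -conj (z : ℂ) := rfl

@[simp] theorem cc_cc (z : ℍ) : cc (cc z) = z := by
  ext; simp

@[simp] theorem im_cc (z : ℍ) : (cc z).im = z.im := by
  show (-conj (z : ℂ)).im = (z : ℂ).im
  simp

theorem tendsto_cc : Tendsto cc atImInfty atImInfty := by
  simp only [atImInfty, tendsto_comap_iff, Function.comp_def, im_cc]
  exact tendsto_comap

theorem cc_smul (γ : SL(2, ℤ)) (z : ℍ) : cc (γ • z) = jConjSL γ • cc z := by
  ext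
  rw [coe_cc, coe_specialLinearGroup_apply, coe_specialLinearGroup_apply, coe_cc]
  simp only [jConjSL_coe, jConjMat_apply_zero_zero, jConjMat_apply_zero_one,
    jConjMat_apply_one_zero, jConjMat_apply_one_one]
  simp only [map_div₀, map_add, map_mul, algebraMap_int_eq, eq_intCast,
    Int.cast_neg, Complex.ofReal_neg, Complex.ofReal_intCast, map_intCast]
  rw [← neg_div]
  congr 1 <;> ring

theorem mdiff_of_hasDerivAt {F f : ℍ → ℂ}
    (h : ∀ τ : ℍ, HasDerivAt (F ∘ ofComplex) (f τ) ↑τ) : MDiff F := by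
  rw [mdifferentiable_iff]
  intro z hz
  exact (h ⟨z, hz⟩).differentiableAt.differentiableWithinAt

theorem ofComplex_neg_conj {z : ℂ} (hz : 0 < z.im) :
    ofComplex (-conj z) = cc (ofComplex z) := by
  have h1 : 0 < (-conj z).im := by simpa using hz
  rw [ofComplex_apply_of_im_pos h1, ofComplex_apply_of_im_pos hz]
  rfl

theorem mdiff_conj_cc {V : ℍ → ℂ} (hV : MDiff V) : MDiff (fun z : ℍ => conj (V (cc z))) := by
  rw [mdifferentiable_iff] at hV ⊢
  intro z hz
  apply DifferentiableAt.differentiableWithinAt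
  -- φ := (V ∘ ofComplex) ∘ neg is differentiable at conj z
  have h1 : 0 < (-conj z).im := by simpa using hz
  have hφ : DifferentiableAt ℂ (fun x : ℂ => (V ∘ ofComplex) (-x)) (conj z) := by
    have h2 : DifferentiableAt ℂ (V ∘ ofComplex) (-conj z) :=
      (hV (-conj z) h1).differentiableAt (isOpen_upperHalfPlaneSet.mem_nhds h1)
    exact DifferentiableAt.comp (f := fun x : ℂ => -x) (g := V ∘ ofComplex) (conj z) h2
      differentiableAt_id.neg
  have h3 := hφ.conj_conj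
  rw [Complex.conj_conj] at h3
  refine h3.congr_of_eventuallyEq ?_
  filter_upwards [isOpen_upperHalfPlaneSet.mem_nhds hz] with w hw
  simp only [comp_apply]
  rw [ofComplex_neg_conj hw]

theorem eq_zero_of_const_of_hasDerivAt {F : ℍ → ℂ} {c a : ℂ} (hF : ∀ z, F z = c) {τ : ℍ}
    (h : HasDerivAt (F ∘ ofComplex) a ↑τ) : a = 0 := by
  have h1 : F ∘ ofComplex = fun _ => c := by
    ext z; simp [hF]
  rw [h1] at h
  exact h.unique (hasDerivAt_const _ _)

theorem conj_T_pow_mem_Gamma0 (N : ℕ) (δ : SL(2, ℤ)) :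
    δ * ModularGroup.T ^ (N : ℤ) * δ⁻¹ ∈ Gamma0 N := by
  have h1 : ModularGroup.T ^ (N : ℤ) ∈ CongruenceSubgroup.Gamma N := by
    simpa using ModularGroup_T_pow_mem_Gamma (N : ℤ) (N : ℤ) dvd_rfl
  have h2 : δ * ModularGroup.T ^ (N : ℤ) * δ⁻¹ ∈ CongruenceSubgroup.Gamma N := (Gamma_normal N).conj_mem _ h1 δ
  rw [Gamma_mem] at h2
  rw [Gamma0_mem]
  exact h2.2.2.1

theorem smul_vadd_eq_conj_smul (N : ℕ) (δ : SL(2, ℤ)) (z : ℍ) :
    δ • (((N : ℕ) : ℝ) +ᵥ z) = (δ * ModularGroup.T ^ (N : ℤ) * δ⁻¹) • (δ • z) := by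
  rw [mul_smul, mul_smul, inv_smul_smul, modular_T_zpow_smul]
  simp

/-- **Injectivity core**: if the period homomorphisms of `u` and `v` satisfy
`P_u + ι P_v = 0`, then `u = v = 0`. -/
theorem eq_zero_of_periods (N : ℕ) [NeZero N] (u v : CuspForm (Gamma0 N) 2) (U V : ℍ → ℂ)
    (hU : HasEquivariantPrimitive N u U) (hV : HasEquivariantPrimitive N v V)
    (hzero : ∀ γ : Gamma0 N,
      hU.2.2.1.period γ + hV.2.2.1.period (jConjGamma0 N γ) = 0) :
    u = 0 ∧ v = 0 := by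
  have hUe := hU.2.2.1
  have hVe := hV.2.2.1
  have hUl := hU.2.2.2
  have hVl := hV.2.2.2
  set pU : Gamma0 N → ℂ := fun γ => hU.2.2.1.period γ with hpU
  set pV : Gamma0 N → ℂ := fun γ => hV.2.2.1.period γ with hpV
  have hzero' : ∀ γ : Gamma0 N, pU γ + pV (jConjGamma0 N γ) = 0 := hzero
  set W : ℍ → ℂ := fun z => conj (V (cc z)) with hW
  have hUm : MDiff U := mdiff_of_hasDerivAt hU.1
  have hVm : MDiff V := mdiff_of_hasDerivAt hV.1
  have hWm : MDiff W := mdiff_conj_cc hVm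
  -- transformation laws
  have hUγ : ∀ (γ : Gamma0 N) (z : ℍ), U ((γ : SL(2, ℤ)) • z) = U z + pU γ := fun γ z => by
    have := hUe.sub_eq_period γ z
    simp only [hpU]
    linear_combination this
  have hVγ : ∀ (γ : Gamma0 N) (z : ℍ), V ((γ : SL(2, ℤ)) • z) = V z + pV γ := fun γ z => by
    have := hVe.sub_eq_period γ z
    simp only [hpV]
    linear_combination this
  have hWγ : ∀ (γ : Gamma0 N) (z : ℍ),
      W ((γ : SL(2, ℤ)) • z) = W z + conj (pV (jConjGamma0 N γ)) := by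
    intro γ z
    simp only [hW]
    rw [cc_smul, ← map_add]
    congr 1
    exact hVγ (jConjGamma0 N γ) (cc z)
  -- the two holomorphic functions
  set G₁ : ℍ → ℂ := fun z => U z + W z with hG₁
  set G₂ : ℍ → ℂ := fun z => -Complex.I * (U z - W z) with hG₂
  have hG₁m : MDiff G₁ := hUm.add hWm
  have hG₂m : MDiff G₂ := by
    have h1 : MDiff (fun z : ℍ => U z - W z) := hUm.sub hWm
    have h2 : MDiff (fun _ : ℍ => -Complex.I) := mdifferentiable_const
    exact h2.mul h1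
  -- invariance of the real parts
  have hre : ∀ γ : Gamma0 N, (pU γ).re + (pV (jConjGamma0 N γ)).re = 0 := fun γ => by
    have := congrArg Complex.re (hzero' γ)
    simpa using this
  have him : ∀ γ : Gamma0 N, (pU γ).im + (pV (jConjGamma0 N γ)).im = 0 := fun γ => by
    have := congrArg Complex.im (hzero' γ)
    simpa using this
  have hinv₁ : ∀ γ ∈ Gamma0 N, ∀ z : ℍ, (G₁ (γ • z)).re = (G₁ z).re := by
    intro γ hγ z
    have h1 := hUγ ⟨γ, hγ⟩ z
    have h2 := hWγ ⟨γ, hγ⟩ z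
    have h3 := hre ⟨γ, hγ⟩
    simp only [hG₁]
    rw [h1, h2]
    simp only [Complex.add_re, Complex.conj_re]
    linarith
  have hinv₂ : ∀ γ ∈ Gamma0 N, ∀ z : ℍ, (G₂ (γ • z)).re = (G₂ z).re := by
    intro γ hγ z
    have h1 := hUγ ⟨γ, hγ⟩ z
    have h2 := hWγ ⟨γ, hγ⟩ z
    have h3 := him ⟨γ, hγ⟩
    simp only [hG₂]
    rw [h1, h2]
    simp only [Complex.mul_re, Complex.neg_re, Complex.neg_im, Complex.I_re, Complex.I_im,
      Complex.sub_im, Complex.add_im, Complex.conj_im]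
    linarith
  -- quasi-periodicity at the cusps
  have hq₁ : ∀ δ : SL(2, ℤ), ∃ h : ℕ, 0 < h ∧ ∃ c : ℂ,
      ∀ z : ℍ, G₁ (δ • ((h : ℝ) +ᵥ z)) = G₁ (δ • z) + c := by
    intro δ
    refine ⟨N, NeZero.pos N, ?_⟩
    set γ₀ : Gamma0 N := ⟨δ * ModularGroup.T ^ (N : ℤ) * δ⁻¹, conj_T_pow_mem_Gamma0 N δ⟩
    refine ⟨pU γ₀ + conj (pV (jConjGamma0 N γ₀)), fun z => ?_⟩
    have key : δ • (((N : ℕ) : ℝ) +ᵥ z) = ((γ₀ : Gamma0 N) : SL(2, ℤ)) • (δ • z) :=
      smul_vadd_eq_conj_smul N δ z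
    rw [key]
    simp only [hG₁]
    rw [hUγ, hWγ]
    ring
  have hq₂ : ∀ δ : SL(2, ℤ), ∃ h : ℕ, 0 < h ∧ ∃ c : ℂ,
      ∀ z : ℍ, G₂ (δ • ((h : ℝ) +ᵥ z)) = G₂ (δ • z) + c := by
    intro δ
    refine ⟨N, NeZero.pos N, ?_⟩
    set γ₀ : Gamma0 N := ⟨δ * ModularGroup.T ^ (N : ℤ) * δ⁻¹, conj_T_pow_mem_Gamma0 N δ⟩
    refine ⟨-Complex.I * (pU γ₀ - conj (pV (jConjGamma0 N γ₀))), fun z => ?_⟩
    have key : δ • (((N : ℕ) : ℝ) +ᵥ z) = ((γ₀ : Gamma0 N) : SL(2, ℤ)) • (δ • z) :=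
      smul_vadd_eq_conj_smul N δ z
    rw [key]
    simp only [hG₂]
    rw [hUγ, hWγ]
    ring
  -- limits at the cusps
  have hlimW : ∀ δ : SL(2, ℤ), ∃ L : ℂ, Tendsto (fun w : ℍ => W (δ • w)) atImInfty (𝓝 L) := by
    intro δ
    obtain ⟨L, hL⟩ := hVl (jConjSL δ)
    refine ⟨conj L, ?_⟩
    have h1 : (fun w : ℍ => W (δ • w)) = fun w : ℍ => conj (V (jConjSL δ • cc w)) := by
      ext w
      simp only [hW, cc_smul]
    rw [h1]
    exact (Complex.continuous_conj.tendsto L).comp (hL.comp tendsto_cc)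
  have hlim₁ : ∀ δ : SL(2, ℤ), ∃ L : ℂ, Tendsto (fun w : ℍ => G₁ (δ • w)) atImInfty (𝓝 L) := by
    intro δ
    obtain ⟨L1, h1⟩ := hUl δ
    obtain ⟨L2, h2⟩ := hlimW δ
    exact ⟨L1 + L2, h1.add h2⟩
  have hlim₂ : ∀ δ : SL(2, ℤ), ∃ L : ℂ, Tendsto (fun w : ℍ => G₂ (δ • w)) atImInfty (𝓝 L) := by
    intro δ
    obtain ⟨L1, h1⟩ := hUl δ
    obtain ⟨L2, h2⟩ := hlimW δ
    exact ⟨-Complex.I * (L1 - L2), (h1.sub h2).const_mul (-Complex.I)⟩
  obtain ⟨c₁, hc₁⟩ := const_of_re_invariant' (Gamma0 N) G₁ hG₁m hinv₁ hq₁ hlim₁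
  obtain ⟨c₂, hc₂⟩ := const_of_re_invariant' (Gamma0 N) G₂ hG₂m hinv₂ hq₂ hlim₂
  have hsub : ∀ z, U z - W z = Complex.I * c₂ := by
    intro z
    have h2 := hc₂ z
    simp only [hG₂] at h2
    rw [← h2]
    have : Complex.I * (-Complex.I * (U z - W z)) = -(Complex.I * Complex.I) * (U z - W z) := by ring
    rw [this, Complex.I_mul_I]
    ring
  have hUc : ∀ z, U z = (c₁ + Complex.I * c₂) / 2 := by
    intro z
    have h1 := hc₁ z
    simp only [hG₁] at h1
    have h3 := hsub z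
    linear_combination (1 / 2 : ℂ) * h1 + (1 / 2 : ℂ) * h3
  have hWc : ∀ z, W z = (c₁ - Complex.I * c₂) / 2 := by
    intro z
    have h1 := hc₁ z
    simp only [hG₁] at h1
    have h3 := hsub z
    linear_combination (1 / 2 : ℂ) * h1 - (1 / 2 : ℂ) * h3
  have hVc : ∀ z, V z = conj ((c₁ - Complex.I * c₂) / 2) := by
    intro z
    have h1 := hWc (cc z)
    simp only [hW, cc_cc] at h1
    rw [← h1, Complex.conj_conj]
  constructor
  · ext τ
    exact eq_zero_of_const_of_hasDerivAt hUc (hU.1 τ)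
  · ext τ
    exact eq_zero_of_const_of_hasDerivAt hVc (hV.1 τ)

/-- **Part C of Eichler–Shimura**: the period pairing `periodHomPair N` is injective, given the
outputs of part A (existence of equivariant primitives, linearity of the period map). -/
theorem periodHomPair_injective (N : ℕ) [NeZero N]
    (hex : ∀ f : CuspForm (Gamma0 N) 2, ∃ F : ℍ → ℂ, HasEquivariantPrimitive N f F)
    (hlin : ExistsPeriodMapLinear N) : Function.Injective (periodHomPair N) := by
  obtain ⟨pml, hpml, hdef⟩ := periodHomPair_def N hlin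
  rw [← LinearMap.ker_eq_bot, LinearMap.ker_eq_bot']
  rintro ⟨f, g⟩ h0
  rw [hdef] at h0
  -- rewrite in terms of u = f + g, v = f - g
  have h1 : periodMap N (f + g) + charInvolution N ℂ ℂ (periodMap N (f - g)) = 0 := by
    rw [← hpml, ← hpml, map_add, map_sub, map_sub]
    simp only [LinearMap.coprod_apply, LinearMap.comp_apply, LinearMap.add_apply,
      LinearMap.sub_apply, LinearMap.id_apply] at h0
    rw [← h0]
    abel
  obtain ⟨U₁, hU₁⟩ := hex (f + g)
  obtain ⟨V₁, hV₁⟩ := hex (f - g)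
  obtain ⟨U, hU, hUeq⟩ := periodMap_def N (f + g) hU₁
  obtain ⟨V, hV, hVeq⟩ := periodMap_def N (f - g) hV₁
  have hzero : ∀ γ : Gamma0 N,
      hU.2.2.1.period γ + hV.2.2.1.period (jConjGamma0 N γ) = 0 := by
    intro γ
    have h2 := DFunLike.congr_fun h1 (Additive.ofMul γ)
    rw [hUeq, hVeq] at h2
    simpa using h2
  obtain ⟨hu, hv⟩ := eq_zero_of_periods N (f + g) (f - g) U V hU hV hzero
  have hf : f = 0 := by
    have : (2 : ℂ) • f = 0 := by
      rw [two_smul]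
      calc f + f = (f + g) + (f - g) := by abel
        _ = 0 := by rw [hu, hv, add_zero]
    exact (smul_eq_zero.mp this).resolve_left two_ne_zero
  have hg : g = 0 := by
    rw [hf, zero_add] at hu
    exact hu
  rw [hf, hg]
  rfl

end Fermat.Agent.S21.H85
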