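import Mathlib
import Fermat.Prelude.Def_ModularCurve_PeriodHomPair
import Fermat.Agent.S21.H85_MaxPrinciple

set_option autoImplicit false

open UpperHalfPlane CongruenceSubgroup Filter Topology Function Matrix
open Matrix.SpecialLinearGroup Matrix.GeneralLinearGroup
open ModularCurve ModularCurve.Period
open scoped MatrixGroups Modular Manifold ComplexConjugate

namespace Fermat.Agent.S21.H85

/-- An upper triangular element of `SL(2, ℤ)` acts on `ℍ` as an integer translation. -/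
theorem exists_smul_eq_vadd_of_upperTriangular (h : SL(2, ℤ)) (h10 : h 1 0 = 0) :
    ∃ k : ℤ, ∀ z : ℍ, h • z = (k : ℝ) +ᵥ z := by
  have hdet : h 0 0 * h 1 1 = 1 := by
    have := h.det_coe
    rw [Matrix.det_fin_two, h10] at this
    linarith
  refine ⟨h 0 1 * h 1 1, fun z => ?_⟩
  ext
  rw [coe_specialLinearGroup_apply, coe_vadd, h10]
  simp only [algebraMap_int_eq, eq_intCast, Int.cast_zero, Complex.ofReal_zero, zero_mul, zero_add,
    Complex.ofReal_intCast, Int.cast_mul, Complex.ofReal_mul]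
  rcases Int.mul_eq_one_iff_eq_one_or_neg_one.mp hdet with ⟨h0, h1⟩ | ⟨h0, h1⟩
  · rw [h0, h1]; simp; ring
  · rw [h0, h1]; simp; ring

/-- An element of `SL(2, ℤ)` with `trace ^ 2 = 4` acts on `ℍ` as a conjugate of an integer
translation. -/
theorem exists_smul_eq_vadd (γ : SL(2, ℤ))
    (htr : (γ : Matrix (Fin 2) (Fin 2) ℤ).trace ^ 2 = 4) :
    ∃ (δ : SL(2, ℤ)) (k : ℤ), ∀ z : ℍ, γ • (δ • z) = δ • ((k : ℝ) +ᵥ z) := by
  by_cases h10 : γ 1 0 = 0
  · obtain ⟨k, hk⟩ := exists_smul_eq_vadd_of_upperTriangular γ h10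
    exact ⟨1, k, fun z => by rw [one_smul, one_smul, hk]⟩
  · set g : GL (Fin 2) ℝ := mapGL ℝ γ with hg
    have hg10 : g 1 0 ≠ 0 := by
      have : g 1 0 = ((γ 1 0 : ℤ) : ℝ) := by simp [hg]
      rw [this]
      exact_mod_cast h10
    have hpar : g.IsParabolic := by
      refine ⟨?_, ?_⟩
      · rintro ⟨a, ha⟩
        have := congr_fun₂ ha 1 0
        simp only [Matrix.scalar_apply, Matrix.diagonal_apply_ne' _ (by decide : (0 : Fin 2) ≠ 1)]
          at this
        exact hg10 this.symm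
      · rw [Matrix.discr_fin_two]
        have h1 : (g : Matrix (Fin 2) (Fin 2) ℝ).trace
            = (((γ : Matrix (Fin 2) (Fin 2) ℤ).trace : ℤ) : ℝ) := by
          simp [hg, Matrix.trace_fin_two]
        have h2 : (g : Matrix (Fin 2) (Fin 2) ℝ).det = 1 := by
          have := det_mapGL (S := ℝ) γ
          rw [← hg] at this
          have h3 := congrArg Units.val this
          simpa using h3
        rw [h1, h2]
        have : ((((γ : Matrix (Fin 2) (Fin 2) ℤ).trace : ℤ) : ℝ)) ^ 2 = 4 := by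
          exact_mod_cast htr
        rw [this]; norm_num
    have hfix : g • g.parabolicFixedPoint = g.parabolicFixedPoint :=
      hpar.smul_eq_self_iff.mpr rfl
    have hcusp : IsCusp g.parabolicFixedPoint 𝒮ℒ := ⟨g, ⟨γ, rfl⟩, hpar, hfix⟩
    obtain ⟨δ, hδ⟩ := isCusp_SL2Z_iff'.mp hcusp
    set h : SL(2, ℤ) := δ⁻¹ * γ * δ with hh
    have hinf : mapGL ℝ h • (OnePoint.infty : OnePoint ℝ) = OnePoint.infty := by
      rw [hh, map_mul, map_mul, mul_smul, mul_smul, ← hδ, ← hg, hfix, hδ, map_inv,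
        inv_smul_smul]
    have h10' : h 1 0 = 0 := by
      have := OnePoint.smul_infty_eq_self_iff.mp hinf
      have h2 : (mapGL ℝ h) 1 0 = ((h 1 0 : ℤ) : ℝ) := by simp
      rw [h2] at this
      exact_mod_cast this
    obtain ⟨k, hk⟩ := exists_smul_eq_vadd_of_upperTriangular h h10'
    refine ⟨δ, k, fun z => ?_⟩
    rw [← hk z, hh, mul_smul, mul_smul, smul_inv_smul]

/-- Periods of elements with `trace ^ 2 = 4` vanish (they fix a cusp; use the limit clause). -/
theorem period_eq_zero_of_trace_sq {N : ℕ} {f : CuspForm (Gamma0 N) 2} {F : ℍ → ℂ}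
    (hF : HasEquivariantPrimitive N f F) (γ : Gamma0 N)
    (htr : (((γ : SL(2, ℤ)) : Matrix (Fin 2) (Fin 2) ℤ)).trace ^ 2 = 4) :
    hF.2.2.1.period γ = 0 := by
  obtain ⟨δ, k, hδk⟩ := exists_smul_eq_vadd (γ : SL(2, ℤ)) htr
  obtain ⟨L, hL⟩ := hF.2.2.2 δ
  have h1 : ∀ w : ℍ, F (δ • ((k : ℝ) +ᵥ w)) - F (δ • w) = hF.2.2.1.period γ := by
    intro w
    rw [← hδk w]
    exact hF.2.2.1.sub_eq_period γ (δ • w)
  have h2 : Tendsto (fun w : ℍ => F (δ • ((k : ℝ) +ᵥ w)) - F (δ • w)) atImInfty (𝓝 (L - L)) :=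
    (hL.comp (tendsto_vadd_atImInfty (k : ℝ))).sub hL
  simp only [h1, sub_self] at h2
  exact tendsto_nhds_unique tendsto_const_nhds h2

/-- **Part B**: the period map lands in the parabolic homomorphisms. -/
theorem periodMap_mem_parabolicHoms (N : ℕ)
    (hex : ∀ f : CuspForm (Gamma0 N) 2, ∃ F : ℍ → ℂ, HasEquivariantPrimitive N f F)
    (f : CuspForm (Gamma0 N) 2) : periodMap N f ∈ parabolicHoms ℂ (Gamma0 N) ℂ := by
  obtain ⟨F₁, hF₁⟩ := hex f
  obtain ⟨F, hF, hFeq⟩ := periodMap_def N f hF₁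
  rw [mem_parabolicHoms_iff, hFeq]
  intro γ hγ
  rw [IsEquivariantPrimitive.periodHom_apply]
  exact period_eq_zero_of_trace_sq hF γ hγ

/-- The range of the period pairing consists of parabolic homomorphisms. -/
theorem range_periodHomPair_le (N : ℕ)
    (hex : ∀ f : CuspForm (Gamma0 N) 2, ∃ F : ℍ → ℂ, HasEquivariantPrimitive N f F)
    (hlin : ExistsPeriodMapLinear N) :
    LinearMap.range (periodHomPair N) ≤ parabolicHoms ℂ (Gamma0 N) ℂ := by
  obtain ⟨pml, hpml, hdef⟩ := periodHomPair_def N hlin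
  rintro _ ⟨⟨f, g⟩, rfl⟩
  rw [hdef]
  simp only [LinearMap.coprod_apply, LinearMap.comp_apply, LinearMap.add_apply,
    LinearMap.sub_apply, LinearMap.id_apply, hpml]
  have hf := periodMap_mem_parabolicHoms N hex f
  have hg := periodMap_mem_parabolicHoms N hex g
  exact Submodule.add_mem _
    (Submodule.add_mem _ hf (charInvolution_mem_parabolicHoms N ℂ ℂ hf))
    (Submodule.sub_mem _ hg (charInvolution_mem_parabolicHoms N ℂ ℂ hg))

end Fermat.Agent.S21.H85
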