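import Mathlib
import Fermat.Prelude.Def_ModularCurve_PeriodHomPair
import Fermat.Prelude.Def_ModularCurve_GenusNumerics
import Fermat.Agent.S21.H85_Injective
import Fermat.Agent.S21.H85_Parabolic

set_option autoImplicit false

open UpperHalfPlane CongruenceSubgroup Filter Topology Function
open ModularCurve ModularCurve.Period
open scoped MatrixGroups Modular Manifold

namespace Fermat.Agent.S21.H85

/-- **Final glue for S21** (Eichler–Shimura by dimension count): from part A (`hex`, `hlin`),
finite-dimensionality and the dimension formula for `S₂(Γ₀(N))` (S20), and the upper bound for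
the dimension of the parabolic homomorphisms (PARDIM), deduce the statement of S21. -/
theorem eichlerShimura_of (N : ℕ) [NeZero N]
    (hex : ∀ f : CuspForm (Gamma0 N) 2, ∃ F : ℍ → ℂ, HasEquivariantPrimitive N f F)
    (hlin : ExistsPeriodMapLinear N)
    (hfd : FiniteDimensional ℂ (CuspForm (Gamma0 N) 2))
    (hdim : (Module.finrank ℂ (CuspForm (Gamma0 N) 2) : ℚ) = ModularCurve.genusFormula N)
    (hpar : Module.Finite ℂ (parabolicHoms ℂ (Gamma0 N) ℂ) ∧
      (Module.finrank ℂ (parabolicHoms ℂ (Gamma0 N) ℂ) : ℚ) ≤ 2 * ModularCurve.genusFormula N) :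
    Function.Injective (periodHomPair N) ∧
      LinearMap.range (periodHomPair N) = parabolicHoms ℂ (Gamma0 N) ℂ := by
  have hinj := periodHomPair_injective N hex hlin
  refine ⟨hinj, ?_⟩
  have hle := range_periodHomPair_le N hex hlin
  have := hpar.1
  have hr : Module.finrank ℂ (LinearMap.range (periodHomPair N))
      = 2 * Module.finrank ℂ (CuspForm (Gamma0 N) 2) := by
    rw [LinearMap.finrank_range_of_inj hinj, Module.finrank_prod, two_mul]
  refine Submodule.eq_of_le_of_finrank_le hle ?_
  rw [hr]
  have h1 : (Module.finrank ℂ (parabolicHoms ℂ (Gamma0 N) ℂ) : ℚ)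
      ≤ ((2 * Module.finrank ℂ (CuspForm (Gamma0 N) 2) : ℕ) : ℚ) := by
    push_cast
    rw [hdim]
    exact hpar.2
  exact_mod_cast h1

end Fermat.Agent.S21.H85
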