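import Fermat.Agent.S21.Reflection
import Fermat.Agent.S21.ExpInvariant

set_option autoImplicit false

open UpperHalfPlane hiding I
open Filter Topology Function Complex
open scoped MatrixGroups ModularForm Real Manifold ComplexConjugate
open CongruenceSubgroup ModularCurve ModularCurve.Period

namespace Fermat.Agent.S21

theorem conj_T_pow_mem_Gamma0 (N : ℕ) (δ : SL(2,ℤ)) :
    δ * ModularGroup.T ^ (N : ℤ) * δ⁻¹ ∈ Gamma0 N := by
  have h1 : ModularGroup.T ^ (N : ℤ) ∈ CongruenceSubgroup.Gamma N := by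
    simpa using ModularGroup_T_pow_mem_Gamma (N : ℤ) (N : ℤ) dvd_rfl
  have h2 : δ * ModularGroup.T ^ (N : ℤ) * δ⁻¹ ∈ CongruenceSubgroup.Gamma N :=
    (Gamma_normal N).conj_mem _ h1 δ
  rw [Gamma_mem] at h2
  rw [Gamma0_mem]
  exact h2.2.2.1

theorem trace_conj_T_pow (n : ℤ) (δ : SL(2,ℤ)) :
    ((δ * ModularGroup.T ^ n * δ⁻¹ : SL(2,ℤ)) : Matrix (Fin 2) (Fin 2) ℤ).trace ^ 2 = 4 := by
  have : ((δ * ModularGroup.T ^ n * δ⁻¹ : SL(2,ℤ)) : Matrix (Fin 2) (Fin 2) ℤ).trace
      = ((ModularGroup.T ^ n : SL(2,ℤ)) : Matrix (Fin 2) (Fin 2) ℤ).trace := by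
    rw [Matrix.SpecialLinearGroup.coe_mul, Matrix.SpecialLinearGroup.coe_mul,
      Matrix.trace_mul_cycle, ← Matrix.SpecialLinearGroup.coe_mul,
      ← Matrix.SpecialLinearGroup.coe_mul]
    simp
  rw [this, ModularGroup.coe_T_zpow, Matrix.trace_fin_two_of]
  norm_num

section

variable {N : ℕ} [NeZero N] {f : CuspForm (Gamma0 N) 2} {F : ℍ → ℂ}

omit [NeZero N] in
theorem starFun_smul_sub (hF : HasEquivariantPrimitive N f F) (γ : Gamma0 N) (w : ℍ) :
    starFun F ((γ : SL(2,ℤ)) • w) - starFun F w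
      = conj (periodMap N f (Additive.ofMul (jConjGamma0 N γ))) := by
  rw [periodMap_apply N f hF (jConjGamma0 N γ) (J • w), jConjGamma0_coe,
    jConjSL_smul_J_smul, starFun_apply, starFun_apply, map_sub]

theorem primitive_smul_conj_T (hF : HasEquivariantPrimitive N f F) (δ : SL(2,ℤ)) (w : ℍ) :
    F (δ • (ModularGroup.T ^ (N : ℤ) • w)) = F (δ • w) := by
  set γ : Gamma0 N := ⟨δ * ModularGroup.T ^ (N : ℤ) * δ⁻¹, conj_T_pow_mem_Gamma0 N δ⟩ with hγ
  have h1 : periodMap N f (Additive.ofMul γ) = 0 :=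
    (mem_parabolicHoms_iff.mp (periodMap_mem_parabolicHoms N f)) γ (trace_conj_T_pow _ δ)
  have h2 := periodMap_apply N f hF γ (δ • w)
  rw [h1] at h2
  have h3 : ((γ : Gamma0 N) : SL(2,ℤ)) • (δ • w) = δ • (ModularGroup.T ^ (N : ℤ) • w) := by
    rw [hγ]
    simp only [← mul_smul]
    congr 1
    group
  rw [h3] at h2
  exact (sub_eq_zero.mp h2.symm)

theorem starFun_smul_conj_T (hF : HasEquivariantPrimitive N f F) (δ : SL(2,ℤ)) (w : ℍ) :
    starFun F (δ • (ModularGroup.T ^ (N : ℤ) • w)) = starFun F (δ • w) := by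
  set γ : Gamma0 N := ⟨δ * ModularGroup.T ^ (N : ℤ) * δ⁻¹, conj_T_pow_mem_Gamma0 N δ⟩ with hγ
  have htr : (((jConjGamma0 N γ : Gamma0 N) : SL(2,ℤ)) : Matrix (Fin 2) (Fin 2) ℤ).trace ^ 2
      = 4 := by
    rw [jConjGamma0_coe, jConjSL_coe, jConjMat_trace]
    exact trace_conj_T_pow _ δ
  have h1 : periodMap N f (Additive.ofMul (jConjGamma0 N γ)) = 0 :=
    (mem_parabolicHoms_iff.mp (periodMap_mem_parabolicHoms N f)) _ htr
  have h2 := starFun_smul_sub hF γ (δ • w)
  rw [h1, map_zero] at h2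
  have h3 : ((γ : Gamma0 N) : SL(2,ℤ)) • (δ • w) = δ • (ModularGroup.T ^ (N : ℤ) • w) := by
    rw [hγ]
    simp only [← mul_smul]
    congr 1
    group
  rw [h3] at h2
  exact sub_eq_zero.mp h2

omit [NeZero N] in
theorem tendsto_starFun_smul (hF : HasEquivariantPrimitive N f F) (δ : SL(2,ℤ)) :
    ∃ L : ℂ, Tendsto (fun w : ℍ => starFun F (δ • w)) atImInfty (𝓝 L) := by
  obtain ⟨L, hL⟩ := hF.2.2.2 (jConjSL δ)
  refine ⟨conj L, ?_⟩
  have h1 : (fun w : ℍ => starFun F (δ • w)) = fun w => conj (F (jConjSL δ • (J • w))) := by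
    funext w
    rw [starFun_apply, jConjSL_smul_J_smul]
  rw [h1]
  exact (Complex.continuous_conj.tendsto L).comp (hL.comp tendsto_J_smul_atImInfty)

/-- Key step of **Part C**. -/
theorem eq_zero_of_periodMap_add_involution (f : CuspForm (Gamma0 N) 2) (ε : ℝ)
    (h : ∀ γ : Gamma0 N, periodMap N f (Additive.ofMul γ)
      + ε * periodMap N f (Additive.ofMul (jConjGamma0 N γ)) = 0) : f = 0 := by
  obtain ⟨F, hF⟩ := exists_hasEquivariantPrimitive N f
  have hN : 0 < N := Nat.pos_of_ne_zero (NeZero.ne N)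
  -- the combined functions
  have hder : ∀ c : ℝ, ∀ τ : ℍ, HasDerivAt ((fun w : ℍ => F w + c * starFun F w) ∘ ofComplex)
      (f τ + c * (-(starFun f τ))) τ := by
    intro c τ
    exact (hF.1 τ).add ((hasDerivAt_starFun hF.1 τ).const_mul (c : ℂ))
  have hperc : ∀ c : ℝ, ∀ (δ : SL(2,ℤ)) (w : ℍ),
      (fun w : ℍ => F w + c * starFun F w) (δ • (ModularGroup.T ^ (N : ℤ) • w))
        = (fun w : ℍ => F w + c * starFun F w) (δ • w) := by
    intro c δ w
    simp only
    rw [primitive_smul_conj_T hF, starFun_smul_conj_T hF]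
  have hlimc : ∀ c : ℝ, ∀ δ : SL(2,ℤ), ∃ L : ℂ,
      Tendsto (fun w : ℍ => (fun w : ℍ => F w + c * starFun F w) (δ • w)) atImInfty (𝓝 L) := by
    intro c δ
    obtain ⟨L1, hL1⟩ := hF.2.2.2 δ
    obtain ⟨L2, hL2⟩ := tendsto_starFun_smul hF δ
    exact ⟨L1 + c * L2, hL1.add (hL2.const_mul (c : ℂ))⟩
  -- the basic relation
  have hrel : ∀ (γ : Gamma0 N) (w : ℍ),
      (F ((γ : SL(2,ℤ)) • w) - F w) + ε * conj (starFun F ((γ : SL(2,ℤ)) • w) - starFun F w)
        = 0 := by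
    intro γ w
    rw [starFun_smul_sub hF, Complex.conj_conj, ← periodMap_apply N f hF γ w]
    exact h γ
  -- first function: real part invariant
  have h1 : ∀ τ : ℍ, f τ + (ε : ℂ) * (-(starFun f τ)) = 0 := by
    refine deriv_eq_zero_of_exp_invariant (Γ := Gamma0 N) (hder ε) (a := 1) one_ne_zero ?_ hN
      (hperc ε) (hlimc ε)
    intro γ hγ z
    have := hrel ⟨γ, hγ⟩ z
    simp only [one_mul, add_re, mul_re, ofReal_re, ofReal_im, zero_mul, sub_zero]
    have h2 := congrArg Complex.re this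
    simp only [add_re, sub_re, mul_re, ofReal_re, ofReal_im, zero_mul, sub_zero, conj_re,
      zero_re] at h2
    linarith
  -- second function: imaginary part invariant
  have h2 : ∀ τ : ℍ, f τ + ((-ε : ℝ) : ℂ) * (-(starFun f τ)) = 0 := by
    refine deriv_eq_zero_of_exp_invariant (Γ := Gamma0 N) (hder (-ε)) (a := -I)
      (neg_ne_zero.mpr I_ne_zero) ?_ hN (hperc (-ε)) (hlimc (-ε))
    intro γ hγ z
    have := hrel ⟨γ, hγ⟩ z
    have h3 := congrArg Complex.im this
    simp only [add_im, sub_im, mul_im, ofReal_re, ofReal_im, zero_mul, add_zero, conj_im,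
      zero_im] at h3
    simp only [neg_mul, neg_re, mul_re, Complex.I_re, Complex.I_im, zero_mul, one_mul, zero_sub,
      neg_neg, add_im, mul_im, ofReal_re, ofReal_im, add_zero, ofReal_neg, neg_im]
    linarith
  ext τ
  have e1 := h1 τ
  have e2 := h2 τ
  push_cast at e2
  have : (2 : ℂ) * f τ = 0 := by linear_combination e1 + e2
  simpa using this

end

end Fermat.Agent.S21
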