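import Mathlib

set_option autoImplicit false

open UpperHalfPlane hiding I
open Filter Topology Function Complex
open scoped MatrixGroups ModularForm Real Manifold

namespace Fermat.Agent.S21

local notation "𝕢" => Periodic.qParam

/-- Right coset representatives of a finite index subgroup. -/
theorem exists_finset_right_coset_reps {G : Type*} [Group G] (Γ : Subgroup G) [Γ.FiniteIndex] :
    ∃ R : Finset G, R.Nonempty ∧ ∀ g : G, ∃ γ ∈ Γ, ∃ r ∈ R, g = γ * r := by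
  classical
  let _ : Fintype (G ⧸ Γ) := Subgroup.fintypeQuotientOfFiniteIndex
  refine ⟨Finset.univ.image (fun q : G ⧸ Γ => (Quotient.out q)⁻¹), ?_, fun g => ?_⟩
  · exact ⟨_, Finset.mem_image_of_mem _ (Finset.mem_univ ((1 : G) : G ⧸ Γ))⟩
  · set q : G ⧸ Γ := ((g⁻¹ : G) : G ⧸ Γ) with hq
    have h1 : ((Quotient.out q : G) : G ⧸ Γ) = ((g⁻¹ : G) : G ⧸ Γ) := Quotient.out_eq q
    have h2 : (Quotient.out q)⁻¹ * g⁻¹ ∈ Γ := QuotientGroup.eq.mp h1
    refine ⟨((Quotient.out q)⁻¹ * g⁻¹)⁻¹, Γ.inv_mem h2, (Quotient.out q)⁻¹,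
      Finset.mem_image_of_mem _ (Finset.mem_univ q), ?_⟩
    group


open Matrix.SpecialLinearGroup in
theorem mdifferentiable_comp_smul {E : ℍ → ℂ} (hol : MDiff E) (δ : SL(2,ℤ)) :
    MDiff (fun w : ℍ => E (δ • w)) := by
  have hd : 0 < (mapGL ℝ δ).val.det := by
    have := det_mapGL (S := ℝ) δ
    have h2 : (mapGL ℝ δ).val.det = ((mapGL ℝ δ).det : ℝ) := rfl
    rw [h2, this]; simp
  exact hol.comp (mdifferentiable_smul hd)

/-- **Maximum principle on a modular curve.** A holomorphic function on the upper half plane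
whose norm is invariant under a finite index subgroup of `SL(2, ℤ)` and which is periodic and
bounded at every cusp is constant. -/
theorem eq_const_of_norm_invariant {Γ : Subgroup SL(2,ℤ)} [Γ.FiniteIndex] {E : ℍ → ℂ}
    (hol : MDiff E) (hinv : ∀ γ ∈ Γ, ∀ z : ℍ, ‖E (γ • z)‖ = ‖E z‖)
    {h : ℝ} (hh : 0 < h)
    (hper : ∀ δ : SL(2,ℤ), Periodic ((fun w : ℍ => E (δ • w)) ∘ ofComplex) h)
    (hbdd : ∀ δ : SL(2,ℤ), IsBoundedAtImInfty (fun w : ℍ => E (δ • w))) :
    ∃ c : ℂ, ∀ z : ℍ, E z = c := by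
  obtain ⟨R, hRne, hR⟩ := exists_finset_right_coset_reps Γ
  -- the cusp functions
  set c : SL(2,ℤ) → ℂ → ℂ := fun δ => cuspFunction h (fun w : ℍ => E (δ • w)) with hc
  have hcdiff : ∀ δ, DifferentiableOn ℂ (c δ) (Metric.ball 0 1) := fun δ =>
    differentiableOn_cuspFunction_ball hh (hper δ) (mdifferentiable_comp_smul hol δ) (hbdd δ)
  have hceq : ∀ δ (w : ℍ), c δ (𝕢 h w) = E (δ • w) := fun δ w =>
    eq_cuspFunction (f := fun w : ℍ => E (δ • w)) w hh.ne' (hper δ)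
  set r₀ : ℝ := Real.exp (-π / h) with hr₀
  have hr₀pos : 0 < r₀ := Real.exp_pos _
  have hr₀lt : r₀ < 1 := by
    rw [hr₀, Real.exp_lt_one_iff]
    exact div_neg_of_neg_of_pos (neg_lt_zero.mpr Real.pi_pos) hh
  have hqmem : ∀ w : ℍ, 1 / 2 ≤ w.im → 𝕢 h w ∈ Metric.closedBall (0 : ℂ) r₀ := by
    intro w hw
    rw [mem_closedBall_zero_iff, Periodic.norm_qParam, hr₀, Real.exp_le_exp]
    rw [div_le_div_iff_of_pos_right hh]
    have : (1 : ℝ) / 2 ≤ (w : ℂ).im := hw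
    nlinarith [Real.pi_pos]
  -- maximisers on the closed ball
  have hmax : ∀ δ, ∃ q ∈ Metric.closedBall (0 : ℂ) r₀, IsMaxOn (norm ∘ c δ)
      (Metric.closedBall (0 : ℂ) r₀) q := fun δ =>
    (isCompact_closedBall (0 : ℂ) r₀).exists_isMaxOn
      (Metric.nonempty_closedBall.mpr hr₀pos.le)
      ((hcdiff δ).continuousOn.mono (Metric.closedBall_subset_ball hr₀lt)).norm
  choose qmax hqmax_mem hqmax using hmax
  obtain ⟨rs, hrs, hrsmax⟩ := R.exists_max_image (fun r => ‖c r (qmax r)‖) hRne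
  set M : ℝ := ‖c rs (qmax rs)‖ with hM
  -- global bound
  have hbound : ∀ z : ℍ, ‖E z‖ ≤ M := by
    intro z
    obtain ⟨g, hg⟩ := ModularGroup.exists_one_half_le_im_smul z
    obtain ⟨γ, hγ, r, hr, hgr⟩ := hR g⁻¹
    have hz : z = γ • (r • (g • z)) := by
      rw [← mul_smul, ← mul_smul, ← hgr]; simp
    calc ‖E z‖ = ‖E (γ • (r • (g • z)))‖ := by rw [← hz]
      _ = ‖E (r • (g • z))‖ := hinv γ hγ _
      _ = ‖c r (𝕢 h ((g • z : ℍ) : ℂ))‖ := by rw [hceq]
      _ ≤ ‖c r (qmax r)‖ := hqmax r (hqmem _ hg)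
      _ ≤ M := hrsmax r hr
  -- bound for the cusp function on the open ball
  have hcbound : ∀ q ∈ Metric.ball (0 : ℂ) 1, ‖c rs q‖ ≤ M := by
    have hne : ∀ q ∈ Metric.ball (0 : ℂ) 1, q ≠ 0 → ‖c rs q‖ ≤ M := by
      intro q hq hq0
      have him := Periodic.im_invQParam_pos_of_norm_lt_one hh (mem_ball_zero_iff.mp hq) hq0
      have : c rs q = E (rs • ⟨Periodic.invQParam h q, him⟩) := by
        rw [← hceq]
        congr 1
        exact (Periodic.qParam_right_inv hh.ne' hq0).symm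
      rw [this]
      exact hbound _
    intro q hq
    rcases eq_or_ne q 0 with rfl | hq0
    · have hcont : ContinuousAt (c rs) 0 :=
        ((hcdiff rs).differentiableAt (Metric.isOpen_ball.mem_nhds hq)).continuousAt
      have ht : Tendsto (fun q => ‖c rs q‖) (𝓝[≠] (0 : ℂ)) (𝓝 ‖c rs 0‖) :=
        (hcont.norm.tendsto).mono_left nhdsWithin_le_nhds
      refine le_of_tendsto ht ?_
      have hball : Metric.ball (0 : ℂ) 1 ∈ 𝓝[≠] (0 : ℂ) :=
        mem_nhdsWithin_of_mem_nhds (Metric.isOpen_ball.mem_nhds hq)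
      filter_upwards [hball, self_mem_nhdsWithin] with q hq1 hq2
      exact hne q hq1 hq2
    · exact hne q hq hq0
  have hqin : qmax rs ∈ Metric.ball (0 : ℂ) 1 :=
    Metric.closedBall_subset_ball hr₀lt (hqmax_mem rs)
  have hconst := Complex.eq_const_of_exists_max (hcdiff rs) hqin
    (fun q hq => hcbound q hq)
  refine ⟨c rs (qmax rs), fun z => ?_⟩
  have hz : z = rs • (rs⁻¹ • z) := by rw [← mul_smul]; simp
  have hq1 : 𝕢 h (rs⁻¹ • z : ℍ) ∈ Metric.ball (0 : ℂ) 1 := by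
    simpa using Periodic.norm_qParam_lt_one hh (rs⁻¹ • z : ℍ).im_pos
  rw [hz, ← hceq]
  exact hconst hq1

end Fermat.Agent.S21
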