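import Fermat.Agent.S21.PeriodLinear

set_option autoImplicit false

open UpperHalfPlane hiding I
open Filter Topology Function Complex
open scoped MatrixGroups ModularForm Real Manifold
open CongruenceSubgroup ModularCurve ModularCurve.Period

namespace Fermat.Agent.S21

/-- An element of `SL(2, ℤ)` whose trace squares to four is conjugate in `SL(2, ℤ)` to an upper
triangular matrix. -/
theorem exists_conj_lower_left_eq_zero (γ : SL(2,ℤ))
    (h : (γ : Matrix (Fin 2) (Fin 2) ℤ).trace ^ 2 = 4) :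
    ∃ δ : SL(2,ℤ), (δ⁻¹ * γ * δ) 1 0 = 0 := by
  have hdet : γ 0 0 * γ 1 1 - γ 0 1 * γ 1 0 = 1 := by
    have := γ.det_coe
    rwa [Matrix.det_fin_two] at this
  have htr : (γ 0 0 + γ 1 1) ^ 2 = 4 := by
    rwa [Matrix.trace_fin_two] at h
  by_cases hc : γ 1 0 = 0
  · exact ⟨1, by simpa using hc⟩
  · have hg : 0 < Int.gcd (γ 0 0 - γ 1 1) (2 * γ 1 0) := by
      apply Int.gcd_pos_of_ne_zero_right
      simpa using hc
    obtain ⟨p, r, hpr, hp, hr⟩ := Int.exists_gcd_one hg
    set g : ℤ := (Int.gcd (γ 0 0 - γ 1 1) (2 * γ 1 0) : ℤ) with hgdef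
    have hg0 : g ≠ 0 := by
      have : (0 : ℤ) < g := by rw [hgdef]; exact_mod_cast hg
      exact this.ne'
    have hcop : IsCoprime p r := Int.isCoprime_iff_gcd_eq_one.mpr hpr
    obtain ⟨δ, hδ0, hδ1⟩ := hcop.exists_SL2_col 0
    refine ⟨δ, ?_⟩
    have key : γ 1 0 * p ^ 2 + (γ 1 1 - γ 0 0) * p * r - γ 0 1 * r ^ 2 = 0 := by
      have h2 : g ^ 2 * (γ 1 0 * p ^ 2 + (γ 1 1 - γ 0 0) * p * r - γ 0 1 * r ^ 2) = 0 := by
        have e1 : γ 1 0 * (p * g) ^ 2 + (γ 1 1 - γ 0 0) * (p * g) * (r * g) - γ 0 1 * (r * g) ^ 2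
            = 0 := by
          rw [← hp, ← hr]
          linear_combination (-(γ 1 0)) * htr + 4 * γ 1 0 * hdet
        linear_combination e1
      rcases mul_eq_zero.mp h2 with h3 | h3
      · exact absurd ((pow_eq_zero_iff two_ne_zero).mp h3) hg0
      · exact h3
    have : (δ⁻¹ * γ * δ) 1 0 =
        γ 1 0 * (δ 0 0) ^ 2 + (γ 1 1 - γ 0 0) * (δ 0 0) * (δ 1 0) - γ 0 1 * (δ 1 0) ^ 2 := by
      rw [Matrix.SpecialLinearGroup.coe_mul, Matrix.SpecialLinearGroup.coe_mul,
        Matrix.SpecialLinearGroup.coe_inv, Matrix.adjugate_fin_two]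
      simp [Matrix.mul_apply, Fin.sum_univ_two, Matrix.vecMul, dotProduct]
      ring
    rw [this, hδ0, hδ1]
    exact key


theorem tendsto_T_zpow_smul_atImInfty (n : ℤ) :
    Tendsto (fun w : ℍ => ModularGroup.T ^ n • w) atImInfty atImInfty := by
  rw [atImInfty, tendsto_comap_iff]
  have : (UpperHalfPlane.im ∘ fun w : ℍ => ModularGroup.T ^ n • w) = UpperHalfPlane.im := by
    funext w
    exact ModularGroup.im_T_zpow_smul w n
  rw [this]
  exact tendsto_comap

/-- **Part B.** The period map takes values in the parabolic homomorphisms. -/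
theorem periodMap_mem_parabolicHoms (N : ℕ) [NeZero N] (f : CuspForm (Gamma0 N) 2) :
    periodMap N f ∈ parabolicHoms ℂ (Gamma0 N) ℂ := by
  rw [mem_parabolicHoms_iff]
  intro γ hγ
  obtain ⟨F, hF⟩ := exists_hasEquivariantPrimitive N f
  obtain ⟨δ, hδ⟩ := exists_conj_lower_left_eq_zero (γ : SL(2,ℤ)) hγ
  obtain ⟨n, hn⟩ := ModularGroup.exists_eq_T_zpow_of_c_eq_zero hδ
  obtain ⟨L, hL⟩ := hF.2.2.2 δ
  have hconj : ∀ w : ℍ, (γ : SL(2,ℤ)) • (δ • w) = δ • (ModularGroup.T ^ n • w) := by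
    intro w
    rw [← hn w, ← mul_smul, ← mul_smul]
    congr 1
    group
  have hval : ∀ w : ℍ, periodMap N f (Additive.ofMul γ)
      = F (δ • (ModularGroup.T ^ n • w)) - F (δ • w) := by
    intro w
    rw [periodMap_apply N f hF γ (δ • w), hconj]
  have hlim : Tendsto (fun w : ℍ => F (δ • (ModularGroup.T ^ n • w)) - F (δ • w)) atImInfty
      (𝓝 (L - L)) :=
    (hL.comp (tendsto_T_zpow_smul_atImInfty n)).sub hL
  have hconst : Tendsto (fun _ : ℍ => periodMap N f (Additive.ofMul γ)) atImInfty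
      (𝓝 (L - L)) := by
    refine hlim.congr fun w => (hval w).symm
  have := tendsto_nhds_unique hconst tendsto_const_nhds
  rw [sub_self] at this
  exact this.symm

end Fermat.Agent.S21
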