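import Fermat.Agent.S21.Primitive

set_option autoImplicit false

open UpperHalfPlane hiding I
open Filter Topology Function Complex
open scoped MatrixGroups ModularForm Real Manifold
open CongruenceSubgroup ModularCurve ModularCurve.Period

namespace Fermat.Agent.S21

/-- The period homomorphism only depends on the derivative of the primitive. -/
theorem periodHom_eq_of_hasDerivAt {Γ : Subgroup SL(2,ℤ)} {F G f : ℍ → ℂ}
    (hF : ∀ τ : ℍ, HasDerivAt (F ∘ ofComplex) (f τ) τ)
    (hG : ∀ τ : ℍ, HasDerivAt (G ∘ ofComplex) (f τ) τ)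
    (hFe : IsEquivariantPrimitive Γ F) (hGe : IsEquivariantPrimitive Γ G) :
    hFe.periodHom = hGe.periodHom := by
  obtain ⟨c, hc⟩ := exists_const_of_hasDerivAt_eq hF hG
  refine AddMonoidHom.ext fun γ => ?_
  show hFe.period (Additive.toMul γ) = hGe.period (Additive.toMul γ)
  unfold IsEquivariantPrimitive.period
  rw [hc, hc]; ring

/-- The period map of `f` is computed by any equivariant primitive. -/
theorem periodMap_eq (N : ℕ) (f : CuspForm (Gamma0 N) 2) {F : ℍ → ℂ}
    (hF : HasEquivariantPrimitive N f F) : periodMap N f = hF.2.2.1.periodHom := by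
  obtain ⟨F₀, h₀, h⟩ := periodMap_def N f hF
  rw [h]
  exact periodHom_eq_of_hasDerivAt h₀.1 hF.1 _ _

theorem periodMap_apply (N : ℕ) (f : CuspForm (Gamma0 N) 2) {F : ℍ → ℂ}
    (hF : HasEquivariantPrimitive N f F) (γ : Gamma0 N) (z : ℍ) :
    periodMap N f (Additive.ofMul γ) = F ((γ : SL(2,ℤ)) • z) - F z := by
  rw [periodMap_eq N f hF, IsEquivariantPrimitive.periodHom_apply,
    IsEquivariantPrimitive.sub_eq_period]

theorem hasEquivariantPrimitive_add (N : ℕ) {f g : CuspForm (Gamma0 N) 2} {F G : ℍ → ℂ}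
    (hF : HasEquivariantPrimitive N f F) (hG : HasEquivariantPrimitive N g G) :
    HasEquivariantPrimitive N (f + g) (F + G) := by
  refine ⟨fun τ => ?_, ?_, fun γ => ?_, fun δ => ?_⟩
  · have := (hF.1 τ).add (hG.1 τ)
    exact this
  · have := hF.2.1.add hG.2.1
    rw [add_zero] at this
    exact this
  · obtain ⟨c, hc⟩ := hF.2.2.1 γ
    obtain ⟨d, hd⟩ := hG.2.2.1 γ
    exact ⟨c + d, fun z => by simp only [Pi.add_apply]; rw [← hc z, ← hd z]; ring⟩
  · obtain ⟨L, hL⟩ := hF.2.2.2 δ
    obtain ⟨L', hL'⟩ := hG.2.2.2 δ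
    exact ⟨L + L', hL.add hL'⟩

theorem hasEquivariantPrimitive_smul (N : ℕ) (a : ℂ) {f : CuspForm (Gamma0 N) 2} {F : ℍ → ℂ}
    (hF : HasEquivariantPrimitive N f F) :
    HasEquivariantPrimitive N (a • f) (a • F) := by
  refine ⟨fun τ => ?_, ?_, fun γ => ?_, fun δ => ?_⟩
  · have := (hF.1 τ).const_smul a
    exact this
  · have := hF.2.1.const_smul a
    rw [smul_zero] at this
    exact this
  · obtain ⟨c, hc⟩ := hF.2.2.1 γ
    exact ⟨a * c, fun z => by simp only [Pi.smul_apply, smul_eq_mul]; rw [← hc z]; ring⟩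
  · obtain ⟨L, hL⟩ := hF.2.2.2 δ
    exact ⟨a • L, hL.const_smul a⟩

theorem periodMap_add (N : ℕ) [NeZero N] (f g : CuspForm (Gamma0 N) 2) :
    periodMap N (f + g) = periodMap N f + periodMap N g := by
  obtain ⟨F, hF⟩ := exists_hasEquivariantPrimitive N f
  obtain ⟨G, hG⟩ := exists_hasEquivariantPrimitive N g
  refine AddMonoidHom.ext fun γ => ?_
  obtain ⟨γ, rfl⟩ := Additive.ofMul.surjective γ
  rw [AddMonoidHom.add_apply, periodMap_apply N _ (hasEquivariantPrimitive_add N hF hG) γ UpperHalfPlane.I,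
    periodMap_apply N _ hF γ UpperHalfPlane.I, periodMap_apply N _ hG γ UpperHalfPlane.I]
  simp only [Pi.add_apply]; ring

theorem periodMap_smul (N : ℕ) [NeZero N] (a : ℂ) (f : CuspForm (Gamma0 N) 2) :
    periodMap N (a • f) = a • periodMap N f := by
  obtain ⟨F, hF⟩ := exists_hasEquivariantPrimitive N f
  refine AddMonoidHom.ext fun γ => ?_
  obtain ⟨γ, rfl⟩ := Additive.ofMul.surjective γ
  rw [AddMonoidHom.smul_apply, periodMap_apply N _ (hasEquivariantPrimitive_smul N a hF) γ UpperHalfPlane.I,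
    periodMap_apply N _ hF γ UpperHalfPlane.I]
  simp only [Pi.smul_apply, smul_eq_mul]; ring

/-- **Part A.** The period map is linear. -/
theorem existsPeriodMapLinear (N : ℕ) [NeZero N] : ExistsPeriodMapLinear N :=
  ⟨{ toFun := periodMap N
     map_add' := periodMap_add N
     map_smul' := fun a f => by simpa using periodMap_smul N a f }, fun _ => rfl⟩

/-- The linear period map. -/
noncomputable def periodMapₗ (N : ℕ) [NeZero N] :
    CuspForm (Gamma0 N) 2 →ₗ[ℂ] (Additive (Gamma0 N) →+ ℂ) where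
  toFun := periodMap N
  map_add' := periodMap_add N
  map_smul' := fun a f => by simpa using periodMap_smul N a f

@[simp] theorem periodMapₗ_apply (N : ℕ) [NeZero N] (f : CuspForm (Gamma0 N) 2) :
    periodMapₗ N f = periodMap N f := rfl

/-- Unfolding of the period pairing. -/
theorem periodHomPair_eq (N : ℕ) [NeZero N] :
    periodHomPair N = LinearMap.coprod
      ((LinearMap.id + charInvolution N ℂ ℂ) ∘ₗ periodMapₗ N)
      ((LinearMap.id - charInvolution N ℂ ℂ) ∘ₗ periodMapₗ N) := by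
  obtain ⟨pml, hpml, h⟩ := periodHomPair_def N (existsPeriodMapLinear N)
  have : pml = periodMapₗ N := LinearMap.ext fun f => by rw [hpml]; rfl
  rw [h, this]

end Fermat.Agent.S21
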