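import Mathlib
import Fermat.Prelude.Def_ModularCurve_PeriodHomPair
import Fermat.Prelude.Thm_Subgroup_IsArithmetic_exists_nat_mem_strictPeriods_conj
import Fermat.Prelude.Thm_CongruenceSubgroup_one_mem_strictPeriods_Gamma0

set_option autoImplicit false

open UpperHalfPlane hiding I
open Filter Topology Function Complex
open scoped MatrixGroups ModularForm Real Manifold

namespace Fermat.Agent.S21

local notation "𝕢" => Periodic.qParam

theorem hasDerivAt_qParam (h : ℝ) (z : ℂ) :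
    HasDerivAt (𝕢 h) (2 * π * I / h * 𝕢 h z) z := by
  unfold Periodic.qParam
  have h1 : HasDerivAt (fun z : ℂ => 2 * π * I * z / h) (2 * π * I / h) z := by
    have := ((hasDerivAt_id z).const_mul (2 * π * I)).div_const (h : ℂ)
    simpa using this
  exact (h1.cexp).congr_deriv (mul_comm _ _)

/-- On a neighbourhood of a point of the upper half plane, `G ∘ ofComplex` agrees with
the function obtained by plugging in directly. -/
theorem comp_ofComplex_eventuallyEq (G : ℍ → ℂ) (Gc : ℂ → ℂ) (hG : ∀ τ : ℍ, G τ = Gc τ) (τ : ℍ) :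
    (G ∘ ofComplex) =ᶠ[𝓝 (τ : ℂ)] Gc := by
  have : {z : ℂ | 0 < z.im} ∈ 𝓝 (τ : ℂ) := isOpen_upperHalfPlaneSet.mem_nhds τ.im_pos
  filter_upwards [this] with z hz
  simp only [comp_apply]
  rw [hG, ofComplex_apply_of_im_pos hz]

/-- A periodic holomorphic function on the upper half plane vanishing at `i∞` has a primitive
vanishing at `i∞`. -/
theorem exists_primitive_of_periodic {h : ℝ} (hh : 0 < h) {g : ℍ → ℂ}
    (hper : Periodic (g ∘ ofComplex) h) (hhol : MDiff g) (hzero : IsZeroAtImInfty g) :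
    ∃ G : ℍ → ℂ, (∀ τ : ℍ, HasDerivAt (G ∘ ofComplex) (g τ) τ) ∧ Tendsto G atImInfty (𝓝 0) := by
  have hbdd : IsBoundedAtImInfty g := hzero.isBoundedAtImInfty
  set c := cuspFunction h g with hc
  have hcdiff : DifferentiableOn ℂ c (Metric.ball 0 1) :=
    differentiableOn_cuspFunction_ball hh hper hhol hbdd
  have hc0 : c 0 = 0 := by
    have := cuspFunction_apply_zero hh (analyticAt_cuspFunction_zero hh hper hhol hbdd) hper
    rw [← hc] at this
    rw [this, hzero.valueAtInfty_eq_zero]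
  -- the function c(q)/q
  have hkdiff : DifferentiableOn ℂ (dslope c 0) (Metric.ball 0 1) :=
    (differentiableOn_dslope (Metric.isOpen_ball.mem_nhds (by simp))).mpr hcdiff
  obtain ⟨K, hK0, hK⟩ := (hkdiff.isExactOn_ball).with_val_at 0 0
  have hqball : ∀ τ : ℍ, 𝕢 h τ ∈ Metric.ball (0 : ℂ) 1 := fun τ => by
    simpa using Periodic.norm_qParam_lt_one hh τ.im_pos
  refine ⟨fun τ => (h / (2 * π * I)) * K (𝕢 h τ), fun τ => ?_, ?_⟩
  · refine HasDerivAt.congr_of_eventuallyEq ?_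
      (comp_ofComplex_eventuallyEq _ (fun z => (h / (2 * π * I)) * K (𝕢 h z)) (fun _ => rfl) τ)
    have hq := hasDerivAt_qParam h (τ : ℂ)
    have hKq := hK _ (hqball τ)
    have hcomp := (hKq.comp (τ : ℂ) hq).const_mul ((h : ℂ) / (2 * π * I))
    refine HasDerivAt.congr_deriv (f := fun z : ℂ => (h / (2 * π * I)) * K (𝕢 h z)) hcomp ?_
    have hqne : 𝕢 h (τ : ℂ) ≠ 0 := Periodic.qParam_ne_zero _
    rw [dslope_of_ne _ hqne, slope_def_field, hc0, sub_zero, sub_zero]
    have hval : c (𝕢 h τ) = g τ := eq_cuspFunction τ hh.ne' hper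
    rw [hval]
    have hπ : (2 * π * I : ℂ) ≠ 0 := two_pi_I_ne_zero
    have hh' : (h : ℂ) ≠ 0 := by exact_mod_cast hh.ne'
    field_simp
  · have hKcont : ContinuousAt K 0 := (hK 0 (by simp)).continuousAt
    have hq0 : Tendsto (fun τ : ℍ => 𝕢 h τ) atImInfty (𝓝 0) := qParam_tendsto_atImInfty hh
    have := (hKcont.tendsto.comp hq0).const_mul ((h : ℂ) / (2 * π * I))
    simpa [hK0] using this


open Matrix.SpecialLinearGroup in
theorem det_mapGL_val (δ : SL(2,ℤ)) : (mapGL ℝ δ).val.det = 1 := by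
  have := det_mapGL (S := ℝ) δ
  have h2 : (mapGL ℝ δ).val.det = ((mapGL ℝ δ).det : ℝ) := rfl
  rw [h2, this]; simp

open Matrix.SpecialLinearGroup in
/-- If `F` is a primitive of `f` on the upper half plane, then `F ∘ δ` is a primitive of the
weight two slash `f ∣[2] δ`. -/
theorem hasDerivAt_comp_smul {F f : ℍ → ℂ} (hF : ∀ τ : ℍ, HasDerivAt (F ∘ ofComplex) (f τ) τ)
    (δ : SL(2,ℤ)) (τ : ℍ) :
    HasDerivAt ((fun w : ℍ => F (δ • w)) ∘ ofComplex) ((f ∣[(2:ℤ)] δ) τ) τ := by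
  have hd := det_mapGL_val δ
  have h1 := (hasStrictDerivAt_smul (g := mapGL ℝ δ) (by rw [hd]; exact one_pos) τ).hasDerivAt
  have h2 := hF (δ • τ)
  have h3 : HasDerivAt ((F ∘ ofComplex) ∘ (fun z : ℂ => ((mapGL ℝ δ • ofComplex z : ℍ) : ℂ)))
      (f (δ • τ) * ((mapGL ℝ δ).val.det / denom (mapGL ℝ δ) τ ^ 2)) τ := by
    apply HasDerivAt.comp
    · have : ((mapGL ℝ δ • ofComplex (τ : ℂ) : ℍ) : ℂ) = ((δ • τ : ℍ) : ℂ) := by
        rw [ofComplex_apply]; rfl
      rw [this]; exact h2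
    · exact h1
  have heq : ((fun w : ℍ => F (δ • w)) ∘ ofComplex) =
      ((F ∘ ofComplex) ∘ (fun z : ℂ => ((mapGL ℝ δ • ofComplex z : ℍ) : ℂ))) := by
    funext z
    simp only [comp_apply, ofComplex_apply]
    rfl
  rw [heq]
  refine h3.congr_deriv ?_
  rw [ModularForm.SL_slash_apply, hd]
  simp only [ofReal_one, one_div, zpow_neg]
  rfl

/-- Two primitives of the same function on the upper half plane differ by a constant. -/
theorem exists_const_of_hasDerivAt_eq {F G f : ℍ → ℂ}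
    (hF : ∀ τ : ℍ, HasDerivAt (F ∘ ofComplex) (f τ) τ)
    (hG : ∀ τ : ℍ, HasDerivAt (G ∘ ofComplex) (f τ) τ) : ∃ c : ℂ, ∀ τ : ℍ, F τ = G τ + c := by
  have hopen : IsOpen {z : ℂ | 0 < z.im} := isOpen_upperHalfPlaneSet
  have hconn : IsPreconnected {z : ℂ | 0 < z.im} := by
    apply Convex.isPreconnected
    exact (convex_halfSpace_im_gt 0)
  have hd : ∀ z ∈ {z : ℂ | 0 < z.im},
      HasDerivAt (fun z => (F ∘ ofComplex) z - (G ∘ ofComplex) z) 0 z := by
    intro z hz
    have h1 := hF ⟨z, hz⟩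
    have h2 := hG ⟨z, hz⟩
    exact (h1.sub h2).congr_deriv (sub_self _)
  obtain ⟨a, ha⟩ := hopen.exists_is_const_of_deriv_eq_zero hconn
    (fun z hz => (hd z hz).differentiableAt.differentiableWithinAt)
    (fun z hz => (hd z hz).deriv)
  refine ⟨a, fun τ => ?_⟩
  have := ha τ τ.im_pos
  simp only [comp_apply, ofComplex_apply] at this
  linear_combination this

open CongruenceSubgroup ModularCurve ModularCurve.Period

/-- The weight two slash of a cusp form by an element of `SL(2, ℤ)` has a primitive tending to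
zero at `i∞`. -/
theorem exists_primitive_slash (N : ℕ) [NeZero N] (f : CuspForm (Gamma0 N) 2) (δ : SL(2,ℤ)) :
    ∃ G : ℍ → ℂ, (∀ τ : ℍ, HasDerivAt (G ∘ ofComplex) ((⇑f ∣[(2:ℤ)] δ) τ) τ) ∧
      Tendsto G atImInfty (𝓝 0) := by
  obtain ⟨M, hM, hMper⟩ := Subgroup.IsArithmetic.exists_nat_mem_strictPeriods_conj
    ((Gamma0 N).map (Matrix.SpecialLinearGroup.mapGL ℝ))
  have hMδ := hMper δ⁻¹
  have hM' : (0 : ℝ) < M := by exact_mod_cast hM
  let g := CuspForm.translate f (Matrix.SpecialLinearGroup.mapGL ℝ δ)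
  have hg : (⇑g : ℍ → ℂ) = ⇑f ∣[(2:ℤ)] δ := rfl
  have hper : Periodic ((⇑f ∣[(2:ℤ)] δ) ∘ ofComplex) (M : ℝ) := by
    rw [← hg]
    apply SlashInvariantFormClass.periodic_comp_ofComplex g
    simpa using hMδ
  have hhol : MDiff (⇑f ∣[(2:ℤ)] δ) := by
    rw [← hg]; exact CuspFormClass.holo g
  have hzero : IsZeroAtImInfty (⇑f ∣[(2:ℤ)] δ) := CuspFormClass.zero_at_infty_slash f δ
  exact exists_primitive_of_periodic hM' hper hhol hzero

theorem slash_eq_self_of_mem (N : ℕ) (f : CuspForm (Gamma0 N) 2) (γ : SL(2,ℤ))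
    (hγ : γ ∈ Gamma0 N) : (⇑f ∣[(2:ℤ)] γ) = ⇑f := by
  have := SlashInvariantFormClass.slash_action_eq f (Matrix.SpecialLinearGroup.mapGL ℝ γ)
    (Subgroup.mem_map_of_mem _ hγ)
  exact this

/-- **Part A, existence.** Every weight two cusp form of level `Γ₀(N)` has an equivariant
primitive in the sense of the prelude. -/
theorem exists_hasEquivariantPrimitive (N : ℕ) [NeZero N] (f : CuspForm (Gamma0 N) 2) :
    ∃ F : ℍ → ℂ, HasEquivariantPrimitive N f F := by
  obtain ⟨F, hF, hF0⟩ := exists_primitive_slash N f 1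
  have h1 : (⇑f ∣[(2:ℤ)] (1 : SL(2,ℤ))) = ⇑f := SlashAction.slash_one _ _
  rw [h1] at hF
  refine ⟨F, hF, hF0, ?_, ?_⟩
  · intro γ
    have hd := hasDerivAt_comp_smul hF (γ : SL(2,ℤ))
    rw [slash_eq_self_of_mem N f γ γ.2] at hd
    obtain ⟨c, hc⟩ := exists_const_of_hasDerivAt_eq hd hF
    exact ⟨c, fun z => by rw [hc z]; ring⟩
  · intro δ
    obtain ⟨G, hG, hG0⟩ := exists_primitive_slash N f δ
    have hd := hasDerivAt_comp_smul hF δ
    obtain ⟨c, hc⟩ := exists_const_of_hasDerivAt_eq hd hG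
    refine ⟨c, ?_⟩
    have : (fun w : ℍ => F (δ • w)) = fun w => G w + c := funext hc
    rw [this]
    simpa using hG0.add_const c

end Fermat.Agent.S21
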