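import Fermat.Agent.S21.Parabolic

set_option autoImplicit false

open UpperHalfPlane hiding I
open Filter Topology Function Complex
open scoped MatrixGroups ModularForm Real Manifold ComplexConjugate
open CongruenceSubgroup ModularCurve ModularCurve.Period

namespace Fermat.Agent.S21

/-- Conjugation by `diag(1,-1)` is compatible with the reflection `w ↦ -conj w`. -/
theorem jConjSL_smul_J_smul (δ : SL(2,ℤ)) (w : ℍ) :
    (jConjSL δ) • (J • w) = J • (δ • w) := by
  apply UpperHalfPlane.ext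
  rw [coe_J_smul, coe_specialLinearGroup_apply, coe_specialLinearGroup_apply, coe_J_smul]
  simp only [jConjSL_coe, jConjMat_apply_zero_zero, jConjMat_apply_zero_one,
    jConjMat_apply_one_zero, jConjMat_apply_one_one]
  simp only [map_div₀, map_add, map_mul, algebraMap_int_eq, eq_intCast,
    Int.cast_neg, ofReal_neg, ofReal_intCast, map_intCast]
  have hden : ((δ 1 0 : ℤ) : ℂ) * conj (w : ℂ) + ((δ 1 1 : ℤ) : ℂ) ≠ 0 := by
    have := denom_ne_zero (Matrix.SpecialLinearGroup.mapGL ℝ δ) w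
    have h2 : conj (denom (Matrix.SpecialLinearGroup.mapGL ℝ δ) w) ≠ 0 := by
      simp [this]
    convert h2 using 1
    simp [denom]
  have hden' : -((δ 1 0 : ℤ) : ℂ) * -conj (w : ℂ) + ((δ 1 1 : ℤ) : ℂ) ≠ 0 := by
    convert hden using 1; ring
  field_simp
  ring

theorem tendsto_J_smul_atImInfty : Tendsto (fun w : ℍ => J • w) atImInfty atImInfty := by
  rw [atImInfty, tendsto_comap_iff]
  have : (UpperHalfPlane.im ∘ fun w : ℍ => J • w) = UpperHalfPlane.im := by
    funext w
    show (J • w).im = w.im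
    rw [← UpperHalfPlane.coe_im, coe_J_smul]
    simp
  rw [this]
  exact tendsto_comap

theorem J_smul_J_smul (w : ℍ) : J • (J • w) = w := by
  apply UpperHalfPlane.ext
  rw [coe_J_smul, coe_J_smul]
  simp

/-- The holomorphic function `w ↦ conj (F (-conj w))`. -/
noncomputable def starFun (F : ℍ → ℂ) : ℍ → ℂ := fun w => conj (F (J • w))

theorem starFun_apply (F : ℍ → ℂ) (w : ℍ) : starFun F w = conj (F (J • w)) := rfl

theorem hasDerivAt_starFun {F f : ℍ → ℂ} (hF : ∀ τ : ℍ, HasDerivAt (F ∘ ofComplex) (f τ) τ)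
    (τ : ℍ) : HasDerivAt (starFun F ∘ ofComplex) (-(starFun f τ)) τ := by
  have h1 := hF (J • τ)
  rw [coe_J_smul] at h1
  -- derivative of z ↦ conj (F∘ofComplex (conj z')) at z' = -τ
  have h2 : HasDerivAt (conj ∘ (F ∘ ofComplex) ∘ conj) (conj (f (J • τ))) (conj (-conj (τ : ℂ))) :=
    h1.conj_conj
  have h3 : HasDerivAt (fun z : ℂ => -z) (-1) (τ : ℂ) := (hasDerivAt_id _).neg
  have h4 : conj (-conj (τ : ℂ)) = -(τ : ℂ) := by simp
  rw [h4] at h2
  have h5 := h2.comp (τ : ℂ) h3
  have h6 : (starFun F ∘ ofComplex) =ᶠ[𝓝 (τ : ℂ)]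
      ((conj ∘ (F ∘ ofComplex) ∘ conj) ∘ fun z : ℂ => -z) := by
    have : {z : ℂ | 0 < z.im} ∈ 𝓝 (τ : ℂ) := isOpen_upperHalfPlaneSet.mem_nhds τ.im_pos
    filter_upwards [this] with z hz
    simp only [comp_apply, starFun_apply]
    congr 2
    apply UpperHalfPlane.ext
    rw [coe_J_smul, ofComplex_apply_of_im_pos hz]
    have : 0 < (conj (-z)).im := by simpa using hz
    rw [ofComplex_apply_of_im_pos this]
    simp
  refine (h5.congr_of_eventuallyEq h6).congr_deriv ?_
  simp [starFun_apply]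

end Fermat.Agent.S21
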